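import Mathlib
import Fermat.Agent.S24.AnaEv
import Fermat.Agent.S24.AnaTwist
import Fermat.Agent.S24.DistJd

/-!
# S20, package DICT (forward half): the map `Φ f = f / DJ` on cusp forms of weight `2`

For `f : CuspForm (Gamma0 N) 2`:

* `s20_num N f : ana_ring N` : the numerator `f E₄ E₆ / Δ`, a holomorphic modular function of
  level `N` (all translates `N`-periodic, pole of order at most `N - 1` in `q_N` at `i∞`);
* `s20_Phi N f : ana_M N` : `Φ f = - (f E₄ E₆ / Δ) / (J (J - 1728)) = f / DJ`;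
* `s20_Phi_act` : `Φ f` is `Γ₀(N)`-invariant; `s20_Phi_add`, `s20_Phi_smul`, `s20_Phi_injective`;
* `s20_Phi_spec` : `Φ f · DJ = f` in the field of meromorphic functions on `ℍ`;
* `s20_Phi_fin` : `Φ f · DJ` has no poles in `ℍ`;
* `s20_Phi_cusp` : every translate of `Φ f` vanishes to order at least `N + 1` in `q_N` at `i∞`;
* `s20_Phi_eq_of_spec` : an element `x` with `x · DJ = f` is `Φ f`.
-/

set_option autoImplicit false

noncomputable section

namespace Fermat.Agent.S20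

open UpperHalfPlane hiding I
open Filter Function Topology ModularForm Complex CongruenceSubgroup
open Fermat.Agent.S23 Fermat.Agent.S24
open scoped Manifold MatrixGroups ModularForm Real

local notation "Δ" => ModularForm.discriminant
local notation "𝕢" => Function.Periodic.qParam

/-! ### the numerator, function level -/

/-- The numerator `F E₄ E₆ / Δ` (weight `0` if `F` has weight `2`). -/
def dfn_numFun (F : ℍ → ℂ) (τ : ℍ) : ℂ := F τ * E₄ τ * E₆ τ / Δ τ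

theorem dfn_numFun_apply (F : ℍ → ℂ) (τ : ℍ) : dfn_numFun F τ = F τ * E₄ τ * E₆ τ / Δ τ := rfl

theorem dfn_numFun_smul (F : ℍ → ℂ) (g : SL(2, ℤ)) (τ : ℍ) :
    dfn_numFun F (g • τ) = dfn_numFun (F ∣[(2 : ℤ)] g) τ := by
  unfold dfn_numFun
  rw [ModularForm.SL_slash_apply, ord_E4_smul, ord_E6_smul, ord_disc_smul]
  have hd := denom_ne_zero g τ
  have hΔ := ord_disc_ne_zero τ
  have h4 : denom g τ ^ (4 : ℤ) = denom g τ ^ 4 := zpow_ofNat _ 4
  have h6 : denom g τ ^ (6 : ℤ) = denom g τ ^ 6 := zpow_ofNat _ 6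
  have h12 : denom g τ ^ (12 : ℤ) = denom g τ ^ 12 := zpow_ofNat _ 12
  have h2 : denom g τ ^ (-(2 : ℤ)) = (denom g τ ^ 2)⁻¹ := by
    rw [zpow_neg]
    congr 1
  rw [h4, h6, h12, h2]
  field_simp

theorem dfn_mdiff_numFun {F : ℍ → ℂ} (hF : MDiff F) : MDiff (dfn_numFun F) := by
  have h : dfn_numFun F = (F * (fun τ : ℍ => E₄ τ) * (fun τ : ℍ => E₆ τ)) / (fun τ : ℍ => Δ τ) := by
    funext τ; rfl
  rw [h]
  exact ((hF.mul ord_mdiff_E4).mul ord_mdiff_E6).div ord_mdiff_disc ord_disc_ne_zero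

theorem dfn_numFun_add (F G : ℍ → ℂ) : dfn_numFun (F + G) = dfn_numFun F + dfn_numFun G := by
  funext τ
  simp only [dfn_numFun, Pi.add_apply]
  ring

theorem dfn_numFun_smul_const (c : ℂ) (F : ℍ → ℂ) :
    dfn_numFun (c • F) = fun τ => c * dfn_numFun F τ := by
  funext τ
  simp only [dfn_numFun, Pi.smul_apply, smul_eq_mul]
  ring

/-! ### slash and translation -/

theorem dfn_denom_T_pow (n : ℕ) (τ : ℍ) : denom (ModularGroup.T ^ n : SL(2, ℤ)) τ = 1 := by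
  have h := ModularGroup.coe_T_zpow (n : ℤ)
  rw [zpow_natCast] at h
  rw [ModularGroup.denom_apply]
  have h10 : ((ModularGroup.T ^ n : SL(2, ℤ)) 1 0 : ℤ) = 0 := by
    have := congrFun (congrFun h 1) 0
    simpa using this
  have h11 : ((ModularGroup.T ^ n : SL(2, ℤ)) 1 1 : ℤ) = 1 := by
    have := congrFun (congrFun h 1) 1
    simpa using this
  rw [h10, h11]
  simp

theorem dfn_T_pow_smul (n : ℕ) (τ : ℍ) : (ModularGroup.T ^ n : SL(2, ℤ)) • τ = (n : ℝ) +ᵥ τ := by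
  have := modular_T_zpow_smul τ (n : ℤ)
  rw [zpow_natCast] at this
  rw [this]
  simp

theorem dfn_slash_T_pow (F : ℍ → ℂ) (k : ℤ) (n : ℕ) (τ : ℍ) :
    (F ∣[k] (ModularGroup.T ^ n : SL(2, ℤ))) τ = F ((n : ℝ) +ᵥ τ) := by
  rw [ModularForm.SL_slash_apply, dfn_denom_T_pow, one_zpow, mul_one, dfn_T_pow_smul]

variable {N : ℕ}

theorem dfn_slash_of_mem (f : CuspForm (Gamma0 N) 2) (γ : SL(2, ℤ)) (hγ : γ ∈ Gamma0 N) :
    (⇑f : ℍ → ℂ) ∣[(2 : ℤ)] γ = ⇑f :=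
  SlashInvariantFormClass.slash_action_eq f _ ⟨γ, hγ, rfl⟩

/-- The translates `f ∣[2] g` of a cusp form of level `Γ₀(N)` are `N`-periodic. -/
theorem dfn_slash_periodic [NeZero N] (f : CuspForm (Gamma0 N) 2) (g : SL(2, ℤ)) (τ : ℍ) :
    ((⇑f : ℍ → ℂ) ∣[(2 : ℤ)] g) ((N : ℝ) +ᵥ τ) = ((⇑f : ℍ → ℂ) ∣[(2 : ℤ)] g) τ := by
  rw [← dfn_slash_T_pow ((⇑f : ℍ → ℂ) ∣[(2 : ℤ)] g) 2 N τ, ← SlashAction.slash_mul]
  have h2 : g * ModularGroup.T ^ N = (g * ModularGroup.T ^ N * g⁻¹) * g := by group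
  rw [h2, SlashAction.slash_mul, dfn_slash_of_mem f _ (dist_conj_T_pow_mem N g)]

theorem dfn_slash_mdiff (f : CuspForm (Gamma0 N) 2) (g : SL(2, ℤ)) :
    MDiff ((⇑f : ℍ → ℂ) ∣[(2 : ℤ)] g) :=
  (CuspFormClass.holo f).slash 2 _

theorem dfn_slash_zero [NeZero N] (f : CuspForm (Gamma0 N) 2) (g : SL(2, ℤ)) :
    IsZeroAtImInfty ((⇑f : ℍ → ℂ) ∣[(2 : ℤ)] g) :=
  CuspFormClass.zero_at_infty_slash f g

/-! ### boundedness at `i∞` -/

theorem dfn_norm_q (N : ℕ) (τ : ℍ) : ‖ana_q N τ‖ = Real.exp (-2 * π * τ.im / N) := by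
  unfold ana_q
  rw [Function.Periodic.norm_qParam]
  rfl

/-- A holomorphic `N`-periodic function vanishing at `i∞` is divisible by `q_N`. -/
theorem dfn_div_q_bounded (N : ℕ) [NeZero N] {φ : ℍ → ℂ} (hφ : MDiff φ)
    (hper : ∀ τ : ℍ, φ ((N : ℝ) +ᵥ τ) = φ τ) (hz : IsZeroAtImInfty φ) :
    IsBoundedAtImInfty (fun τ : ℍ => φ τ / ana_q N τ) := by
  have hN : (0 : ℝ) < N := Nat.cast_pos.mpr (NeZero.pos N)
  have h := hz.exp_decay_atImInfty hN (ana_periodic_of_vadd hper) hφ hz.boundedAtFilter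
  rw [Asymptotics.isBigO_iff] at h
  obtain ⟨c, hc⟩ := h
  show (fun τ : ℍ => φ τ / ana_q N τ) =O[atImInfty] (1 : ℍ → ℝ)
  rw [Asymptotics.isBigO_iff]
  refine ⟨c, hc.mono fun τ hτ => ?_⟩
  rw [norm_div, dfn_norm_q, Pi.one_apply, norm_one, mul_one, div_le_iff₀ (Real.exp_pos _)]
  rwa [Real.norm_eq_abs, abs_of_pos (Real.exp_pos _)] at hτ

/-- The numerator of a holomorphic `N`-periodic function vanishing at `i∞` has a pole of order
at most `N - 1` in `q_N`. -/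
theorem dfn_numFun_poleLE (N : ℕ) [NeZero N] {φ : ℍ → ℂ} (hφ : MDiff φ)
    (hper : ∀ τ : ℍ, φ ((N : ℝ) +ᵥ τ) = φ τ) (hz : IsZeroAtImInfty φ) :
    ana_PoleLE N (N - 1) (dfn_numFun φ) := by
  unfold ana_PoleLE
  have h1 : (fun τ : ℍ => ana_q N τ ^ (N - 1) * dfn_numFun φ τ)
      = (fun τ : ℍ => φ τ / ana_q N τ) * (fun τ : ℍ => E₄ τ) * (fun τ : ℍ => E₆ τ) * br_V := by
    funext τ
    simp only [Pi.mul_apply, dfn_numFun, br_V]
    rw [← br_qParam_level N (NeZero.pos N)]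
    have hq : ana_q N τ ≠ 0 := ana_q_ne_zero N τ
    have hΔ := ord_disc_ne_zero τ
    have hN : ana_q N τ ^ N = ana_q N τ ^ (N - 1) * ana_q N τ := by
      rw [← pow_succ]
      congr 1
      have := NeZero.pos N
      omega
    show _ = φ τ / ana_q N τ * E₄ τ * E₆ τ * (ana_q N τ ^ N / Δ τ)
    rw [hN]
    field_simp
  rw [h1]
  exact (((dfn_div_q_bounded N hφ hper hz).mul ord_E4_mem.2.2).mul ord_E6_mem.2.2).mul
    br_V_mem.2.2

/-! ### the numerator as an element of `ana_ring N` -/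

theorem dfn_numFun_invariant (f : CuspForm (Gamma0 N) 2) (γ : SL(2, ℤ)) (hγ : γ ∈ Gamma0 N)
    (τ : ℍ) : dfn_numFun (⇑f) (γ • τ) = dfn_numFun (⇑f) τ := by
  rw [dfn_numFun_smul, dfn_slash_of_mem f γ hγ]

theorem dfn_numFun_comp_poleLE [NeZero N] (f : CuspForm (Gamma0 N) 2) (g : SL(2, ℤ)) :
    ana_PoleLE N (N - 1) (fun τ : ℍ => dfn_numFun (⇑f) (g • τ)) := by
  have h : (fun τ : ℍ => dfn_numFun (⇑f) (g • τ)) = dfn_numFun ((⇑f : ℍ → ℂ) ∣[(2 : ℤ)] g) :=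
    funext (dfn_numFun_smul _ g)
  rw [h]
  exact dfn_numFun_poleLE N (dfn_slash_mdiff f g) (dfn_slash_periodic f g) (dfn_slash_zero f g)

theorem dfn_numFun_mem (N : ℕ) [NeZero N] (f : CuspForm (Gamma0 N) 2) :
    dfn_numFun (⇑f) ∈ ana_ring N :=
  ⟨dfn_mdiff_numFun (CuspFormClass.holo f), fun g =>
    ⟨fun τ => dist_periodic_of_invariant N (dfn_numFun_invariant f) g τ, N - 1,
      dfn_numFun_comp_poleLE f g⟩⟩

/-- The numerator `f E₄ E₆ / Δ` of a cusp form of weight `2`, a holomorphic modular function. -/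
def s20_num (N : ℕ) [NeZero N] (f : CuspForm (Gamma0 N) 2) : ana_ring N :=
  ⟨dfn_numFun (⇑f), dfn_numFun_mem N f⟩

@[simp] theorem s20_num_apply [NeZero N] (f : CuspForm (Gamma0 N) 2) (τ : ℍ) :
    (s20_num N f : ℍ → ℂ) τ = f τ * E₄ τ * E₆ τ / Δ τ := rfl

theorem s20_num_comp [NeZero N] (f : CuspForm (Gamma0 N) 2) (γ : SL(2, ℤ))
    (hγ : γ ∈ Gamma0 N) : ana_comp N γ (s20_num N f) = s20_num N f := by
  apply Subtype.ext
  funext τ
  exact dfn_numFun_invariant f γ hγ τ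

theorem s20_num_add [NeZero N] (f g : CuspForm (Gamma0 N) 2) :
    s20_num N (f + g) = s20_num N f + s20_num N g := by
  apply Subtype.ext
  funext τ
  simp only [s20_num_apply, FunLike.coe_add, Subring.coe_add, Pi.add_apply]
  ring

theorem s20_num_smul [NeZero N] (c : ℂ) (f : CuspForm (Gamma0 N) 2) :
    s20_num N (c • f) = ana_const N c * s20_num N f := by
  apply Subtype.ext
  funext τ
  simp only [s20_num_apply, FunLike.coe_smul, Pi.smul_apply, Subring.coe_mul, Pi.mul_apply,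
    ana_const_apply, smul_eq_mul]
  ring

theorem s20_num_comp_poleLE [NeZero N] (f : CuspForm (Gamma0 N) 2) (g : SL(2, ℤ)) :
    ana_PoleLE N (N - 1) (ana_comp N g (s20_num N f) : ℍ → ℂ) :=
  dfn_numFun_comp_poleLE f g

/-! ### pole order and the valuation at `i∞` -/

theorem dfn_val_le_of_poleLE (N : ℕ) [NeZero N] (f : ana_ring N) (m : ℕ)
    (h : ana_PoleLE N m (f : ℍ → ℂ)) :
    atw_valInfty N (algebraMap (ana_ring N) (ana_M N) f) ≤ WithZero.exp (m : ℤ) := by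
  rw [atw_valInfty_algebraMap, ana_laurent_eq (ana_isMer_of_mem f.2) h]
  unfold ana_laurentAux
  rw [map_mul, cf_val_single _ one_ne_zero, neg_neg]
  have h1 : cf_val (HahnSeries.ofPowerSeries ℤ ℂ
      (qExpansion (N : ℝ) (fun τ : ℍ => ana_q N τ ^ m * (f : ℍ → ℂ) τ))) ≤ 1 := by
    rw [cf_val_def]
    exact (LaurentSeries.val_le_one_iff_eq_coe ℂ _).mpr ⟨_, rfl⟩
  calc WithZero.exp (m : ℤ) * _ ≤ WithZero.exp (m : ℤ) * 1 := by gcongr
    _ = WithZero.exp (m : ℤ) := mul_one _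

/-! ### the map `Φ f = f / DJ` -/

/-- The denominator `J (J - 1728)`, in the field `ana_M N`. -/
def dfn_den (N : ℕ) [NeZero N] : ana_M N :=
  algebraMap (ana_ring N) (ana_M N) (ana_J N) *
    (algebraMap (ana_ring N) (ana_M N) (ana_J N)
      - algebraMap (ana_ring N) (ana_M N) (ana_const N 1728))

theorem dfn_valInfty_J (N : ℕ) [NeZero N] :
    atw_valInfty N (algebraMap (ana_ring N) (ana_M N) (ana_J N)) = WithZero.exp (N : ℤ) :=
  atw_valInfty_J N (ana_J N) rfl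

theorem dfn_valInfty_J_sub (N : ℕ) [NeZero N] (c : ℂ) :
    atw_valInfty N (algebraMap (ana_ring N) (ana_M N) (ana_J N)
      - algebraMap (ana_ring N) (ana_M N) (ana_const N c)) = WithZero.exp (N : ℤ) := by
  rw [Valuation.map_sub_eq_of_lt_left, dfn_valInfty_J]
  rw [dfn_valInfty_J]
  by_cases hc : c = 0
  · subst hc
    rw [map_zero, map_zero, map_zero]
    exact WithZero.exp_pos
  · rw [atw_valInfty_const N hc, ← WithZero.exp_zero, WithZero.exp_lt_exp]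
    exact_mod_cast NeZero.pos N

theorem dfn_valInfty_den (N : ℕ) [NeZero N] :
    atw_valInfty N (dfn_den N) = WithZero.exp (2 * (N : ℤ)) := by
  unfold dfn_den
  rw [map_mul, dfn_valInfty_J, dfn_valInfty_J_sub, ← WithZero.exp_add, two_mul]

theorem dfn_den_ne_zero (N : ℕ) [NeZero N] : dfn_den N ≠ 0 := by
  intro h
  have h1 := dfn_valInfty_den N
  rw [h, map_zero] at h1
  exact WithZero.exp_ne_zero h1.symm

theorem dfn_act_den (N : ℕ) [NeZero N] (g : SL(2, ℤ)) : ana_act N g (dfn_den N) = dfn_den N := by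
  unfold dfn_den
  rw [map_mul, map_sub, ana_act_algebraMap, ana_act_algebraMap, ana_comp_J, ana_comp_const]

/-- `Φ f = f / DJ = - (f E₄ E₆ / Δ) / (J (J - 1728))`. -/
def s20_Phi (N : ℕ) [NeZero N] (f : CuspForm (Gamma0 N) 2) : ana_M N :=
  -(algebraMap (ana_ring N) (ana_M N) (s20_num N f)) /
    (algebraMap (ana_ring N) (ana_M N) (ana_J N) *
      (algebraMap (ana_ring N) (ana_M N) (ana_J N)
        - algebraMap (ana_ring N) (ana_M N) (ana_const N 1728)))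

theorem s20_Phi_eq [NeZero N] (f : CuspForm (Gamma0 N) 2) :
    s20_Phi N f = -(algebraMap (ana_ring N) (ana_M N) (s20_num N f)) / dfn_den N := rfl

theorem s20_Phi_act_eq [NeZero N] (f : CuspForm (Gamma0 N) 2) (g : SL(2, ℤ)) :
    ana_act N g (s20_Phi N f)
      = -(algebraMap (ana_ring N) (ana_M N) (ana_comp N g⁻¹ (s20_num N f))) / dfn_den N := by
  rw [s20_Phi_eq, map_div₀, map_neg, dfn_act_den, ana_act_algebraMap]

/-- `Φ f` is invariant under `Γ₀(N)`. -/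
theorem s20_Phi_act [NeZero N] (f : CuspForm (Gamma0 N) 2) (γ : SL(2, ℤ))
    (hγ : γ ∈ Gamma0 N) : ana_act N γ (s20_Phi N f) = s20_Phi N f := by
  rw [s20_Phi_act_eq, s20_num_comp f γ⁻¹ (inv_mem hγ), s20_Phi_eq]

theorem s20_Phi_add [NeZero N] (f g : CuspForm (Gamma0 N) 2) :
    s20_Phi N (f + g) = s20_Phi N f + s20_Phi N g := by
  rw [s20_Phi_eq, s20_Phi_eq, s20_Phi_eq, s20_num_add, map_add, neg_add, add_div]

theorem s20_Phi_smul [NeZero N] (c : ℂ) (f : CuspForm (Gamma0 N) 2) :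
    s20_Phi N (c • f) = algebraMap (ana_ring N) (ana_M N) (ana_const N c) * s20_Phi N f := by
  rw [s20_Phi_eq, s20_Phi_eq, s20_num_smul, map_mul, mul_div_assoc', mul_neg]

theorem s20_Phi_zero [NeZero N] : s20_Phi N (0 : CuspForm (Gamma0 N) 2) = 0 := by
  have h := s20_Phi_add (N := N) 0 0
  rw [add_zero] at h
  exact left_eq_add.mp h

/-- The cusp condition: `Φ f ∘ g` vanishes to order at least `N + 1` in `q_N` at `i∞`. -/
theorem s20_Phi_cusp [NeZero N] (f : CuspForm (Gamma0 N) 2) (g : SL(2, ℤ)) :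
    atw_valInfty N (ana_act N g (s20_Phi N f)) ≤ WithZero.exp (-((N : ℤ) + 1)) := by
  rw [s20_Phi_act_eq, map_div₀, Valuation.map_neg, dfn_valInfty_den,
    div_le_iff₀ WithZero.exp_pos, ← WithZero.exp_add]
  refine (dfn_val_le_of_poleLE N _ (N - 1) (s20_num_comp_poleLE f g⁻¹)).trans ?_
  rw [WithZero.exp_le_exp]
  have := NeZero.pos N
  omega

/-! ### `Φ f · DJ = f` and the finite conditions -/

/-- A cusp form as a holomorphic function. -/
def dfn_hol (f : CuspForm (Gamma0 N) 2) : hol_ring := ⟨⇑f, CuspFormClass.holo f⟩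

@[simp] theorem dfn_hol_apply (f : CuspForm (Gamma0 N) 2) (τ : ℍ) :
    (dfn_hol f : ℍ → ℂ) τ = f τ := rfl

theorem dfn_hol_injective : Function.Injective (dfn_hol (N := N)) := by
  intro f g h
  apply DFunLike.coe_injective
  exact congrArg (fun x : hol_ring => (x : ℍ → ℂ)) h

/-- The derivative `D J = - E₄² E₆ / Δ` as a holomorphic function. -/
def dfn_DJ : hol_ring :=
  ⟨fun τ : ℍ => -(E₄ τ ^ 2 * E₆ τ) / Δ τ, by
    have h : (fun τ : ℍ => -(E₄ τ ^ 2 * E₆ τ) / Δ τ)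
        = (-((fun τ : ℍ => E₄ τ) ^ 2 * (fun τ : ℍ => E₆ τ))) / (fun τ : ℍ => Δ τ) := by
      funext τ; rfl
    show MDiff (fun τ : ℍ => -(E₄ τ ^ 2 * E₆ τ) / Δ τ)
    rw [h]
    exact (((ord_mdiff_E4.pow 2).mul ord_mdiff_E6).neg).div ord_mdiff_disc ord_disc_ne_zero⟩

@[simp] theorem dfn_DJ_apply (τ : ℍ) : (dfn_DJ : ℍ → ℂ) τ = -(E₄ τ ^ 2 * E₆ τ) / Δ τ := rfl

theorem dfn_DJ_eq_D (τ : ℍ) :
    (dfn_DJ : ℍ → ℂ) τ = Derivative.normalizedDerivOfComplex ord_J τ := (ord_D_J τ).symm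

/-- **`Φ f · DJ = f`**, stated for any representative `DJ` of the function `- E₄² E₆ / Δ`. -/
theorem s20_Phi_spec [NeZero N] (f : CuspForm (Gamma0 N) 2) (DJ : hol_ring)
    (hDJ : ∀ τ : ℍ, (DJ : ℍ → ℂ) τ = -(E₄ τ ^ 2 * E₆ τ) / Δ τ) :
    ana_toMer N (s20_Phi N f) * algebraMap hol_ring hol_Mer DJ
      = algebraMap hol_ring hol_Mer ⟨⇑f, CuspFormClass.holo f⟩ := by
  have hden : ana_toMer N (dfn_den N) ≠ 0 := (map_ne_zero _).mpr (dfn_den_ne_zero N)
  rw [s20_Phi_eq, map_div₀, map_neg, div_mul_eq_mul_div, div_eq_iff hden]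
  unfold dfn_den
  rw [map_mul, map_sub, ana_toMer_algebraMap, ana_toMer_algebraMap, ana_toMer_algebraMap,
    ← map_neg, ← map_mul, ← map_sub, ← map_mul, ← map_mul]
  congr 1
  apply hol_ext
  intro τ
  have hΔ := ord_disc_ne_zero τ
  have h1 := ord_J_sub_1728 τ
  simp only [Subring.coe_mul, AddSubgroupClass.coe_sub, Pi.mul_apply, Pi.sub_apply,
    NegMemClass.coe_neg, Pi.neg_apply, ana_incl_apply, s20_num_apply, ana_J_apply,
    ana_const_apply, hDJ]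
  rw [h1, ord_J_def]
  field_simp

theorem s20_Phi_spec' [NeZero N] (f : CuspForm (Gamma0 N) 2) :
    ana_toMer N (s20_Phi N f) * algebraMap hol_ring hol_Mer dfn_DJ
      = algebraMap hol_ring hol_Mer (dfn_hol f) :=
  s20_Phi_spec f dfn_DJ (fun _ => rfl)

theorem s20_Phi_injective [NeZero N] : Function.Injective (s20_Phi N) := by
  intro f g h
  have h1 := s20_Phi_spec' f
  rw [h, s20_Phi_spec' g] at h1
  exact (dfn_hol_injective (IsFractionRing.injective hol_ring hol_Mer h1)).symm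

theorem dfn_hol_val_le_one (τ : ℍ) (h : hol_ring) :
    hol_val τ (algebraMap hol_ring hol_Mer h) ≤ 1 := by
  rw [hol_val_algebraMap']
  by_cases hh : h = 0
  · rw [hh, map_zero]
    exact zero_le_one
  · rw [hol_val₀_apply τ h hh, ← WithZero.exp_zero, WithZero.exp_le_exp]
    omega

/-- The finite condition: `Φ f · DJ` is holomorphic. -/
theorem s20_Phi_fin [NeZero N] (f : CuspForm (Gamma0 N) 2) (DJ : hol_ring)
    (hDJ : ∀ τ : ℍ, (DJ : ℍ → ℂ) τ = -(E₄ τ ^ 2 * E₆ τ) / Δ τ) (τ : ℍ) :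
    hol_val τ (ana_toMer N (s20_Phi N f) * algebraMap hol_ring hol_Mer DJ) ≤ 1 := by
  rw [s20_Phi_spec f DJ hDJ]
  exact dfn_hol_val_le_one τ _

theorem dfn_exists_ne_zero : ∃ τ : ℍ, E₄ τ ≠ 0 ∧ E₆ τ ≠ 0 := by
  have h4 : ∀ᶠ τ : ℍ in atImInfty, E₄ τ ≠ 0 := ord_E4_tendsto.eventually_ne one_ne_zero
  have h6 : ∀ᶠ τ : ℍ in atImInfty, E₆ τ ≠ 0 := ord_E6_tendsto.eventually_ne one_ne_zero
  exact (h4.and h6).exists

theorem dfn_DJ_ne_zero (DJ : hol_ring)
    (hDJ : ∀ τ : ℍ, (DJ : ℍ → ℂ) τ = -(E₄ τ ^ 2 * E₆ τ) / Δ τ) : DJ ≠ 0 := by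
  obtain ⟨τ, h4, h6⟩ := dfn_exists_ne_zero
  rw [hol_ne_zero_iff]
  refine ⟨τ, ?_⟩
  rw [hDJ]
  exact div_ne_zero (neg_ne_zero.mpr (mul_ne_zero (pow_ne_zero 2 h4) h6)) (ord_disc_ne_zero τ)

/-- An element `x` of `ana_M N` with `x · DJ = f` is `Φ f`. -/
theorem s20_Phi_eq_of_spec [NeZero N] (f : CuspForm (Gamma0 N) 2) (x : ana_M N) (DJ : hol_ring)
    (hDJ : ∀ τ : ℍ, (DJ : ℍ → ℂ) τ = -(E₄ τ ^ 2 * E₆ τ) / Δ τ)
    (h : algebraMap hol_ring hol_Mer ⟨⇑f, CuspFormClass.holo f⟩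
      = ana_toMer N x * algebraMap hol_ring hol_Mer DJ) :
    x = s20_Phi N f := by
  apply ana_toMer_injective N
  have h0 : algebraMap hol_ring hol_Mer DJ ≠ 0 := by
    rw [Ne, map_eq_zero_iff _ (IsFractionRing.injective hol_ring hol_Mer)]
    exact dfn_DJ_ne_zero DJ hDJ
  have h1 := s20_Phi_spec f DJ hDJ
  rw [h] at h1
  exact (mul_right_cancel₀ h0 h1).symm

end Fermat.Agent.S20
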