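import Mathlib
import Fermat.Agent.S23.Recon
import Fermat.Agent.S24.Stab
import Fermat.Agent.S24.HolJ
import Fermat.Agent.S24.AnaTwist
import Fermat.Agent.S24.AnaEv

/-!
# S20, package DICT(⊇), core: from invariant meromorphic functions to cusp forms

`DJ = -E₄² E₆ / Δ` is the normalised derivative of `J` (weight `2`, level one).

* `lift_hol_mem_range` : removable singularities — a meromorphic function on `ℍ` (element of
  `hol_Mer`) with nonnegative order at every point is holomorphic.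
* `lift_hol_val_DJ` : `ord_τ (DJ) = ord_τ (J - J τ) - 1`.
* `lift_tendsto_leading` : the leading term of the `q_N`-Laurent expansion at `i∞`.
* `lift_exists_cuspForm` : a `Γ₀(N)`-invariant `x ∈ ana_M N` with `ord_τ (x · DJ) ≥ 0` for all
  `τ` and `q_N`-order `≥ N + 1` for all translates is `f / DJ` for a cusp form `f` of weight `2`
  on `Γ₀(N)`.
-/

set_option autoImplicit false

noncomputable section

namespace Fermat.Agent.S20

open UpperHalfPlane hiding I
open Filter Function Topology ModularForm Complex CongruenceSubgroup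
open Fermat.Agent.S23 Fermat.Agent.S24
open scoped Manifold MatrixGroups ModularForm Real

local notation "Δ" => ModularForm.discriminant
local notation "𝕢" => Function.Periodic.qParam

/-! ## removable singularities -/

/-- Division of holomorphic functions on `ℍ`: if the order of `B` is at most the order of `A`
at every point, then `A / B` is holomorphic. -/
theorem lift_hol_div (A B : ℍ → ℂ) (hA : MDiff A) (hB : MDiff B) (hB0 : B ≠ 0)
    (hord : ∀ τ : ℍ, analyticOrderAt (B ∘ ofComplex) (τ : ℂ)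
      ≤ analyticOrderAt (A ∘ ofComplex) (τ : ℂ)) :
    ∃ G : ℍ → ℂ, MDiff G ∧ ∀ τ, G τ * B τ = A τ := by
  have hB0' : ∃ τ, B τ ≠ 0 := by
    by_contra hcon
    exact hB0 (funext fun τ => by_contra fun h => hcon ⟨τ, h⟩)
  -- local factorisations
  have hloc : ∀ τ : ℍ, ∃ (n : ℕ) (g gB : ℂ → ℂ), AnalyticAt ℂ g τ ∧ AnalyticAt ℂ gB τ ∧
      gB τ ≠ 0 ∧ (∀ᶠ z in 𝓝 (τ : ℂ), (A ∘ ofComplex) z = (z - τ) ^ n • g z) ∧
      (∀ᶠ z in 𝓝 (τ : ℂ), (B ∘ ofComplex) z = (z - τ) ^ n • gB z) := by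
    intro τ
    have hBan := ord_analyticAt hB τ
    have hAan := ord_analyticAt hA τ
    have hne := stab_order_ne_top hB hB0 τ
    obtain ⟨gB, hgB, hgB0, hgBE⟩ := hBan.analyticOrderAt_eq_natCast.mp
      (Nat.cast_analyticOrderNatAt hne).symm
    have hle : ((analyticOrderNatAt (B ∘ ofComplex) (τ : ℂ) : ℕ) : ℕ∞)
        ≤ analyticOrderAt (A ∘ ofComplex) (τ : ℂ) := by
      rw [Nat.cast_analyticOrderNatAt hne]
      exact hord τ
    obtain ⟨g, hg, hgE⟩ := (natCast_le_analyticOrderAt hAan).mp hle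
    exact ⟨_, g, gB, hg, hgB, hgB0, hgE, hgBE⟩
  refine rc_exists_holo_quot A B hA hB hB0' ?_ ?_
  · intro τ
    obtain ⟨n, g, gB, hg, hgB, hgB0, hgE, hgBE⟩ := hloc τ
    have hcont : ContinuousAt (fun z => g z / gB z) (τ : ℂ) :=
      hg.continuousAt.div hgB.continuousAt hgB0
    have hbd : ∀ᶠ z in 𝓝 (τ : ℂ), ‖g z / gB z‖ < ‖g τ / gB τ‖ + 1 :=
      hcont.norm.eventually_lt continuousAt_const (by simp)
    have hgBne : ∀ᶠ z in 𝓝 (τ : ℂ), gB z ≠ 0 := hgB.continuousAt.eventually_ne hgB0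
    refine ⟨‖g τ / gB τ‖ + 1, ?_⟩
    have hev : ∀ᶠ z in 𝓝 (τ : ℂ), (B ∘ ofComplex) z ≠ 0 →
        ‖(A ∘ ofComplex) z / (B ∘ ofComplex) z‖ ≤ ‖g τ / gB τ‖ + 1 := by
      filter_upwards [hgE, hgBE, hbd, hgBne] with z h1 h2 h3 h4 h5
      rw [h2] at h5
      rw [h1, h2]
      simp only [smul_eq_mul] at h5 ⊢
      have hz : (z - (τ : ℂ)) ^ n ≠ 0 := left_ne_zero_of_mul h5
      rw [mul_div_mul_left _ _ hz]
      exact h3.le
    have hcoe : Tendsto (fun w : ℍ => (w : ℂ)) (𝓝 τ) (𝓝 (τ : ℂ)) :=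
      UpperHalfPlane.continuous_coe.continuousAt
    have := hcoe.eventually hev
    filter_upwards [this] with w hw hBw
    have h1 := hw (by simpa using hBw)
    simpa using h1
  · intro τ hτ
    obtain ⟨n, g, gB, hg, hgB, hgB0, hgE, hgBE⟩ := hloc τ
    have h1 := hgBE.self_of_nhds
    have h2 := hgE.self_of_nhds
    simp only [Function.comp_apply, ofComplex_apply, sub_self, smul_eq_mul] at h1 h2
    rw [hτ] at h1
    have hn : ((0 : ℂ)) ^ n = 0 := by
      rcases mul_eq_zero.mp h1.symm with h | h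
      · exact h
      · exact absurd h hgB0
    rw [h2, hn, zero_mul]

/-- **Removable singularities**: a meromorphic function on `ℍ` with nonnegative order at every
point is holomorphic. -/
theorem lift_hol_mem_range (x : hol_Mer) (h : ∀ τ : ℍ, hol_val τ x ≤ 1) :
    ∃ G : hol_ring, algebraMap hol_ring hol_Mer G = x := by
  obtain ⟨a, s, hs, rfl⟩ := IsFractionRing.div_surjective (A := hol_ring) x
  have hs' : s ≠ 0 := nonZeroDivisors.ne_zero hs
  by_cases ha : a = 0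
  · exact ⟨0, by simp [ha]⟩
  have hord : ∀ τ : ℍ, analyticOrderAt ((s : ℍ → ℂ) ∘ ofComplex) (τ : ℂ)
      ≤ analyticOrderAt ((a : ℍ → ℂ) ∘ ofComplex) (τ : ℂ) := by
    intro τ
    have h1 := h τ
    rw [hol_val_div, hol_val₀_apply τ a ha, hol_val₀_apply τ s hs', ← WithZero.exp_sub,
      ← WithZero.exp_zero, WithZero.exp_le_exp] at h1
    rw [← hol_ord_cast τ a ha, ← hol_ord_cast τ s hs']
    have h2 : hol_ord τ s ≤ hol_ord τ a := by omega
    exact_mod_cast h2
  have hs0 : (s : ℍ → ℂ) ≠ 0 := by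
    intro h0
    apply hs'
    apply hol_ext
    intro τ
    rw [h0]
    rfl
  obtain ⟨G, hG, hGs⟩ := lift_hol_div a s (hol_mdiff a) (hol_mdiff s) hs0 hord
  refine ⟨⟨G, hG⟩, ?_⟩
  have hsne : algebraMap hol_ring hol_Mer s ≠ 0 := by
    intro h0
    exact hs' ((IsFractionRing.injective hol_ring hol_Mer) (by rw [h0, map_zero]))
  rw [eq_div_iff hsne, ← map_mul]
  congr 1
  apply hol_ext
  intro τ
  exact hGs τ

/-! ## the derivative of `J` -/

/-- `DJ = -E₄² E₆ / Δ`, the normalised derivative of `J`. -/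
def lift_DJfun (τ : ℍ) : ℂ := -(E₄ τ ^ 2 * E₆ τ) / Δ τ

open Derivative in
theorem lift_DJfun_eq_D (τ : ℍ) : lift_DJfun τ = D ord_J τ := (ord_D_J τ).symm

theorem lift_mdiff_DJ : MDiff lift_DJfun := by
  have h1 : MDiff (fun τ : ℍ => -(E₄ τ ^ 2 * E₆ τ)) :=
    ((ord_mdiff_E4.pow 2).mul ord_mdiff_E6).neg
  exact h1.div ord_mdiff_disc ord_disc_ne_zero

/-- `DJ` as an element of `hol_ring`. -/
def lift_DJ : hol_ring := ⟨lift_DJfun, lift_mdiff_DJ⟩

theorem lift_DJ_apply (τ : ℍ) : (lift_DJ : ℍ → ℂ) τ = -(E₄ τ ^ 2 * E₆ τ) / Δ τ := rfl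

theorem lift_E4_E6_not_both (τ : ℍ) (h4 : E₄ τ = 0) (h6 : E₆ τ = 0) : False := by
  have h := ord_E4_cube_sub τ
  rw [h4, h6] at h
  have hΔ := ord_disc_ne_zero τ
  apply hΔ
  have : (1728 : ℂ) * Δ τ = 0 := by rw [← h]; ring
  simpa using this

theorem lift_order_E4 (τ : ℍ) :
    analyticOrderAt ((⇑E₄ : ℍ → ℂ) ∘ ofComplex) (τ : ℂ) = if E₄ τ = 0 then 1 else 0 := by
  split_ifs with h
  · exact ord_analyticOrderAt_E4 τ h
  · rw [(ord_analyticAt ord_mdiff_E4 τ).analyticOrderAt_eq_zero, ord_comp_ofComplex_coe]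
    exact h

theorem lift_order_E6 (τ : ℍ) :
    analyticOrderAt ((⇑E₆ : ℍ → ℂ) ∘ ofComplex) (τ : ℂ) = if E₆ τ = 0 then 1 else 0 := by
  split_ifs with h
  · exact ord_analyticOrderAt_E6 τ h
  · rw [(ord_analyticAt ord_mdiff_E6 τ).analyticOrderAt_eq_zero, ord_comp_ofComplex_coe]
    exact h

theorem lift_order_DJ_eq (τ : ℍ) :
    analyticOrderAt ((lift_DJ : ℍ → ℂ) ∘ ofComplex) (τ : ℂ)
      = 2 * (if E₄ τ = 0 then 1 else 0) + (if E₆ τ = 0 then 1 else 0) := by
  have e : ((lift_DJ : ℍ → ℂ) ∘ ofComplex)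
      = ((fun _ : ℂ => (-1 : ℂ)) * (((⇑E₄ : ℍ → ℂ) ∘ ofComplex) ^ 2
          * ((⇑E₆ : ℍ → ℂ) ∘ ofComplex))) * (fun z : ℂ => (Δ (ofComplex z))⁻¹) := by
    funext z
    simp only [Function.comp_apply, lift_DJ_apply, Pi.mul_apply, Pi.pow_apply, div_eq_mul_inv]
    ring
  have h4 := ord_analyticAt ord_mdiff_E4 τ
  have h6 := ord_analyticAt ord_mdiff_E6 τ
  have hc : AnalyticAt ℂ (fun _ : ℂ => (-1 : ℂ)) (τ : ℂ) := analyticAt_const
  have hc0 : analyticOrderAt (fun _ : ℂ => (-1 : ℂ)) (τ : ℂ) = 0 := by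
    rw [hc.analyticOrderAt_eq_zero]
    norm_num
  rw [e, analyticOrderAt_mul (hc.mul ((h4.pow 2).mul h6)) (ord_analyticAt_disc_inv τ),
    analyticOrderAt_mul hc ((h4.pow 2).mul h6), analyticOrderAt_mul (h4.pow 2) h6,
    analyticOrderAt_pow h4, hc0, ord_analyticOrderAt_disc_inv, lift_order_E4, lift_order_E6]
  simp

/-- `ord_τ (DJ) + 1 = ord_τ (J - J τ)`. -/
theorem lift_order_DJ (τ : ℍ) :
    analyticOrderAt ((lift_DJ : ℍ → ℂ) ∘ ofComplex) (τ : ℂ) + 1
      = analyticOrderAt (fun z : ℂ => ord_J (ofComplex z) - ord_J τ) (τ : ℂ) := by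
  rw [lift_order_DJ_eq]
  by_cases h4 : E₄ τ = 0
  · have h6 : E₆ τ ≠ 0 := fun h6 => lift_E4_E6_not_both τ h4 h6
    have hJ : ord_J τ = 0 := (ord_J_eq_zero_iff τ).mpr h4
    rw [if_pos h4, if_neg h6, hJ]
    simp only [sub_zero]
    rw [ord_analyticOrderAt_zero τ hJ]
    norm_num
  · by_cases h6 : E₆ τ = 0
    · have hJ : ord_J τ = 1728 := (ord_J_eq_1728_iff τ).mpr h6
      rw [if_neg h4, if_pos h6, hJ, ord_analyticOrderAt_1728 τ hJ]
      norm_num
    · have h0 : ord_J τ ≠ 0 := fun h => h4 ((ord_J_eq_zero_iff τ).mp h)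
      have h1 : ord_J τ ≠ 1728 := fun h => h6 ((ord_J_eq_1728_iff τ).mp h)
      rw [if_neg h4, if_neg h6, ord_analyticOrderAt_generic τ h0 h1]
      norm_num

theorem lift_DJ_ne_zero : lift_DJ ≠ 0 := by
  rw [hol_ne_zero_iff]
  obtain ⟨τ, hτ⟩ := ord_J_surjective 1
  refine ⟨τ, ?_⟩
  have h4 : E₄ τ ≠ 0 := by
    intro h
    rw [(ord_J_eq_zero_iff τ).mpr h] at hτ
    norm_num at hτ
  have h6 : E₆ τ ≠ 0 := by
    intro h
    rw [(ord_J_eq_1728_iff τ).mpr h] at hτ
    norm_num at hτ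
  rw [lift_DJ_apply]
  exact div_ne_zero (neg_ne_zero.mpr (mul_ne_zero (pow_ne_zero 2 h4) h6)) (ord_disc_ne_zero τ)

/-- `hol_val τ (DJ) = exp (-(o - 1))`, `o = ord_τ (J - J τ)`. -/
theorem lift_hol_val_DJ (τ : ℍ) :
    hol_val τ (algebraMap hol_ring hol_Mer lift_DJ)
      = WithZero.exp (-((analyticOrderNatAt
          (fun z : ℂ => ord_J (ofComplex z) - ord_J τ) (τ : ℂ) : ℤ) - 1)) := by
  rw [hol_val_algebraMap τ lift_DJ lift_DJ_ne_zero]
  congr 2
  have h := lift_order_DJ τ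
  have hne := hol_order_ne_top lift_DJ lift_DJ_ne_zero τ
  rw [← Nat.cast_analyticOrderNatAt hne] at h
  have h2 : analyticOrderNatAt (fun z : ℂ => ord_J (ofComplex z) - ord_J τ) (τ : ℂ)
      = analyticOrderNatAt ((lift_DJ : ℍ → ℂ) ∘ ofComplex) (τ : ℂ) + 1 := by
    unfold analyticOrderNatAt at *
    rw [← h]
    rfl
  rw [h2]
  push_cast
  ring

/-! ## leading terms at `i∞` -/

/-- coefficients of the Laurent expansion in terms of a pole bound. -/
theorem lift_laurent_coeff {N : ℕ} [NeZero N] {F : ℍ → ℂ} (hF : ana_IsMer N F) {m : ℕ}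
    (hm : ana_PoleLE N m F) (n : ℤ) :
    (ana_laurent N F).coeff n =
      if 0 ≤ n + m then
        (qExpansion (N : ℝ) (fun τ : ℍ => ana_q N τ ^ m * F τ)).coeff (n + m).toNat
      else 0 := by
  have hN : (0 : ℝ) < N := by exact_mod_cast NeZero.pos N
  rw [atw_laurent_eq_lq hF]
  exact lq_laurent_coeff hN (atw_isMer_lq hF) hm n

theorem lift_q_tendsto (N : ℕ) [NeZero N] :
    Tendsto (fun τ : ℍ => ana_q N τ) atImInfty (𝓝 0) :=
  qParam_tendsto_atImInfty (by exact_mod_cast NeZero.pos N)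

/-- the leading term at `i∞`. -/
theorem lift_tendsto_leading {N : ℕ} [NeZero N] {F : ℍ → ℂ} (hF : ana_IsMer N F) (k : ℤ)
    (hk : ∀ n : ℤ, n < k → (ana_laurent N F).coeff n = 0) :
    Tendsto (fun τ : ℍ => ana_q N τ ^ (-k) * F τ) atImInfty
      (𝓝 ((ana_laurent N F).coeff k)) := by
  have hN : (0 : ℝ) < N := by exact_mod_cast NeZero.pos N
  obtain ⟨m, hm⟩ := hF.2.2
  set G : ℍ → ℂ := fun τ : ℍ => ana_q N τ ^ m * F τ with hGdef
  have hG : ana_IsNice N G := hF.nice hm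
  have hper : Periodic (G ∘ ofComplex) ((N : ℝ) : ℂ) := ana_periodic_of_vadd hG.2.1
  have hc : AnalyticAt ℂ (cuspFunction (N : ℝ) G) 0 := hG.analyticAt
  have hqt := lift_q_tendsto N
  have hFG : ∀ τ : ℍ, ana_q N τ ^ (-k) * F τ = ana_q N τ ^ (-(k + m)) * G τ := by
    intro τ
    have hq := ana_q_ne_zero N τ
    simp only [hGdef]
    rw [neg_add, zpow_add₀ hq, zpow_neg (ana_q N τ) (m : ℤ), zpow_natCast]
    field_simp
  by_cases hK : k + m < 0
  · -- the coefficient vanishes and `q ^ (positive) * G → 0`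
    have hcoef : (ana_laurent N F).coeff k = 0 := by
      rw [lift_laurent_coeff hF hm, if_neg (not_le.mpr hK)]
    rw [hcoef]
    obtain ⟨j, hj⟩ : ∃ j : ℕ, -(k + m) = (j : ℤ) + 1 := by
      refine ⟨(-(k + m) - 1).toNat, ?_⟩
      rw [Int.toNat_of_nonneg (by omega)]
      ring
    have h1 : Tendsto (fun τ : ℍ => ana_q N τ ^ (j + 1)) atImInfty (𝓝 0) := by
      have := hqt.pow (j + 1)
      simpa using this
    have h2 : (fun τ : ℍ => ana_q N τ ^ (j + 1) * G τ) =o[atImInfty] (fun _ : ℍ => (1 : ℂ)) := by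
      have h3 : (fun τ : ℍ => ana_q N τ ^ (j + 1)) =o[atImInfty] (fun _ : ℍ => (1 : ℂ)) :=
        (Asymptotics.isLittleO_one_iff ℂ).mpr h1
      have h4 : G =O[atImInfty] (fun _ : ℍ => (1 : ℂ)) := by
        have := hG.2.2
        unfold IsBoundedAtImInfty BoundedAtFilter at this
        refine this.trans ?_
        exact Asymptotics.isBigO_of_le _ (fun _ => by simp)
      have := h3.mul_isBigO h4
      simpa using this
    have h5 := (Asymptotics.isLittleO_one_iff ℂ).mp h2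
    refine h5.congr fun τ => ?_
    rw [hFG τ, hj]
    norm_cast
  · -- Taylor expansion of the cusp function
    push Not at hK
    obtain ⟨K, hKeq⟩ := Int.eq_ofNat_of_zero_le hK
    have hcoef : (ana_laurent N F).coeff k = (qExpansion (N : ℝ) G).coeff K := by
      rw [lift_laurent_coeff hF hm, if_pos hK, hKeq, Int.toNat_natCast]
    have hvan : ∀ i < K, iteratedDeriv i (cuspFunction (N : ℝ) G) 0 = 0 := by
      intro i hi
      have h1 := hk ((i : ℤ) - m) (by omega)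
      rw [lift_laurent_coeff hF hm, if_pos (by omega)] at h1
      have h2 : ((i : ℤ) - m + m).toNat = i := by
        rw [sub_add_cancel, Int.toNat_natCast]
      rw [h2, qExpansion_coeff] at h1
      rcases mul_eq_zero.mp h1 with h | h
      · exact absurd h (inv_ne_zero (by exact_mod_cast Nat.factorial_ne_zero i))
      · exact h
    obtain ⟨R, hRan, hR⟩ := hc.exists_eventuallyEq_sum_add_pow_mul (K + 1)
    have hR' : ∀ᶠ z in 𝓝 (0 : ℂ), cuspFunction (N : ℝ) G z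
        = z ^ K * ((qExpansion (N : ℝ) G).coeff K + z * R z) := by
      filter_upwards [hR] with z hz
      rw [hz, Finset.sum_range_succ, Finset.sum_eq_zero, qExpansion_coeff]
      · simp only [smul_eq_mul]
        ring
      · intro i hi
        rw [hvan i (Finset.mem_range.mp hi), smul_zero]
    have hev := hqt.eventually hR'
    have hlim : Tendsto (fun τ : ℍ => (qExpansion (N : ℝ) G).coeff K + ana_q N τ * R (ana_q N τ))
        atImInfty (𝓝 ((qExpansion (N : ℝ) G).coeff K + 0 * R 0)) := by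
      refine tendsto_const_nhds.add (hqt.mul ?_)
      exact hRan.continuousAt.tendsto.comp hqt
    rw [zero_mul, add_zero, ← hcoef] at hlim
    refine hlim.congr' ?_
    filter_upwards [hev] with τ hτ
    rw [hFG τ, hKeq]
    have hq := ana_q_ne_zero N τ
    have h1 : G τ = cuspFunction (N : ℝ) G (ana_q N τ) :=
      (eq_cuspFunction τ hN.ne' hper).symm
    rw [h1, hτ, zpow_neg, zpow_natCast, ← mul_assoc, inv_mul_cancel₀ (pow_ne_zero K hq), one_mul,
      hcoef]

/-- `DJ` has weight `2`. -/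
theorem lift_DJ_smul (γ : SL(2, ℤ)) (τ : ℍ) :
    lift_DJfun (γ • τ) = denom γ τ ^ 2 * lift_DJfun τ := by
  unfold lift_DJfun
  rw [ord_E4_smul, ord_E6_smul, ord_disc_smul]
  have hd : denom γ τ ≠ 0 := denom_ne_zero γ τ
  have hΔ := ord_disc_ne_zero τ
  have e4 : denom γ τ ^ (4 : ℤ) = denom γ τ ^ 4 := by norm_cast
  have e6 : denom γ τ ^ (6 : ℤ) = denom γ τ ^ 6 := by norm_cast
  have e12 : denom γ τ ^ (12 : ℤ) = denom γ τ ^ 12 := by norm_cast
  rw [e4, e6, e12]
  field_simp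

/-- `q · DJ → -1` at `i∞`. -/
theorem lift_DJ_tendsto (N : ℕ) [NeZero N] :
    Tendsto (fun τ : ℍ => ana_q N τ ^ N * lift_DJfun τ) atImInfty (𝓝 (-1)) := by
  have h1 : Tendsto (fun τ : ℍ => -(E₄ τ ^ 2 * E₆ τ) * br_V τ) atImInfty
      (𝓝 (-(1 ^ 2 * 1) * 1)) :=
    (((ord_E4_tendsto.pow 2).mul ord_E6_tendsto).neg).mul br_V_tendsto
  have h2 : (-(1 ^ 2 * 1) * 1 : ℂ) = -1 := by norm_num
  rw [h2] at h1
  refine h1.congr fun τ => ?_
  have hq : ana_q N τ ^ N = 𝕢 1 (τ : ℂ) := br_qParam_level N (NeZero.pos N) τ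
  rw [hq, lift_DJfun, br_V]
  ring

/-! ## the lift -/

/-- The translate by `g` of a quotient representation `f · B = A · DJ`. -/
theorem lift_slash_rel (A B f : ℍ → ℂ) (hfB : ∀ τ, f τ * B τ = A τ * lift_DJfun τ)
    (g : SL(2, ℤ)) (τ : ℍ) :
    (f ∣[(2 : ℤ)] g) τ * B (g • τ) = A (g • τ) * lift_DJfun τ := by
  rw [ModularForm.SL_slash_apply]
  have hd : denom g τ ≠ 0 := denom_ne_zero g τ
  have h1 := hfB (g • τ)
  rw [lift_DJ_smul] at h1
  have e : denom g τ ^ (-(2 : ℤ)) = (denom g τ ^ 2)⁻¹ := by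
    rw [zpow_neg]
    norm_cast
  rw [e]
  have hd2 : denom g τ ^ 2 ≠ 0 := pow_ne_zero 2 hd
  field_simp
  linear_combination h1

/-- Weight-`2` invariance of `f = (A / B) · DJ` under `γ` when `A / B` is `γ`-invariant. -/
theorem lift_slash_eq (A B f : ℍ → ℂ) (hB : MDiff B) (hB0 : B ≠ 0)
    (hf : MDiff f) (hfB : ∀ τ, f τ * B τ = A τ * lift_DJfun τ)
    (γ : SL(2, ℤ)) (hinv : ∀ τ : ℍ, A (γ • τ) * B τ = A τ * B (γ • τ)) :
    f ∣[(2 : ℤ)] γ = f := by
  have hBγ : MDiff (fun τ : ℍ => B (γ • τ)) := ana_mdiff_comp hB γ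
  have hBB : MDiff (fun τ : ℍ => B τ * B (γ • τ)) := hB.mul hBγ
  have hBB0 : ∃ τ, B τ * B (γ • τ) ≠ 0 := by
    by_contra hcon
    have h0 : ∀ τ, B τ * B (γ • τ) = 0 := fun τ => by_contra fun h => hcon ⟨τ, h⟩
    rcases ana_eq_zero_or_eq_zero hB hBγ h0 with h1 | h1
    · exact hB0 h1
    · apply hB0
      funext τ
      have := congrFun h1 (γ⁻¹ • τ)
      simpa using this
  have hcont : Continuous fun τ => (f ∣[(2 : ℤ)] γ) τ - f τ := by
    have h1 : MDiff (f ∣[(2 : ℤ)] γ) := by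
      have := hf.slash (2 : ℤ) (γ : GL (Fin 2) ℝ)
      rwa [← ModularForm.SL_slash] at this
    exact h1.continuous.sub hf.continuous
  have := rc_eq_zero_of_forall_ne _ _ hcont hBB hBB0 fun τ hτ => by
    have h1 := lift_slash_rel A B f hfB γ τ
    have h2 := hfB τ
    have h3 := hinv τ
    have hB1 : B τ ≠ 0 := left_ne_zero_of_mul hτ
    have hB2 : B (γ • τ) ≠ 0 := right_ne_zero_of_mul hτ
    have h4 : ((f ∣[(2 : ℤ)] γ) τ - f τ) * (B τ * B (γ • τ)) = 0 := by
      linear_combination B τ * h1 - B (γ • τ) * h2 + lift_DJfun τ * h3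
    rcases mul_eq_zero.mp h4 with h5 | h5
    · exact h5
    · exact absurd h5 hτ
  funext τ
  exact sub_eq_zero.mp (this τ)

/-- Vanishing at `i∞` of `F = (A / B) · DJ` from the orders of the Laurent expansions. -/
theorem lift_zero_at_cusp (N : ℕ) [NeZero N] (A B F : ℍ → ℂ) (hA : ana_IsMer N A)
    (hB : ana_IsMer N B) (hB0 : B ≠ 0)
    (hFB : ∀ τ, F τ * B τ = A τ * lift_DJfun τ)
    (hord : ∀ n : ℤ, n < (ana_laurent N B).order + N + 1 → (ana_laurent N A).coeff n = 0) :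
    IsZeroAtImInfty F := by
  set ob : ℤ := (ana_laurent N B).order with hob
  have hb0 : ana_laurent N B ≠ 0 := fun h => hB0 ((ana_laurent_eq_zero_iff hB).mp h)
  have hβ : (ana_laurent N B).coeff ob ≠ 0 := fun h => hb0 (HahnSeries.coeff_order_eq_zero.mp h)
  have hBlim := lift_tendsto_leading hB ob
    (fun n hn => HahnSeries.coeff_eq_zero_of_lt_order hn)
  have hAlim := lift_tendsto_leading hA (ob + N + 1) hord
  have hDlim := lift_DJ_tendsto N
  have hqt := lift_q_tendsto N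
  have hBne : ∀ᶠ τ in atImInfty, ana_q N τ ^ (-ob) * B τ ≠ 0 := hBlim.eventually_ne hβ
  have hlim : Tendsto (fun τ : ℍ => ana_q N τ *
      ((ana_q N τ ^ (-(ob + N + 1)) * A τ) * (ana_q N τ ^ N * lift_DJfun τ)
        / (ana_q N τ ^ (-ob) * B τ))) atImInfty
      (𝓝 (0 * ((ana_laurent N A).coeff (ob + N + 1) * (-1) / (ana_laurent N B).coeff ob))) :=
    hqt.mul (((hAlim.mul hDlim).div hBlim hβ))
  rw [zero_mul] at hlim
  unfold IsZeroAtImInfty ZeroAtFilter
  refine hlim.congr' ?_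
  filter_upwards [hBne] with τ hτ
  have hq := ana_q_ne_zero N τ
  have hBτ : B τ ≠ 0 := right_ne_zero_of_mul hτ
  have h1 : F τ = A τ * lift_DJfun τ / B τ := by
    rw [eq_div_iff hBτ]
    exact hFB τ
  rw [h1]
  have e1 : ana_q N τ ^ (-(ob + N + 1)) = (ana_q N τ ^ ob)⁻¹ * (ana_q N τ ^ N)⁻¹ * (ana_q N τ)⁻¹ := by
    rw [zpow_neg, zpow_add₀ hq, zpow_add₀ hq, zpow_one, zpow_natCast, mul_inv, mul_inv]
  have e2 : ana_q N τ ^ (-ob) = (ana_q N τ ^ ob)⁻¹ := zpow_neg _ _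
  rw [e1, e2]
  have hqo : ana_q N τ ^ ob ≠ 0 := zpow_ne_zero _ hq
  have hqN : ana_q N τ ^ N ≠ 0 := pow_ne_zero _ hq
  field_simp

/-- **Function-level lift.**  If `f · B = A · DJ` with `f` holomorphic, `A / B` invariant under
`Γ₀(N)` and of `q_N`-order `≥ N + 1` at every cusp, then `f` is a cusp form of weight `2`. -/
theorem lift_cuspForm_of_quot (N : ℕ) [NeZero N] (A B : ana_ring N) (hB : B ≠ 0)
    (hinv : ∀ γ ∈ Gamma0 N, ∀ τ : ℍ,
      (A : ℍ → ℂ) (γ • τ) * (B : ℍ → ℂ) τ = (A : ℍ → ℂ) τ * (B : ℍ → ℂ) (γ • τ))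
    (f : ℍ → ℂ) (hf : MDiff f)
    (hfB : ∀ τ, f τ * (B : ℍ → ℂ) τ = (A : ℍ → ℂ) τ * lift_DJfun τ)
    (hcusp : ∀ g : SL(2, ℤ), ∀ n : ℤ,
      n < (ana_laurent N (ana_comp N g B : ℍ → ℂ)).order + N + 1 →
        (ana_laurent N (ana_comp N g A : ℍ → ℂ)).coeff n = 0) :
    ∃ F : CuspForm (Gamma0 N) 2, ⇑F = f := by
  have hB0 : (B : ℍ → ℂ) ≠ 0 := by
    intro h
    exact hB (Subtype.ext h)
  have hinvf : ∀ γ ∈ Gamma0 N, f ∣[(2 : ℤ)] (γ : SL(2, ℤ)) = f := fun γ hγ =>
    lift_slash_eq A B f B.2.1 hB0 hf hfB γ (hinv γ hγ)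
  have hzero : ∀ g : SL(2, ℤ), IsZeroAtImInfty (f ∣[(2 : ℤ)] g) := by
    intro g
    have hBg0 : (ana_comp N g B : ℍ → ℂ) ≠ 0 := by
      intro h
      apply hB
      apply ana_comp_injective N g
      rw [map_zero]
      exact Subtype.ext h
    exact lift_zero_at_cusp N (ana_comp N g A : ℍ → ℂ) (ana_comp N g B : ℍ → ℂ) _
      (ana_isMer_of_mem (ana_comp N g A).2) (ana_isMer_of_mem (ana_comp N g B).2) hBg0
      (fun τ => lift_slash_rel A B f hfB g τ) (hcusp g)
  refine ⟨{ toFun := f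
            slash_action_eq' := ?_
            holo' := hf
            zero_at_cusps' := ?_ }, rfl⟩
  · rintro _ ⟨γ, hγ, rfl⟩
    exact hinvf γ hγ
  · intro c hc
    rw [Subgroup.IsArithmetic.isCusp_iff_isCusp_SL2Z] at hc
    rw [OnePoint.isZeroAt_iff_forall_SL2Z hc]
    exact fun γ _ => hzero γ

/-- **DICT(⊇), core.**  A `Γ₀(N)`-invariant element `x` of `ana_M N` such that `x · DJ` has
nonnegative order at every point of `ℍ` and such that every translate of `x` has `q_N`-order at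
least `N + 1` at `i∞` is `f / DJ` for a cusp form `f` of weight `2` on `Γ₀(N)`. -/
theorem lift_exists_cuspForm (N : ℕ) [NeZero N] (x : ana_M N)
    (hinv : ∀ γ ∈ Gamma0 N, ana_act N γ x = x)
    (hfin : ∀ τ : ℍ, hol_val τ (ana_toMer N x * algebraMap hol_ring hol_Mer lift_DJ) ≤ 1)
    (hcusp : ∀ g : SL(2, ℤ), atw_valInfty N (ana_act N g x) ≤ WithZero.exp (-((N : ℤ) + 1))) :
    ∃ f : CuspForm (Gamma0 N) 2,
      algebraMap hol_ring hol_Mer ⟨⇑f, CuspFormClass.holo f⟩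
        = ana_toMer N x * algebraMap hol_ring hol_Mer lift_DJ := by
  obtain ⟨A, B, hBmem, rfl⟩ := IsFractionRing.div_surjective (A := ana_ring N) x
  have hB : B ≠ 0 := nonZeroDivisors.ne_zero hBmem
  have hBM : algebraMap (ana_ring N) (ana_M N) B ≠ 0 := fun h =>
    hB ((IsFractionRing.injective (ana_ring N) (ana_M N)) (by rw [h, map_zero]))
  obtain ⟨G, hG⟩ := lift_hol_mem_range _ hfin
  -- the pointwise relation
  have hBh : algebraMap hol_ring hol_Mer (ana_incl N B) ≠ 0 := by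
    intro h
    have h1 := (IsFractionRing.injective hol_ring hol_Mer) (h.trans (map_zero _).symm)
    exact hB (ana_incl_injective N (h1.trans (map_zero _).symm))
  have hrel : G * ana_incl N B = ana_incl N A * lift_DJ := by
    apply IsFractionRing.injective hol_ring hol_Mer
    rw [map_mul, map_mul, hG, map_div₀, ana_toMer_algebraMap, ana_toMer_algebraMap]
    field_simp
  have hfB : ∀ τ, (G : ℍ → ℂ) τ * (B : ℍ → ℂ) τ = (A : ℍ → ℂ) τ * lift_DJfun τ := fun τ =>
    congrArg (fun h : hol_ring => (h : ℍ → ℂ) τ) hrel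
  -- invariance
  have hinv' : ∀ γ ∈ Gamma0 N, ∀ τ : ℍ,
      (A : ℍ → ℂ) (γ • τ) * (B : ℍ → ℂ) τ = (A : ℍ → ℂ) τ * (B : ℍ → ℂ) (γ • τ) := by
    intro γ hγ τ
    have h1 := hinv γ⁻¹ ((Gamma0 N).inv_mem hγ)
    rw [map_div₀, ana_act_algebraMap, ana_act_algebraMap, inv_inv] at h1
    have hBγ : algebraMap (ana_ring N) (ana_M N) (ana_comp N γ B) ≠ 0 := fun h =>
      hB (ana_comp_injective N γ ((IsFractionRing.injective (ana_ring N) (ana_M N))
        (by rw [h, map_zero, map_zero])))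
    rw [div_eq_div_iff hBγ hBM, ← map_mul, ← map_mul] at h1
    have h2 := IsFractionRing.injective (ana_ring N) (ana_M N) h1
    exact congrArg (fun h : ana_ring N => (h : ℍ → ℂ) τ) h2
  -- cusps
  have hcusp' : ∀ g : SL(2, ℤ), ∀ n : ℤ,
      n < (ana_laurent N (ana_comp N g B : ℍ → ℂ)).order + N + 1 →
        (ana_laurent N (ana_comp N g A : ℍ → ℂ)).coeff n = 0 := by
    intro g
    have h1 := hcusp g⁻¹
    rw [map_div₀, ana_act_algebraMap, ana_act_algebraMap, inv_inv, map_div₀,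
      atw_valInfty_algebraMap, atw_valInfty_algebraMap] at h1
    have hBg0 : ana_laurent N (ana_comp N g B : ℍ → ℂ) ≠ 0 := by
      intro h
      have h2 := (ana_laurent_eq_zero_iff (ana_isMer_of_mem (ana_comp N g B).2)).mp h
      apply hB
      apply ana_comp_injective N g
      rw [map_zero]
      exact Subtype.ext h2
    rw [cf_val_eq hBg0] at h1
    have h3 : cf_val (ana_laurent N (ana_comp N g A : ℍ → ℂ))
        ≤ WithZero.exp (-((ana_laurent N (ana_comp N g B : ℍ → ℂ)).order + N + 1)) := by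
      have h4 := (div_le_iff₀ (by simp : (0 : WithZero (Multiplicative ℤ)) <
        WithZero.exp (-(ana_laurent N (ana_comp N g B : ℍ → ℂ)).order))).mp h1
      rw [← WithZero.exp_add] at h4
      refine h4.trans (le_of_eq ?_)
      congr 1
      ring
    exact cf_val_le_iff.mp h3
  obtain ⟨F, hF⟩ := lift_cuspForm_of_quot N A B hB hinv' (G : ℍ → ℂ) G.2 hfB hcusp'
  refine ⟨F, ?_⟩
  rw [← hG]
  congr 1
  apply hol_ext
  intro τ
  exact congrFun hF τ

/-- An `N`-periodic holomorphic function, meromorphic at `i∞`, whose Laurent expansion has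
positive order vanishes at `i∞`. -/
theorem lift_isZeroAtImInfty {N : ℕ} [NeZero N] {F : ℍ → ℂ} (hF : ana_IsMer N F)
    (h : ∀ n : ℤ, n ≤ 0 → (ana_laurent N F).coeff n = 0) : IsZeroAtImInfty F := by
  have h1 := lift_tendsto_leading hF 1 (fun n hn => h n (by omega))
  have h2 := (lift_q_tendsto N).mul h1
  rw [zero_mul] at h2
  unfold IsZeroAtImInfty ZeroAtFilter
  refine h2.congr fun τ => ?_
  have hq := ana_q_ne_zero N τ
  rw [zpow_neg, zpow_one, ← mul_assoc, mul_inv_cancel₀ hq, one_mul]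

end Fermat.Agent.S20
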