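import Mathlib

/-!
# S20 / RR-DIFF, abstract core: the tame different

AKLB setting (`A` a PID, `K = Frac A`, `B` the integral closure of `A` in a finite separable
extension `L` of `K`), residue characteristic zero.  Then the exponent of a prime `P` of `B` in
the different is exactly `e_P - 1`; in terms of valuations: `g ∈ L` lies in the trace dual of `B`
iff `v_P (g t) < 1` for every prime `P` of `B` and every prime element `t ∈ P` of `A`.
-/

set_option autoImplicit false
set_option linter.style.haveILetI false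
set_option linter.overlappingInstances false
set_option linter.unusedSectionVars false

noncomputable section

namespace Fermat.Agent.S20

open IsDedekindDomain nonZeroDivisors WithZero

attribute [local instance] FractionRing.liftAlgebra FractionRing.isScalarTower_liftAlgebra
  Ideal.Quotient.field

universe u

section core

variable (A : Type*) {B : Type*} [CommRing A] [CommRing B] [Algebra A B]
variable [IsDedekindDomain A] [IsDedekindDomain B]
  [Module.IsTorsionFree A B] [Module.Finite A B]

/-- In residue characteristic zero, a factor `P'` of `pB` coprime to its cofactor does not divide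
the different (tame ramification). -/
theorem diffc_not_dvd [Algebra.IsSeparable (FractionRing A) (FractionRing B)]
    {p : Ideal A} [p.IsMaximal] [CharZero (A ⧸ p)] (P' Q : Ideal B) (hP' : P' ≠ ⊤)
    (hPQ : IsCoprime P' Q) (hP : P' * Q = Ideal.map (algebraMap A B) p) :
    ¬ P' ∣ differentIdeal A B := by
  letI : Algebra (A ⧸ p) (B ⧸ Q) := Ideal.Quotient.algebraQuotientOfLEComap (by
      rw [← Ideal.map_le_iff_le_comap, ← hP]
      exact Ideal.mul_le_right)
  letI : Algebra (A ⧸ p) (B ⧸ P') := Ideal.Quotient.algebraQuotientOfLEComap (by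
      rw [← Ideal.map_le_iff_le_comap, ← hP]
      exact Ideal.mul_le_left)
  haveI : IsScalarTower A (A ⧸ p) (B ⧸ Q) := .of_algebraMap_eq' rfl
  haveI : IsScalarTower A (A ⧸ p) (B ⧸ P') := .of_algebraMap_eq' rfl
  haveI : Module.Finite (A ⧸ p) (B ⧸ Q) :=
    Module.Finite.of_restrictScalars_finite A (A ⧸ p) (B ⧸ Q)
  haveI : Module.Finite (A ⧸ p) (B ⧸ P') :=
    Module.Finite.of_restrictScalars_finite A (A ⧸ p) (B ⧸ P')
  haveI : Nontrivial (B ⧸ P') := Ideal.Quotient.nontrivial_iff.mpr hP'
  let e : (B ⧸ p.map (algebraMap A B)) ≃ₐ[A ⧸ p] ((B ⧸ P') × B ⧸ Q) :=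
    { __ := (Ideal.quotEquivOfEq hP.symm).trans (Ideal.quotientMulEquivQuotientProd P' Q hPQ),
      commutes' := Quotient.ind fun _ ↦ rfl }
  obtain ⟨y, hy⟩ := Ideal.Quotient.mk_surjective (e.symm (1, 0))
  refine not_dvd_differentIdeal_of_intTrace_not_mem A P' Q hP y ?_ ?_
  · have := congr((e $hy).2)
    simp at this
    simpa [e, Ideal.Quotient.eq_zero_iff_mem] using this
  · rw [← Ideal.Quotient.eq_zero_iff_mem, ← Algebra.trace_quotient_eq_of_isDedekindDomain,
      hy, Algebra.trace_eq_of_algEquiv, Algebra.trace_prod_apply]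
    have h1 : Algebra.trace (A ⧸ p) (B ⧸ P') 1 = (Module.finrank (A ⧸ p) (B ⧸ P') : A ⧸ p) := by
      have := Algebra.trace_algebraMap (S := B ⧸ P') (1 : A ⧸ p)
      simpa using this
    simp only [map_zero, add_zero, h1]
    have hpos : 0 < Module.finrank (A ⧸ p) (B ⧸ P') := Module.finrank_pos
    exact_mod_cast hpos.ne'

end core

section val

variable (k A K : Type*) {L : Type u} {B : Type*} [Field k] [CharZero k]
  [CommRing A] [Field K] [CommRing B] [Field L]
variable [Algebra k A]
variable [Algebra A K] [Algebra B L] [Algebra A B] [Algebra K L] [Algebra A L]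
variable [IsScalarTower A K L] [IsScalarTower A B L]
variable [IsDomain A] [IsFractionRing A K] [FiniteDimensional K L] [Algebra.IsSeparable K L]
  [IsIntegralClosure B A L]
variable [IsFractionRing B L] [IsDedekindDomain A] [IsDedekindDomain B]
  [Module.IsTorsionFree A B] [Module.Finite A B]

include k in
theorem diffc_charZero_quot (p : Ideal A) [p.IsMaximal] : CharZero (A ⧸ p) :=
  charZero_of_injective_algebraMap (algebraMap k (A ⧸ p)).injective

include K L in
theorem diffc_isSeparable : Algebra.IsSeparable (FractionRing A) (FractionRing B) := by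
  have H : RingHom.comp (algebraMap (FractionRing A) (FractionRing B))
      ↑(FractionRing.algEquiv A K).symm.toRingEquiv =
        RingHom.comp ↑(FractionRing.algEquiv B L).symm.toRingEquiv (algebraMap K L) := by
    apply IsLocalization.ringHom_ext A⁰
    ext
    simp only [RingHom.coe_comp, RingHom.coe_coe,
      AlgEquiv.coe_ringEquiv, Function.comp_apply, AlgEquiv.commutes,
      ← IsScalarTower.algebraMap_apply]
    rw [IsScalarTower.algebraMap_apply A B L, AlgEquiv.commutes, ← IsScalarTower.algebraMap_apply]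
  exact Algebra.IsSeparable.of_equiv_equiv _ _ H

/-- the exponent of `P` in `t B`. -/
theorem diffc_exists_exponent (P : HeightOneSpectrum B) (t : A) (ht : t ≠ 0)
    (htP : algebraMap A B t ∈ P.asIdeal) :
    ∃ (e : ℕ) (Q : Ideal B), 0 < e ∧ P.asIdeal ^ e * Q = Ideal.span {algebraMap A B t} ∧
      ¬ Q ≤ P.asIdeal ∧ P.intValuation (algebraMap A B t) = exp (-(e : ℤ)) := by
  have hb0 : algebraMap A B t ≠ 0 := by
    rw [ne_eq, FaithfulSMul.algebraMap_eq_zero_iff]
    exact ht
  set b := algebraMap A B t with hb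
  set n := (Associates.mk P.asIdeal).count (Associates.mk (Ideal.span {b})).factors with hn
  have hval : P.intValuation b = exp (-(n : ℤ)) := P.intValuation_if_neg hb0
  have hdvd : P.asIdeal ^ n ∣ Ideal.span {b} := by
    rw [← P.intValuation_le_pow_iff_dvd, hval]
  have hndvd : ¬ P.asIdeal ^ (n + 1) ∣ Ideal.span {b} := by
    rw [← P.intValuation_le_pow_iff_dvd, hval, exp_le_exp]
    push_cast
    omega
  have hnpos : 0 < n := by
    rcases Nat.eq_zero_or_pos n with h0 | h0
    · exfalso
      have h1 := (P.intValuation_lt_one_iff_mem b).mpr htP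
      rw [hval, h0] at h1
      simp at h1
    · exact h0
  obtain ⟨Q, hQ⟩ := hdvd
  refine ⟨n, Q, hnpos, hQ.symm, fun hle => hndvd ?_, hval⟩
  obtain ⟨Q', hQ'⟩ := Ideal.dvd_iff_le.mpr hle
  refine ⟨Q', ?_⟩
  rw [hQ, hQ', pow_succ, mul_assoc]

theorem diffc_lt_exp_iff {x : ℤᵐ⁰} {n : ℤ} : x < exp n ↔ x ≤ exp (n - 1) := by
  rcases eq_or_ne x 0 with h | h
  · rw [h]
    exact ⟨fun _ => zero_le, fun _ => exp_pos⟩
  · rw [← exp_log h, exp_le_exp, exp_lt_exp]
    omega

/-- membership in the trace dual of `B`, in terms of the different. -/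
theorem diffc_mem_traceDual_iff_different (g : L) :
    g ∈ Submodule.traceDual A K (1 : Submodule B L) ↔
      ∀ d ∈ differentIdeal A B, ∃ b : B, algebraMap B L b = g * algebraMap B L d := by
  have h1 : (FractionalIdeal.dual A K (1 : FractionalIdeal B⁰ L) : Submodule B L)
      = Submodule.traceDual A K (1 : Submodule B L) := FractionalIdeal.coe_dual_one A K L B
  have h2 := coeIdeal_differentIdeal A K L B
  have hne : (differentIdeal A B : FractionalIdeal B⁰ L) ≠ 0 := by
    rw [h2]
    exact inv_ne_zero (FractionalIdeal.dual_ne_zero A K one_ne_zero)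
  have h3 : FractionalIdeal.dual A K (1 : FractionalIdeal B⁰ L)
      = ((differentIdeal A B : Ideal B) : FractionalIdeal B⁰ L)⁻¹ := by
    rw [h2, inv_inv]
  rw [← h1, FractionalIdeal.mem_coe, h3, FractionalIdeal.mem_inv_iff hne]
  constructor
  · intro h d hd
    have := h (algebraMap B L d) ((FractionalIdeal.mem_coeIdeal _).mpr ⟨d, hd, rfl⟩)
    rw [FractionalIdeal.mem_one_iff] at this
    exact this
  · intro h y hy
    obtain ⟨d, hd, rfl⟩ := (FractionalIdeal.mem_coeIdeal _).mp hy
    rw [FractionalIdeal.mem_one_iff]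
    exact h d hd

include k K L in
/-- data attached to a prime `P` of `B` and a prime element `t ∈ P` of `A`: the exponent of `P`
in the different is exactly `e - 1`, where `v_P t = exp (-e)`. -/
theorem diffc_key (P : HeightOneSpectrum B) (t : A) (ht : Prime t)
    (htP : algebraMap A B t ∈ P.asIdeal) :
    ∃ e : ℕ, 0 < e ∧ P.intValuation (algebraMap A B t) = exp (-(e : ℤ)) ∧
      (∃ d ∈ differentIdeal A B, d ∉ P.asIdeal ^ e) ∧
      (∀ d ∈ differentIdeal A B, d ∈ P.asIdeal ^ (e - 1)) := by
  haveI hsep : Algebra.IsSeparable (FractionRing A) (FractionRing B) :=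
    diffc_isSeparable A K (L := L)
  obtain ⟨e, Q, he, hPQ, hQ, hval⟩ := diffc_exists_exponent A P t ht.ne_zero htP
  have hpprime : (Ideal.span {t}).IsPrime := (Ideal.span_singleton_prime ht.ne_zero).mpr ht
  have hp0 : Ideal.span {t} ≠ ⊥ := by
    rw [ne_eq, Ideal.span_singleton_eq_bot]
    exact ht.ne_zero
  haveI hpmax : (Ideal.span {t}).IsMaximal := hpprime.isMaximal hp0
  haveI := diffc_charZero_quot k A (Ideal.span {t})
  have hmap : Ideal.map (algebraMap A B) (Ideal.span {t}) = Ideal.span {algebraMap A B t} := by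
    rw [Ideal.map_span, Set.image_singleton]
  have hPmax : P.asIdeal.IsMaximal := P.isMaximal
  have hcop : IsCoprime (P.asIdeal ^ e) Q := by
    apply IsCoprime.pow_left
    rw [Ideal.isCoprime_iff_sup_eq]
    by_contra hne
    have h1 : P.asIdeal ⊔ Q = P.asIdeal := hPmax.eq_of_le hne le_sup_left |>.symm
    exact hQ (h1 ▸ le_sup_right)
  have hPe_top : P.asIdeal ^ e ≠ ⊤ := by
    intro h
    have h1 : P.asIdeal ^ e ≤ P.asIdeal := Ideal.pow_le_self he.ne'
    rw [h] at h1
    exact hPmax.ne_top (top_le_iff.mp h1)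
  have hnd : ¬ P.asIdeal ^ e ∣ differentIdeal A B :=
    diffc_not_dvd A (P.asIdeal ^ e) Q hPe_top hcop (hPQ.trans hmap.symm)
  have hd : P.asIdeal ^ (e - 1) ∣ differentIdeal A B :=
    pow_sub_one_dvd_differentIdeal A P.asIdeal e hp0 ⟨Q, (hPQ.trans hmap.symm).symm⟩
  refine ⟨e, he, hval, ?_, fun d hdd => Ideal.dvd_iff_le.mp hd hdd⟩
  rw [Ideal.dvd_iff_le, SetLike.not_le_iff_exists] at hnd
  exact hnd

include k in
/-- **The tame different, valuation form (necessity).** If `g` lies in the trace dual of `B` then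
`v_P (g t) < 1` for every prime `P` of `B` and every prime element `t` of `A` lying in `P`. -/
theorem diffc_valuation_lt_one_of_mem {g : L}
    (h : g ∈ Submodule.traceDual A K (1 : Submodule B L))
    (P : HeightOneSpectrum B) (t : A) (ht : Prime t) (htP : algebraMap A B t ∈ P.asIdeal) :
    P.valuation L (g * algebraMap B L (algebraMap A B t)) < 1 := by
  rw [diffc_mem_traceDual_iff_different A K g] at h
  obtain ⟨e, he, hval, ⟨d, hd, hdP⟩, -⟩ := diffc_key k A K (L := L) P t ht htP
  obtain ⟨b, hb⟩ := h d hd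
  have h1 : P.valuation L (g * algebraMap B L d) ≤ 1 := by
    rw [← hb]
    exact P.valuation_le_one b
  have h2 : exp (-(e : ℤ)) < P.valuation L (algebraMap B L d) := by
    rw [P.valuation_of_algebraMap, ← not_le, P.intValuation_le_pow_iff_mem]
    exact hdP
  rw [map_mul, P.valuation_of_algebraMap, hval]
  rcases eq_or_ne (P.valuation L g) 0 with h0 | h0
  · rw [h0, zero_mul]
    exact zero_lt_one
  · rw [map_mul] at h1
    refine lt_of_lt_of_le ?_ h1
    exact (mul_lt_mul_iff_right₀ (zero_lt_iff.mpr h0)).mpr h2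

include k in
/-- **The tame different, valuation form (sufficiency).** If for every prime `P` of `B` there is
a prime element `t` of `A` lying in `P` with `v_P (g t) < 1`, then `g` lies in the trace dual of
`B`. -/
theorem diffc_mem_of_forall_exists {g : L}
    (h : ∀ P : HeightOneSpectrum B, ∃ t : A, Prime t ∧ algebraMap A B t ∈ P.asIdeal ∧
      P.valuation L (g * algebraMap B L (algebraMap A B t)) < 1) :
    g ∈ Submodule.traceDual A K (1 : Submodule B L) := by
  rw [diffc_mem_traceDual_iff_different A K g]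
  intro d hd
  apply HeightOneSpectrum.mem_integers_of_valuation_le_one
  intro P
  obtain ⟨t, htprime, htP, h1⟩ := h P
  obtain ⟨e, he, hval, -, hdd⟩ := diffc_key k A K (L := L) P t htprime htP
  rw [map_mul, P.valuation_of_algebraMap, hval] at h1
  have h2 : P.valuation L (algebraMap B L d) ≤ exp (-((e - 1 : ℕ) : ℤ)) := by
    rw [P.valuation_of_algebraMap, P.intValuation_le_pow_iff_mem]
    exact hdd d hd
  have h3 : P.valuation L g ≤ exp ((e : ℤ) - 1) := by
    rw [← diffc_lt_exp_iff]
    have h4 : P.valuation L g * exp (-(e : ℤ)) * exp (e : ℤ) < 1 * exp (e : ℤ) :=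
      (mul_lt_mul_iff_left₀ exp_pos).mpr h1
    rwa [mul_assoc, ← exp_add, neg_add_cancel, exp_zero, mul_one, one_mul] at h4
  rw [map_mul]
  calc P.valuation L g * P.valuation L (algebraMap B L d)
      ≤ exp ((e : ℤ) - 1) * exp (-((e - 1 : ℕ) : ℤ)) := mul_le_mul' h3 h2
    _ = 1 := by
      rw [← exp_add, ← exp_zero]
      congr 1
      omega

end val

end Fermat.Agent.S20
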