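import Mathlib

/-!
# S20, package RR-LIN: the Euler characteristic of a pair of subspaces

`V` a vector space over a field `k`, `P`, `Q ≤ Q'` subspaces with `Q' / Q` finite dimensional.
Then `(P ∩ Q, V / (P + Q))` are finite dimensional iff `(P ∩ Q', V / (P + Q'))` are, and
`χ(P, Q') = χ(P, Q) + dim Q' / Q` where `χ(P, Q) = dim (P ∩ Q) - dim V / (P + Q)`.

This is the exact sequence `0 → P ∩ Q → P ∩ Q' → Q'/Q → V/(P+Q) → V/(P+Q') → 0`.
-/

set_option autoImplicit false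
set_option linter.style.haveILetI false

noncomputable section

namespace Fermat.Agent.S20

open Module

variable {k V : Type*} [Field k] [AddCommGroup V] [Module k V]

theorem rrl_mem_submoduleOf {Q Q' : Submodule k V} {y : ↥Q'} :
    y ∈ Q.submoduleOf Q' ↔ (y : V) ∈ Q := Iff.rfl

/-- `α : P ∩ Q' → Q' / Q`. -/
def rrlAlpha (P Q Q' : Submodule k V) :
    ↥(P ⊓ Q') →ₗ[k] (↥Q' ⧸ Q.submoduleOf Q') :=
  (Q.submoduleOf Q').mkQ ∘ₗ Submodule.inclusion (inf_le_right : P ⊓ Q' ≤ Q')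

/-- `β : Q' / Q → V / (P + Q)`. -/
def rrlBeta (P Q Q' : Submodule k V) :
    (↥Q' ⧸ Q.submoduleOf Q') →ₗ[k] (V ⧸ (P ⊔ Q)) :=
  (Q.submoduleOf Q').liftQ ((P ⊔ Q).mkQ ∘ₗ Q'.subtype) (by
    intro y hy
    rw [LinearMap.mem_ker, LinearMap.comp_apply, Submodule.mkQ_apply,
      Submodule.Quotient.mk_eq_zero]
    exact Submodule.mem_sup_right hy)

/-- `γ : V / (P + Q) → V / (P + Q')`. -/
def rrlGamma (P Q Q' : Submodule k V) (hQ : Q ≤ Q') :
    (V ⧸ (P ⊔ Q)) →ₗ[k] (V ⧸ (P ⊔ Q')) :=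
  (P ⊔ Q).mapQ (P ⊔ Q') LinearMap.id (by
    rw [Submodule.comap_id]
    exact sup_le_sup_left hQ P)

theorem rrl_gamma_surjective (P Q Q' : Submodule k V) (hQ : Q ≤ Q') :
    Function.Surjective (rrlGamma P Q Q' hQ) := by
  intro y
  obtain ⟨v, rfl⟩ := Submodule.Quotient.mk_surjective _ y
  exact ⟨Submodule.Quotient.mk v, rfl⟩

theorem rrl_range_beta (P Q Q' : Submodule k V) (hQ : Q ≤ Q') :
    LinearMap.range (rrlBeta P Q Q') = LinearMap.ker (rrlGamma P Q Q' hQ) := by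
  ext y
  obtain ⟨v, rfl⟩ := Submodule.Quotient.mk_surjective _ y
  constructor
  · rintro ⟨z, hz⟩
    obtain ⟨q, rfl⟩ := Submodule.Quotient.mk_surjective _ z
    have h1 : rrlBeta P Q Q' (Submodule.Quotient.mk q) = Submodule.Quotient.mk (q : V) := rfl
    rw [h1] at hz
    rw [← hz, LinearMap.mem_ker]
    show Submodule.Quotient.mk (q : V) = (0 : V ⧸ (P ⊔ Q'))
    rw [Submodule.Quotient.mk_eq_zero]
    exact Submodule.mem_sup_right q.2
  · intro hv
    rw [LinearMap.mem_ker] at hv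
    have hv' : (Submodule.Quotient.mk v : V ⧸ (P ⊔ Q')) = 0 := hv
    rw [Submodule.Quotient.mk_eq_zero, Submodule.mem_sup] at hv'
    obtain ⟨p, hp, q, hq, rfl⟩ := hv'
    refine ⟨Submodule.Quotient.mk ⟨q, hq⟩, ?_⟩
    show Submodule.Quotient.mk q = (Submodule.Quotient.mk (p + q) : V ⧸ (P ⊔ Q))
    rw [eq_comm, Submodule.Quotient.eq]
    have : p + q - q = p := by abel
    rw [this]
    exact Submodule.mem_sup_left hp

theorem rrl_range_alpha (P Q Q' : Submodule k V) (hQ : Q ≤ Q') :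
    LinearMap.range (rrlAlpha P Q Q') = LinearMap.ker (rrlBeta P Q Q') := by
  ext y
  obtain ⟨q, rfl⟩ := Submodule.Quotient.mk_surjective _ y
  constructor
  · rintro ⟨z, hz⟩
    have h1 : rrlAlpha P Q Q' z
        = Submodule.Quotient.mk (Submodule.inclusion (inf_le_right : P ⊓ Q' ≤ Q') z) := rfl
    rw [h1] at hz
    rw [← hz, LinearMap.mem_ker]
    show Submodule.Quotient.mk ((z : V)) = (0 : V ⧸ (P ⊔ Q))
    rw [Submodule.Quotient.mk_eq_zero]
    exact Submodule.mem_sup_left z.2.1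
  · intro hq
    rw [LinearMap.mem_ker] at hq
    have hq' : (Submodule.Quotient.mk (q : V) : V ⧸ (P ⊔ Q)) = 0 := hq
    rw [Submodule.Quotient.mk_eq_zero, Submodule.mem_sup] at hq'
    obtain ⟨p, hp, q₀, hq₀, hpq⟩ := hq'
    have hpQ' : p ∈ Q' := by
      have : p = (q : V) - q₀ := by rw [← hpq]; abel
      rw [this]
      exact Q'.sub_mem q.2 (hQ hq₀)
    refine ⟨⟨p, hp, hpQ'⟩, ?_⟩
    show Submodule.Quotient.mk (⟨p, hpQ'⟩ : ↥Q') = Submodule.Quotient.mk q
    rw [Submodule.Quotient.eq, rrl_mem_submoduleOf]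
    show p - (q : V) ∈ Q
    have : p - (q : V) = -q₀ := by rw [← hpq]; abel
    rw [this]
    exact Q.neg_mem hq₀

/-- the kernel of `α` is `P ∩ Q`. -/
def rrlKerAlphaEquiv (P Q Q' : Submodule k V) (hQ : Q ≤ Q') :
    ↥(LinearMap.ker (rrlAlpha P Q Q')) ≃ₗ[k] ↥(P ⊓ Q) where
  toFun z := ⟨(z.1 : V), z.1.2.1, by
    have h := z.2
    rw [LinearMap.mem_ker] at h
    have h1 : (Submodule.Quotient.mk (Submodule.inclusion (inf_le_right : P ⊓ Q' ≤ Q') z.1) :
        ↥Q' ⧸ Q.submoduleOf Q') = 0 := h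
    rw [Submodule.Quotient.mk_eq_zero, rrl_mem_submoduleOf] at h1
    exact h1⟩
  map_add' _ _ := rfl
  map_smul' _ _ := rfl
  invFun w := ⟨⟨(w : V), w.2.1, hQ w.2.2⟩, by
    rw [LinearMap.mem_ker]
    show (Submodule.Quotient.mk (⟨(w : V), hQ w.2.2⟩ : ↥Q') : ↥Q' ⧸ Q.submoduleOf Q') = 0
    rw [Submodule.Quotient.mk_eq_zero, rrl_mem_submoduleOf]
    exact w.2.2⟩
  left_inv _ := rfl
  right_inv _ := rfl

/-- finiteness goes up. -/
theorem rrl_finite_up (P Q Q' : Submodule k V) (hQ : Q ≤ Q')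
    [Module.Finite k (↥Q' ⧸ Q.submoduleOf Q')]
    (h1 : Module.Finite k ↥(P ⊓ Q)) (h2 : Module.Finite k (V ⧸ (P ⊔ Q))) :
    Module.Finite k ↥(P ⊓ Q') ∧ Module.Finite k (V ⧸ (P ⊔ Q')) := by
  constructor
  · haveI : Module.Finite k ↥(LinearMap.ker (rrlAlpha P Q Q')) :=
      Module.Finite.equiv (rrlKerAlphaEquiv P Q Q' hQ).symm
    haveI : Module.Finite k ↥(LinearMap.range (rrlAlpha P Q Q')) := inferInstance
    haveI : Module.Finite k (↥(P ⊓ Q') ⧸ LinearMap.ker (rrlAlpha P Q Q')) :=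
      Module.Finite.equiv (rrlAlpha P Q Q').quotKerEquivRange.symm
    exact Module.Finite.of_submodule_quotient (LinearMap.ker (rrlAlpha P Q Q'))
  · exact Module.Finite.of_surjective _ (rrl_gamma_surjective P Q Q' hQ)

/-- finiteness goes down. -/
theorem rrl_finite_down (P Q Q' : Submodule k V) (hQ : Q ≤ Q')
    [Module.Finite k (↥Q' ⧸ Q.submoduleOf Q')]
    (h1 : Module.Finite k ↥(P ⊓ Q')) (h2 : Module.Finite k (V ⧸ (P ⊔ Q'))) :
    Module.Finite k ↥(P ⊓ Q) ∧ Module.Finite k (V ⧸ (P ⊔ Q)) := by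
  constructor
  · exact Module.Finite.of_injective (Submodule.inclusion (inf_le_inf_left P hQ))
      (Submodule.inclusion_injective _)
  · haveI : Module.Finite k ↥(LinearMap.ker (rrlGamma P Q Q' hQ)) := by
      rw [← rrl_range_beta P Q Q' hQ]
      infer_instance
    haveI : Module.Finite k ↥(LinearMap.range (rrlGamma P Q Q' hQ)) := by
      rw [LinearMap.range_eq_top.mpr (rrl_gamma_surjective P Q Q' hQ)]
      exact Module.Finite.equiv (Submodule.topEquiv (R := k) (M := V ⧸ (P ⊔ Q'))).symm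
    haveI : Module.Finite k ((V ⧸ (P ⊔ Q)) ⧸ LinearMap.ker (rrlGamma P Q Q' hQ)) :=
      Module.Finite.equiv (rrlGamma P Q Q' hQ).quotKerEquivRange.symm
    exact Module.Finite.of_submodule_quotient (LinearMap.ker (rrlGamma P Q Q' hQ))

/-- **RR-LIN**: the Euler characteristic grows by the colength. -/
theorem rrl_chi (P Q Q' : Submodule k V) (hQ : Q ≤ Q')
    [Module.Finite k (↥Q' ⧸ Q.submoduleOf Q')]
    (h1 : Module.Finite k ↥(P ⊓ Q)) (h2 : Module.Finite k (V ⧸ (P ⊔ Q))) :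
    (finrank k ↥(P ⊓ Q') : ℤ) - finrank k (V ⧸ (P ⊔ Q'))
      = (finrank k ↥(P ⊓ Q) : ℤ) - finrank k (V ⧸ (P ⊔ Q))
        + finrank k (↥Q' ⧸ Q.submoduleOf Q') := by
  obtain ⟨h3, h4⟩ := rrl_finite_up P Q Q' hQ h1 h2
  have ea := (rrlAlpha P Q Q').finrank_range_add_finrank_ker
  have eb := (rrlBeta P Q Q').finrank_range_add_finrank_ker
  have ec := (rrlGamma P Q Q' hQ).finrank_range_add_finrank_ker
  have e1 : finrank k ↥(LinearMap.ker (rrlAlpha P Q Q')) = finrank k ↥(P ⊓ Q) :=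
    LinearEquiv.finrank_eq (rrlKerAlphaEquiv P Q Q' hQ)
  have e2 : finrank k ↥(LinearMap.range (rrlGamma P Q Q' hQ)) = finrank k (V ⧸ (P ⊔ Q')) := by
    rw [LinearMap.range_eq_top.mpr (rrl_gamma_surjective P Q Q' hQ)]
    exact finrank_top k _
  rw [rrl_range_alpha P Q Q' hQ] at ea
  rw [rrl_range_beta P Q Q' hQ] at eb
  rw [e1] at ea
  rw [e2] at ec
  omega

/-- the same with the colength given by a surjective map with kernel `Q`. -/
theorem rrl_finite_quot_of_map {W : Type*} [AddCommGroup W] [Module k W] [Module.Finite k W]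
    (Q Q' : Submodule k V) (f : ↥Q' →ₗ[k] W)
    (hker : LinearMap.ker f = Q.submoduleOf Q') :
    Module.Finite k (↥Q' ⧸ Q.submoduleOf Q') := by
  rw [← hker]
  haveI : Module.Finite k ↥(LinearMap.range f) := inferInstance
  exact Module.Finite.equiv f.quotKerEquivRange.symm

theorem rrl_finrank_quot_of_map {W : Type*} [AddCommGroup W] [Module k W]
    (Q Q' : Submodule k V) (f : ↥Q' →ₗ[k] W) (hf : Function.Surjective f)
    (hker : LinearMap.ker f = Q.submoduleOf Q') :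
    finrank k (↥Q' ⧸ Q.submoduleOf Q') = finrank k W := by
  rw [← hker]
  exact LinearEquiv.finrank_eq (f.quotKerEquivOfSurjective hf)

end Fermat.Agent.S20

end
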