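import Mathlib
import Fermat.Agent.S20.RRLin

/-!
# S20, package RR-NF, part 1: the projective line, abstractly

`NfBase k L` : a field `L ⊇ k` with an element `x`, a `k`-subalgebra `A` (`= k[x]`) and a
valuation `v` (the place at infinity, `v x = exp 1`) such that `A ∩ {v < 1} = 0`,
`L = A + {v < 1}` and the residue field of `v` is `k`.

Rank one computations: with `Linf e = {r | v r ≤ exp e}`,
`dim_k (A ∩ Linf e) = max (e + 1) 0` and `dim_k L / (A + Linf e) = max (- e - 1) 0`.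
-/

set_option autoImplicit false
set_option linter.style.haveILetI false

noncomputable section

namespace Fermat.Agent.S20

open Module WithZero

/-- Abstract data of the projective line over `k`. -/
structure NfBase (k L : Type*) [Field k] [Field L] [Algebra k L] where
  x : L
  A : Subalgebra k L
  v : Valuation L ℤᵐ⁰
  x_mem : x ∈ A
  v_x : v x = exp (1 : ℤ)
  v_k : ∀ c : k, c ≠ 0 → v (algebraMap k L c) = 1
  v_A : ∀ a ∈ A, v a < 1 → a = 0
  res : ∀ r : L, v r ≤ 1 → ∃ c : k, v (r - algebraMap k L c) < 1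
  approx : ∀ r : L, ∃ a ∈ A, v (r - a) < 1

namespace NfBase

variable {k L : Type*} [Field k] [Field L] [Algebra k L] (B : NfBase k L)

theorem v_algebraMap_le (c : k) : B.v (algebraMap k L c) ≤ 1 := by
  rcases eq_or_ne c 0 with rfl | hc
  · rw [map_zero, map_zero]
    exact zero_le_one
  · exact (B.v_k c hc).le

theorem x_ne_zero : B.x ≠ 0 := by
  intro h
  have := B.v_x
  rw [h, map_zero] at this
  exact exp_ne_zero this.symm

theorem v_x_zpow (n : ℤ) : B.v (B.x ^ n) = exp n := by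
  rw [map_zpow₀, B.v_x, ← exp_zsmul, smul_eq_mul, mul_one]

theorem x_zpow_ne_zero (n : ℤ) : B.x ^ n ≠ 0 := zpow_ne_zero n B.x_ne_zero

/-- `{r | v r ≤ exp e}` as a `k`-subspace. -/
def Linf (e : ℤ) : Submodule k L where
  carrier := {r | B.v r ≤ exp e}
  zero_mem' := by
    show B.v 0 ≤ exp e
    rw [map_zero]
    exact zero_le
  add_mem' := by
    intro a b ha hb
    exact (B.v.map_add a b).trans (max_le ha hb)
  smul_mem' := by
    intro c a ha
    show B.v (c • a) ≤ exp e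
    rw [Algebra.smul_def, map_mul]
    exact (mul_le_of_le_one_left' (B.v_algebraMap_le c)).trans ha

theorem mem_Linf {e : ℤ} {r : L} : r ∈ B.Linf e ↔ B.v r ≤ exp e := Iff.rfl

theorem Linf_mono {e e' : ℤ} (h : e ≤ e') : B.Linf e ≤ B.Linf e' := fun _ hr =>
  le_trans hr (exp_le_exp.mpr h)

theorem mem_Linf_pred_iff {e : ℤ} {r : L} : r ∈ B.Linf (e - 1) ↔ B.v r < exp e := by
  rw [mem_Linf]
  rcases eq_or_ne (B.v r) 0 with h | h
  · rw [h]
    exact ⟨fun _ => exp_pos, fun _ => zero_le⟩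
  · rw [← exp_log h, exp_le_exp, exp_lt_exp]
    omega

theorem x_zpow_mul_mem_Linf {e m : ℤ} {r : L} (hr : r ∈ B.Linf e) :
    B.x ^ m * r ∈ B.Linf (m + e) := by
  rw [mem_Linf, map_mul, B.v_x_zpow, exp_add]
  exact mul_le_mul_right hr _

/-- the subspace `A`. -/
def Asub : Submodule k L := Subalgebra.toSubmodule B.A

theorem mem_Asub {r : L} : r ∈ B.Asub ↔ r ∈ B.A := Iff.rfl

theorem x_pow_mem (n : ℕ) : B.x ^ n ∈ B.A := B.A.pow_mem B.x_mem n

/-- `A ∩ {v < 1} = 0`. -/
theorem Asub_inf_Linf_neg {e : ℤ} (he : e ≤ -1) : B.Asub ⊓ B.Linf e = ⊥ := by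
  rw [eq_bot_iff]
  rintro r ⟨hA, hr⟩
  rw [Submodule.mem_bot]
  refine B.v_A r hA ?_
  have h1 : B.v r ≤ exp e := hr
  have h2 : exp e < (1 : ℤᵐ⁰) := by
    rw [← exp_zero, exp_lt_exp]
    omega
  exact lt_of_le_of_lt h1 h2

/-- `L = A + {v < 1}`. -/
theorem Asub_sup_Linf {e : ℤ} (he : -1 ≤ e) : B.Asub ⊔ B.Linf e = ⊤ := by
  rw [eq_top_iff]
  intro r _
  obtain ⟨a, ha, har⟩ := B.approx r
  rw [Submodule.mem_sup]
  refine ⟨a, ha, r - a, ?_, by abel⟩
  have h1 : r - a ∈ B.Linf (0 - 1) := B.mem_Linf_pred_iff.mpr (by rwa [exp_zero])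
  exact B.Linf_mono (by omega) h1

/-- the leading coefficient at infinity is unique. -/
theorem res_unique {r : L} {c c' : k} (h : B.v (r - algebraMap k L c) < 1)
    (h' : B.v (r - algebraMap k L c') < 1) : c = c' := by
  by_contra hne
  have h1 : B.v (algebraMap k L (c - c')) = 1 := B.v_k _ (sub_ne_zero.mpr hne)
  have h2 : algebraMap k L (c - c') = (r - algebraMap k L c') - (r - algebraMap k L c) := by
    rw [map_sub]; ring
  have h3 : B.v (algebraMap k L (c - c')) < 1 := by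
    rw [h2]
    exact lt_of_le_of_lt (B.v.map_sub _ _) (max_lt h' h)
  rw [h1] at h3
  exact lt_irrefl _ h3

theorem exists_lc (e : ℤ) (r : ↥(B.Linf e)) :
    ∃ c : k, B.v (B.x ^ (-e) * (r : L) - algebraMap k L c) < 1 := by
  apply B.res
  have h := B.x_zpow_mul_mem_Linf (m := -e) r.2
  rw [mem_Linf, neg_add_cancel, exp_zero] at h
  exact h

/-- the coefficient of `x ^ e` of an element with `v ≤ exp e`. -/
def lcFun (e : ℤ) (r : ↥(B.Linf e)) : k := (B.exists_lc e r).choose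

theorem lcFun_spec (e : ℤ) (r : ↥(B.Linf e)) :
    B.v (B.x ^ (-e) * (r : L) - algebraMap k L (B.lcFun e r)) < 1 :=
  (B.exists_lc e r).choose_spec

theorem lcFun_eq (e : ℤ) (r : ↥(B.Linf e)) {c : k}
    (h : B.v (B.x ^ (-e) * (r : L) - algebraMap k L c) < 1) : B.lcFun e r = c :=
  B.res_unique (B.lcFun_spec e r) h

/-- the leading coefficient as a linear map. -/
def lc (e : ℤ) : ↥(B.Linf e) →ₗ[k] k where
  toFun := B.lcFun e
  map_add' r s := by
    apply B.lcFun_eq
    have h1 := B.lcFun_spec e r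
    have h2 := B.lcFun_spec e s
    have h3 : B.x ^ (-e) * ((r + s : ↥(B.Linf e)) : L)
        - algebraMap k L (B.lcFun e r + B.lcFun e s)
        = (B.x ^ (-e) * (r : L) - algebraMap k L (B.lcFun e r))
          + (B.x ^ (-e) * (s : L) - algebraMap k L (B.lcFun e s)) := by
      rw [map_add, Submodule.coe_add]; ring
    rw [h3]
    exact lt_of_le_of_lt (B.v.map_add _ _) (max_lt h1 h2)
  map_smul' c r := by
    apply B.lcFun_eq
    have h1 := B.lcFun_spec e r
    have h3 : B.x ^ (-e) * ((c • r : ↥(B.Linf e)) : L)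
        - algebraMap k L ((RingHom.id k) c • B.lcFun e r)
        = algebraMap k L c * (B.x ^ (-e) * (r : L) - algebraMap k L (B.lcFun e r)) := by
      rw [RingHom.id_apply, smul_eq_mul, map_mul, Submodule.coe_smul, Algebra.smul_def]; ring
    rw [h3, map_mul]
    exact lt_of_le_of_lt (mul_le_of_le_one_left' (B.v_algebraMap_le c)) h1

theorem lc_apply (e : ℤ) (r : ↥(B.Linf e)) : B.lc e r = B.lcFun e r := rfl

theorem lc_surjective (e : ℤ) : Function.Surjective (B.lc e) := by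
  intro c
  have hmem : algebraMap k L c * B.x ^ e ∈ B.Linf e := by
    rw [mem_Linf, map_mul, B.v_x_zpow]
    exact mul_le_of_le_one_left' (B.v_algebraMap_le c)
  refine ⟨⟨_, hmem⟩, ?_⟩
  rw [lc_apply]
  apply B.lcFun_eq
  have : B.x ^ (-e) * (algebraMap k L c * B.x ^ e) - algebraMap k L c = 0 := by
    rw [zpow_neg]
    field_simp [B.x_zpow_ne_zero e]
    ring
  rw [this, map_zero]
  exact zero_lt_one

theorem ker_lc (e : ℤ) : LinearMap.ker (B.lc e) = (B.Linf (e - 1)).submoduleOf (B.Linf e) := by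
  ext r
  rw [LinearMap.mem_ker, rrl_mem_submoduleOf, mem_Linf_pred_iff]
  have hx : B.v (B.x ^ (-e)) = exp (-e) := B.v_x_zpow (-e)
  have key : B.v (B.x ^ (-e) * (r : L)) < 1 ↔ B.v (r : L) < exp e := by
    rw [map_mul, hx]
    rcases eq_or_ne (B.v (r : L)) 0 with h0 | h0
    · rw [h0, mul_zero]
      exact ⟨fun _ => exp_pos, fun _ => zero_lt_one⟩
    · rw [← exp_log h0, ← exp_add, ← exp_zero, exp_lt_exp, exp_lt_exp]
      omega
  rw [← key]
  constructor
  · intro h
    have h1 := B.lcFun_spec e r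
    rw [lc_apply] at h
    rwa [h, map_zero, sub_zero] at h1
  · intro h
    rw [lc_apply]
    apply B.lcFun_eq
    rwa [map_zero, sub_zero]

instance finite_quot_Linf (e : ℤ) :
    Module.Finite k (↥(B.Linf e) ⧸ (B.Linf (e - 1)).submoduleOf (B.Linf e)) :=
  rrl_finite_quot_of_map _ _ (B.lc e) (B.ker_lc e)

theorem finrank_quot_Linf (e : ℤ) :
    finrank k (↥(B.Linf e) ⧸ (B.Linf (e - 1)).submoduleOf (B.Linf e)) = 1 := by
  rw [rrl_finrank_quot_of_map _ _ (B.lc e) (B.lc_surjective e) (B.ker_lc e)]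
  exact finrank_self k

/-- a general `k`-subspace `P` paired with the `Linf e`: one step. -/
theorem chi_step (P : Submodule k L) (e : ℤ)
    (h1 : Module.Finite k ↥(P ⊓ B.Linf (e - 1)))
    (h2 : Module.Finite k (L ⧸ (P ⊔ B.Linf (e - 1)))) :
    (finrank k ↥(P ⊓ B.Linf e) : ℤ) - finrank k (L ⧸ (P ⊔ B.Linf e))
      = (finrank k ↥(P ⊓ B.Linf (e - 1)) : ℤ) - finrank k (L ⧸ (P ⊔ B.Linf (e - 1))) + 1 := by
  have h := rrl_chi P (B.Linf (e - 1)) (B.Linf e) (B.Linf_mono (by omega)) h1 h2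
  rw [B.finrank_quot_Linf e] at h
  exact_mod_cast h

/-- finiteness and the Euler characteristic `χ(A, Linf e) = e + 1`. -/
theorem chi_rank_one (e : ℤ) :
    Module.Finite k ↥(B.Asub ⊓ B.Linf e) ∧ Module.Finite k (L ⧸ (B.Asub ⊔ B.Linf e)) ∧
    (finrank k ↥(B.Asub ⊓ B.Linf e) : ℤ) - finrank k (L ⧸ (B.Asub ⊔ B.Linf e)) = e + 1 := by
  induction e using Int.inductionOn' (b := -1) with
  | zero =>
    have hb : B.Asub ⊓ B.Linf (-1) = ⊥ := B.Asub_inf_Linf_neg le_rfl
    have ht : B.Asub ⊔ B.Linf (-1) = ⊤ := B.Asub_sup_Linf le_rfl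
    rw [hb, ht]
    refine ⟨inferInstance, inferInstance, ?_⟩
    rw [finrank_bot, finrank_eq_zero_of_subsingleton k (L ⧸ (⊤ : Submodule k L))]
    norm_num
  | succ e he ih =>
    obtain ⟨h1, h2, h3⟩ := ih
    have hstep : e + 1 - 1 = e := by ring
    have h1' : Module.Finite k ↥(B.Asub ⊓ B.Linf (e + 1 - 1)) := by rw [hstep]; exact h1
    have h2' : Module.Finite k (L ⧸ (B.Asub ⊔ B.Linf (e + 1 - 1))) := by rw [hstep]; exact h2
    obtain ⟨h4, h5⟩ := rrl_finite_up B.Asub (B.Linf (e + 1 - 1)) (B.Linf (e + 1))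
      (B.Linf_mono (by omega)) h1' h2'
    refine ⟨h4, h5, ?_⟩
    have := B.chi_step B.Asub (e + 1) h1' h2'
    rw [hstep] at this
    rw [this, h3]
  | pred e he ih =>
    obtain ⟨h1, h2, h3⟩ := ih
    obtain ⟨h4, h5⟩ := rrl_finite_down B.Asub (B.Linf (e - 1)) (B.Linf e)
      (B.Linf_mono (by omega)) h1 h2
    refine ⟨h4, h5, ?_⟩
    have := B.chi_step B.Asub e h4 h5
    rw [h3] at this
    linarith

instance finite_inf (e : ℤ) : Module.Finite k ↥(B.Asub ⊓ B.Linf e) := (B.chi_rank_one e).1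

instance finite_quot (e : ℤ) : Module.Finite k (L ⧸ (B.Asub ⊔ B.Linf e)) :=
  (B.chi_rank_one e).2.1

/-- `dim (A ∩ Linf e) = max (e + 1) 0`. -/
theorem finrank_inf (e : ℤ) : finrank k ↥(B.Asub ⊓ B.Linf e) = (e + 1).toNat := by
  have h := (B.chi_rank_one e).2.2
  rcases le_or_gt (-1) e with he | he
  · have ht : B.Asub ⊔ B.Linf e = ⊤ := B.Asub_sup_Linf he
    have h0 : finrank k (L ⧸ (B.Asub ⊔ B.Linf e)) = 0 := by
      rw [ht]
      exact finrank_eq_zero_of_subsingleton k (L ⧸ (⊤ : Submodule k L))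
    rw [h0] at h
    omega
  · have hb : B.Asub ⊓ B.Linf e = ⊥ := B.Asub_inf_Linf_neg (by omega)
    rw [hb, finrank_bot]
    omega

/-- `dim L / (A + Linf e) = max (- e - 1) 0`. -/
theorem finrank_quot (e : ℤ) : finrank k (L ⧸ (B.Asub ⊔ B.Linf e)) = (-e - 1).toNat := by
  have h := (B.chi_rank_one e).2.2
  have h1 := B.finrank_inf e
  omega

end NfBase

end Fermat.Agent.S20

end
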