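import Mathlib
import Fermat.Agent.S20.NfBase

/-!
# S20, package RR-NF, part 2: the Dedekind–Weber normal form (matrix version)

For `M ∈ GL_n(L)` there are `U ∈ GL_n(A)`, `C ∈ GL_n(O)` (`O` the valuation ring at infinity) and
`d : ι → ℤ` with `U M = diag (x ^ d i) C`.

Proof: lattice reduction.  Normalise the rows of `M` to norm `1`; if the residue matrix is
singular, a `k`-linear relation between its rows lowers the norm of one row of `M` by a
unimodular transformation over `A`; the defect `∑ d_i - log v (det M)` drops.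
-/

set_option autoImplicit false
set_option linter.style.haveILetI false
set_option linter.unusedSectionVars false

noncomputable section

namespace Fermat.Agent.S20

open Module WithZero Matrix

namespace NfBase

variable {k L : Type*} [Field k] [Field L] [Algebra k L] (B : NfBase k L)

/-- the valuation ring at infinity. -/
def O : ValuationSubring L := B.v.valuationSubring

theorem mem_O {r : L} : r ∈ B.O ↔ B.v r ≤ 1 := Valuation.mem_valuationSubring_iff _ _

theorem v_coe_le (a : ↥B.O) : B.v (a : L) ≤ 1 := B.mem_O.mp a.2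

theorem exists_res (a : ↥B.O) : ∃ c : k, B.v ((a : L) - algebraMap k L c) < 1 :=
  B.res a (B.v_coe_le a)

/-- the residue of an element of `O`. -/
def resFun (a : ↥B.O) : k := (B.exists_res a).choose

theorem resFun_spec (a : ↥B.O) : B.v ((a : L) - algebraMap k L (B.resFun a)) < 1 :=
  (B.exists_res a).choose_spec

theorem resFun_eq (a : ↥B.O) {c : k} (h : B.v ((a : L) - algebraMap k L c) < 1) :
    B.resFun a = c :=
  B.res_unique (B.resFun_spec a) h

/-- the residue map `O → k`. -/
def resHom : ↥B.O →+* k where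
  toFun := B.resFun
  map_one' := by
    apply B.resFun_eq
    rw [map_one]
    show B.v ((1 : L) - 1) < 1
    rw [sub_self, map_zero]
    exact zero_lt_one
  map_zero' := by
    apply B.resFun_eq
    rw [map_zero]
    show B.v ((0 : L) - 0) < 1
    rw [sub_self, map_zero]
    exact zero_lt_one
  map_mul' a b := by
    apply B.resFun_eq
    have h1 := B.resFun_spec a
    have h2 := B.resFun_spec b
    have h3 : ((a * b : ↥B.O) : L) - algebraMap k L (B.resFun a * B.resFun b)
        = (a : L) * ((b : L) - algebraMap k L (B.resFun b))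
          + ((a : L) - algebraMap k L (B.resFun a)) * algebraMap k L (B.resFun b) := by
      rw [map_mul]
      show (a : L) * (b : L) - _ = _
      ring
    rw [h3]
    refine lt_of_le_of_lt (B.v.map_add _ _) (max_lt ?_ ?_)
    · rw [map_mul]
      exact lt_of_le_of_lt (mul_le_of_le_one_left' (B.v_coe_le a)) h2
    · rw [map_mul]
      exact lt_of_le_of_lt (mul_le_of_le_one_right' (B.v_algebraMap_le _)) h1
  map_add' a b := by
    apply B.resFun_eq
    have h1 := B.resFun_spec a
    have h2 := B.resFun_spec b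
    have h3 : ((a + b : ↥B.O) : L) - algebraMap k L (B.resFun a + B.resFun b)
        = ((a : L) - algebraMap k L (B.resFun a)) + ((b : L) - algebraMap k L (B.resFun b)) := by
      rw [map_add]
      show (a : L) + (b : L) - _ = _
      ring
    rw [h3]
    exact lt_of_le_of_lt (B.v.map_add _ _) (max_lt h1 h2)

theorem resHom_eq_zero_iff (a : ↥B.O) : B.resHom a = 0 ↔ B.v (a : L) < 1 := by
  constructor
  · intro h
    have h1 := B.resFun_spec a
    have h2 : B.resFun a = 0 := h
    rwa [h2, map_zero, sub_zero] at h1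
  · intro h
    apply B.resFun_eq
    rwa [map_zero, sub_zero]

/-- constants as elements of `O`. -/
def ofK (c : k) : ↥B.O := ⟨algebraMap k L c, B.mem_O.mpr (B.v_algebraMap_le c)⟩

theorem coe_ofK (c : k) : ((B.ofK c : ↥B.O) : L) = algebraMap k L c := rfl

theorem resHom_ofK (c : k) : B.resHom (B.ofK c) = c := by
  apply B.resFun_eq
  rw [coe_ofK, sub_self, map_zero]
  exact zero_lt_one

theorem isUnit_of_v_eq_one (a : ↥B.O) (h : B.v (a : L) = 1) : IsUnit a := by
  have ha : (a : L) ≠ 0 := by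
    intro h0
    rw [h0, map_zero] at h
    exact zero_ne_one h
  have hinv : (a : L)⁻¹ ∈ B.O := by
    rw [mem_O, map_inv₀, h, inv_one]
  refine isUnit_iff_exists_inv.mpr ⟨⟨(a : L)⁻¹, hinv⟩, ?_⟩
  apply Subtype.ext
  show (a : L) * (a : L)⁻¹ = 1
  exact mul_inv_cancel₀ ha

/-! ### row norms -/

theorem _root_.Fermat.Agent.S20.nfm_prod_exp {ι : Type*} (s : Finset ι) (f : ι → ℤ) :
    (∏ i ∈ s, (exp (f i) : ℤᵐ⁰)) = exp (∑ i ∈ s, f i) := by
  classical
  induction s using Finset.induction_on with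
  | empty => simp
  | insert a s ha ih => rw [Finset.prod_insert ha, Finset.sum_insert ha, ih, exp_add]

variable {ι : Type*} [Fintype ι] [DecidableEq ι]

/-- the norm of the `i`-th row. -/
def rowNorm (M : Matrix ι ι L) (i : ι) : ℤᵐ⁰ := Finset.univ.sup fun j => B.v (M i j)

theorem le_rowNorm (M : Matrix ι ι L) (i j : ι) : B.v (M i j) ≤ B.rowNorm M i :=
  Finset.le_sup (f := fun j => B.v (M i j)) (Finset.mem_univ j)

theorem rowNorm_le {M : Matrix ι ι L} {i : ι} {g : ℤᵐ⁰} (h : ∀ j, B.v (M i j) ≤ g) :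
    B.rowNorm M i ≤ g :=
  Finset.sup_le fun j _ => h j

theorem rowNorm_ne_zero {M : Matrix ι ι L} (hM : M.det ≠ 0) (i : ι) : B.rowNorm M i ≠ 0 := by
  intro h
  apply hM
  apply det_eq_zero_of_row_eq_zero i
  intro j
  have h1 := B.le_rowNorm M i j
  rw [h] at h1
  exact (Valuation.zero_iff _).mp (le_zero_iff.mp h1)

/-- the degree of the `i`-th row. -/
def rowDeg (M : Matrix ι ι L) (i : ι) : ℤ := log (B.rowNorm M i)

theorem rowNorm_eq {M : Matrix ι ι L} (hM : M.det ≠ 0) (i : ι) :
    B.rowNorm M i = exp (B.rowDeg M i) :=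
  (exp_log (B.rowNorm_ne_zero hM i)).symm

/-- the defect of orthogonality. -/
def defect (M : Matrix ι ι L) : ℤ := (∑ i, B.rowDeg M i) - log (B.v M.det)

/-- the matrix with normalised rows. -/
def normMat (M : Matrix ι ι L) : Matrix ι ι L :=
  Matrix.of fun i j => B.x ^ (-(B.rowDeg M i)) * M i j

theorem normMat_apply (M : Matrix ι ι L) (i j : ι) :
    B.normMat M i j = B.x ^ (-(B.rowDeg M i)) * M i j := rfl

theorem v_normMat_le {M : Matrix ι ι L} (hM : M.det ≠ 0) (i j : ι) :
    B.v (B.normMat M i j) ≤ 1 := by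
  rw [normMat_apply, map_mul, B.v_x_zpow]
  have h1 := B.le_rowNorm M i j
  rw [B.rowNorm_eq hM i] at h1
  calc exp (-(B.rowDeg M i)) * B.v (M i j)
      ≤ exp (-(B.rowDeg M i)) * exp (B.rowDeg M i) := mul_le_mul_right h1 _
    _ = 1 := by rw [← exp_add, neg_add_cancel, exp_zero]

theorem det_normMat (M : Matrix ι ι L) :
    (B.normMat M).det = (∏ i, B.x ^ (-(B.rowDeg M i))) * M.det :=
  det_mul_column _ _

theorem v_det_normMat {M : Matrix ι ι L} (hM : M.det ≠ 0) :
    B.v (B.normMat M).det = exp (-(B.defect M)) := by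
  rw [det_normMat, map_mul, map_prod]
  have h1 : ∀ i, B.v (B.x ^ (-(B.rowDeg M i))) = exp (-(B.rowDeg M i)) := fun i => B.v_x_zpow _
  simp_rw [h1]
  have h2 : B.v M.det ≠ 0 := (Valuation.ne_zero_iff _).mpr hM
  have h3 : (∏ i, (exp (-(B.rowDeg M i)) : ℤᵐ⁰)) = exp (∑ i, -(B.rowDeg M i)) := by
    exact nfm_prod_exp _ _
  rw [h3]
  conv_lhs => rw [← exp_log h2]
  rw [← exp_add]
  congr 1
  rw [defect, Finset.sum_neg_distrib]
  ring

theorem diag_mul_normMat (M : Matrix ι ι L) :
    Matrix.diagonal (fun i => B.x ^ (B.rowDeg M i)) * B.normMat M = M := by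
  ext i j
  rw [Matrix.diagonal_mul, normMat_apply, ← mul_assoc, ← zpow_add₀ B.x_ne_zero,
    add_neg_cancel, zpow_zero, one_mul]

/-- the normalised matrix over `O`. -/
def normMatO {M : Matrix ι ι L} (hM : M.det ≠ 0) : Matrix ι ι ↥B.O :=
  Matrix.of fun i j => ⟨B.normMat M i j, B.mem_O.mpr (B.v_normMat_le hM i j)⟩

theorem normMatO_map {M : Matrix ι ι L} (hM : M.det ≠ 0) :
    (B.normMatO hM).map (algebraMap ↥B.O L) = B.normMat M := by
  ext i j
  rfl

theorem coe_det_normMatO {M : Matrix ι ι L} (hM : M.det ≠ 0) :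
    (((B.normMatO hM).det : ↥B.O) : L) = (B.normMat M).det := by
  have h := RingHom.map_det (algebraMap ↥B.O L) (B.normMatO hM)
  rw [RingHom.mapMatrix_apply, B.normMatO_map hM] at h
  exact h

theorem v_det_normMat_le {M : Matrix ι ι L} (hM : M.det ≠ 0) : B.v (B.normMat M).det ≤ 1 := by
  rw [← B.coe_det_normMatO hM]
  exact B.v_coe_le _

/-- the direct case: the residue matrix is invertible. -/
theorem nfm_direct {M : Matrix ι ι L} (hM : M.det ≠ 0) (h : B.v (B.normMat M).det = 1) :
    ∃ C : Matrix ι ι ↥B.O, IsUnit C.det ∧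
      M = Matrix.diagonal (fun i => B.x ^ (B.rowDeg M i)) * C.map (algebraMap ↥B.O L) := by
  refine ⟨B.normMatO hM, ?_, ?_⟩
  · apply B.isUnit_of_v_eq_one
    rw [B.coe_det_normMatO hM]
    exact h
  · rw [B.normMatO_map hM, B.diag_mul_normMat]


/-- the generator `x` as an element of `A`. -/
def xA : ↥B.A := ⟨B.x, B.x_mem⟩

open scoped Classical in
/-- the coefficients of the reduction step. -/
def redCoeff (M : Matrix ι ι L) (lam : ι → k) (j₀ : ι) (i : ι) : ↥B.A :=
  if lam i = 0 then 0
  else algebraMap k ↥B.A (lam i) * B.xA ^ (B.rowDeg M j₀ - B.rowDeg M i).toNat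

theorem coe_redCoeff (M : Matrix ι ι L) (lam : ι → k) (j₀ : ι) (i : ι)
    (hmax : lam i ≠ 0 → B.rowDeg M i ≤ B.rowDeg M j₀) :
    ((B.redCoeff M lam j₀ i : ↥B.A) : L)
      = B.x ^ (B.rowDeg M j₀) * (algebraMap k L (lam i) * B.x ^ (-(B.rowDeg M i))) := by
  unfold redCoeff
  by_cases h : lam i = 0
  · rw [if_pos h, h, map_zero, zero_mul, mul_zero]
    rfl
  · rw [if_neg h]
    have h1 := hmax h
    have h2 : ((algebraMap k ↥B.A (lam i) * B.xA ^ (B.rowDeg M j₀ - B.rowDeg M i).toNat : ↥B.A) : L)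
        = algebraMap k L (lam i) * B.x ^ (B.rowDeg M j₀ - B.rowDeg M i).toNat := rfl
    rw [h2, ← zpow_natCast, Int.toNat_of_nonneg (by omega), sub_eq_add_neg,
      zpow_add₀ B.x_ne_zero]
    ring

/-- the reduction step: the residue matrix is singular. -/
theorem nfm_reduce {M : Matrix ι ι L} (hM : M.det ≠ 0) (h : B.v (B.normMat M).det < 1) :
    ∃ E : Matrix ι ι ↥B.A, IsUnit E.det ∧ (E.map (algebraMap ↥B.A L) * M).det ≠ 0 ∧
      B.defect (E.map (algebraMap ↥B.A L) * M) ≤ B.defect M - 1 := by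
  classical
  -- the residue matrix
  have hdet0 : ((B.normMatO hM).map B.resHom).det = 0 := by
    have h1 := RingHom.map_det B.resHom (B.normMatO hM)
    rw [RingHom.mapMatrix_apply] at h1
    rw [← h1, B.resHom_eq_zero_iff, B.coe_det_normMatO hM]
    exact h
  obtain ⟨lam, hlam0, hlam⟩ := Matrix.exists_vecMul_eq_zero_iff.mpr hdet0
  -- the support of `lam` and an index of maximal degree
  have hS : (Finset.univ.filter fun i => lam i ≠ 0).Nonempty := by
    obtain ⟨i, hi⟩ := Function.ne_iff.mp hlam0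
    exact ⟨i, Finset.mem_filter.mpr ⟨Finset.mem_univ i, hi⟩⟩
  obtain ⟨j₀, hj₀S, hj₀max⟩ := Finset.exists_max_image _ (fun i => B.rowDeg M i) hS
  have hj₀ : lam j₀ ≠ 0 := (Finset.mem_filter.mp hj₀S).2
  have hmax : ∀ i, lam i ≠ 0 → B.rowDeg M i ≤ B.rowDeg M j₀ := fun i hi =>
    hj₀max i (Finset.mem_filter.mpr ⟨Finset.mem_univ i, hi⟩)
  -- the relation between the normalised rows
  have hrel : ∀ j, B.v (∑ i, algebraMap k L (lam i) * B.normMat M i j) < 1 := by
    intro j
    have h1 : (∑ i, algebraMap k L (lam i) * B.normMat M i j)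
        = ((∑ i, B.ofK (lam i) * B.normMatO hM i j : ↥B.O) : L) := by
      rw [← ValuationSubring.algebraMap_apply, map_sum]
      rfl
    rw [h1, ← B.resHom_eq_zero_iff, map_sum]
    have h2 := congrFun hlam j
    simp only [Matrix.vecMul, dotProduct, Matrix.map_apply, Pi.zero_apply] at h2
    rw [← h2]
    refine Finset.sum_congr rfl fun i _ => ?_
    rw [map_mul, B.resHom_ofK]
  -- the transformation
  set c : ι → ↥B.A := B.redCoeff M lam j₀ with hc
  set E : Matrix ι ι ↥B.A := (1 : Matrix ι ι ↥B.A).updateRow j₀ c with hE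
  set cL : ι → L := fun i => ((c i : ↥B.A) : L) with hcL
  have hcLeq : ∀ i, cL i
      = B.x ^ (B.rowDeg M j₀) * (algebraMap k L (lam i) * B.x ^ (-(B.rowDeg M i))) := fun i =>
    B.coe_redCoeff M lam j₀ i (hmax i)
  have hEM : E.map (algebraMap ↥B.A L) * M = M.updateRow j₀ (∑ i, cL i • M i) := by
    have h1 : E.map (algebraMap ↥B.A L) = (1 : Matrix ι ι L).updateRow j₀ cL := by
      ext i j
      rw [Matrix.map_apply, hE]
      by_cases hi : i = j₀
      · subst hi
        rw [Matrix.updateRow_self, Matrix.updateRow_self]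
        rfl
      · rw [Matrix.updateRow_ne hi, Matrix.updateRow_ne hi]
        by_cases hij : i = j
        · subst hij
          rw [Matrix.one_apply_eq, Matrix.one_apply_eq, map_one]
        · rw [Matrix.one_apply_ne hij, Matrix.one_apply_ne hij, map_zero]
    rw [h1, Matrix.updateRow_mul, Matrix.one_mul]
    congr 1
    ext j
    simp only [Matrix.vecMul, dotProduct, Finset.sum_apply, Pi.smul_apply, smul_eq_mul]
  have hdetEM : (E.map (algebraMap ↥B.A L) * M).det = cL j₀ * M.det := by
    rw [hEM, Matrix.det_updateRow_sum, smul_eq_mul]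
  have hcLj₀ : cL j₀ = algebraMap k L (lam j₀) := by
    rw [hcLeq, mul_comm (algebraMap k L (lam j₀)), ← mul_assoc, ← zpow_add₀ B.x_ne_zero,
      add_neg_cancel, zpow_zero, one_mul]
  have hcLj₀ne : cL j₀ ≠ 0 := by
    rw [hcLj₀]
    exact (map_ne_zero _).mpr hj₀
  have hdetne : (E.map (algebraMap ↥B.A L) * M).det ≠ 0 := by
    rw [hdetEM]
    exact mul_ne_zero hcLj₀ne hM
  refine ⟨E, ?_, hdetne, ?_⟩
  · -- `det E = c j₀` is a unit
    have h1 : ((E.det : ↥B.A) : L) * M.det = cL j₀ * M.det := by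
      rw [← hdetEM, Matrix.det_mul]
      congr 1
      have := RingHom.map_det (algebraMap ↥B.A L) E
      rw [RingHom.mapMatrix_apply] at this
      exact this
    have h2 : ((E.det : ↥B.A) : L) = cL j₀ := mul_right_cancel₀ hM h1
    have h3 : E.det = algebraMap k ↥B.A (lam j₀) := by
      apply Subtype.ext
      rw [h2, hcLj₀]
      rfl
    rw [h3]
    exact (IsUnit.mk0 _ hj₀).map (algebraMap k ↥B.A)
  · -- the defect drops
    have key : ∀ M' : Matrix ι ι L, M' = M.updateRow j₀ (∑ i, cL i • M i) → M'.det ≠ 0 →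
        B.v M'.det = B.v M.det → B.defect M' ≤ B.defect M - 1 := by
      intro M' hM' hdetne' hvdet
      have hrow_ne : ∀ i, i ≠ j₀ → M' i = M i := by
        intro i hi
        rw [hM']
        exact Matrix.updateRow_ne hi
      have hrow_j₀ : ∀ j, M' j₀ j
          = B.x ^ (B.rowDeg M j₀) * ∑ i, algebraMap k L (lam i) * B.normMat M i j := by
        intro j
        rw [hM', Matrix.updateRow_self, Finset.sum_apply, Finset.mul_sum]
        refine Finset.sum_congr rfl fun i _ => ?_
        rw [Pi.smul_apply, smul_eq_mul, hcLeq, normMat_apply]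
        ring
      have hdeg_ne : ∀ i, i ≠ j₀ → B.rowDeg M' i = B.rowDeg M i := by
        intro i hi
        unfold rowDeg rowNorm
        rw [hrow_ne i hi]
      have hnorm_j₀ : B.rowNorm M' j₀ ≤ exp (B.rowDeg M j₀ - 1) := by
        apply B.rowNorm_le
        intro j
        rw [← mem_Linf, mem_Linf_pred_iff, hrow_j₀, map_mul, B.v_x_zpow]
        calc exp (B.rowDeg M j₀) * B.v (∑ i, algebraMap k L (lam i) * B.normMat M i j)
            < exp (B.rowDeg M j₀) * 1 :=
              mul_lt_mul_of_pos_left (hrel j) exp_pos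
          _ = exp (B.rowDeg M j₀) := mul_one _
      have hdeg_j₀ : B.rowDeg M' j₀ ≤ B.rowDeg M j₀ - 1 := by
        rw [B.rowNorm_eq hdetne' j₀, exp_le_exp] at hnorm_j₀
        exact hnorm_j₀
      have hsum : ∑ i, B.rowDeg M' i ≤ (∑ i, B.rowDeg M i) - 1 := by
        rw [← Finset.add_sum_erase _ _ (Finset.mem_univ j₀),
          ← Finset.add_sum_erase _ (fun i => B.rowDeg M i) (Finset.mem_univ j₀)]
        have h1 : ∑ i ∈ Finset.univ.erase j₀, B.rowDeg M' i
            = ∑ i ∈ Finset.univ.erase j₀, B.rowDeg M i :=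
          Finset.sum_congr rfl fun i hi => hdeg_ne i (Finset.ne_of_mem_erase hi)
        rw [h1]
        linarith
      unfold defect
      rw [hvdet]
      linarith
    refine key _ hEM hdetne ?_
    rw [hdetEM, map_mul, hcLj₀, B.v_k _ hj₀, one_mul]

/-- the induction. -/
theorem nfm_exists_aux (N : ℕ) : ∀ M : Matrix ι ι L, M.det ≠ 0 → B.defect M ≤ N →
    ∃ (U : Matrix ι ι ↥B.A) (C : Matrix ι ι ↥B.O) (d : ι → ℤ), IsUnit U.det ∧ IsUnit C.det ∧
      U.map (algebraMap ↥B.A L) * M
        = Matrix.diagonal (fun i => B.x ^ d i) * C.map (algebraMap ↥B.O L) := by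
  induction N with
  | zero =>
    intro M hM hdef
    have h1 : B.v (B.normMat M).det = 1 := by
      refine le_antisymm (B.v_det_normMat_le hM) ?_
      rw [B.v_det_normMat hM, ← exp_zero, exp_le_exp]
      have : B.defect M ≤ 0 := by exact_mod_cast hdef
      omega
    obtain ⟨C, hC, hMC⟩ := B.nfm_direct hM h1
    refine ⟨1, C, fun i => B.rowDeg M i, ?_, hC, ?_⟩
    · rw [Matrix.det_one]
      exact isUnit_one
    · rw [Matrix.map_one _ (map_zero _) (map_one _), Matrix.one_mul]
      exact hMC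
  | succ N ih =>
    intro M hM hdef
    by_cases h1 : B.v (B.normMat M).det = 1
    · obtain ⟨C, hC, hMC⟩ := B.nfm_direct hM h1
      refine ⟨1, C, fun i => B.rowDeg M i, ?_, hC, ?_⟩
      · rw [Matrix.det_one]
        exact isUnit_one
      · rw [Matrix.map_one _ (map_zero _) (map_one _), Matrix.one_mul]
        exact hMC
    · have h2 : B.v (B.normMat M).det < 1 := lt_of_le_of_ne (B.v_det_normMat_le hM) h1
      obtain ⟨E, hE, hdet', hdef'⟩ := B.nfm_reduce hM h2
      have hdef'' : B.defect (E.map (algebraMap ↥B.A L) * M) ≤ N := by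
        have : B.defect M ≤ (N : ℤ) + 1 := by exact_mod_cast hdef
        linarith
      obtain ⟨U, C, d, hU, hC, hUC⟩ := ih _ hdet' hdef''
      refine ⟨U * E, C, d, ?_, hC, ?_⟩
      · rw [Matrix.det_mul]
        exact hU.mul hE
      · rw [Matrix.map_mul, Matrix.mul_assoc]
        exact hUC

/-- **Dedekind–Weber normal form**, matrix version. -/
theorem nfm_exists (M : Matrix ι ι L) (hM : M.det ≠ 0) :
    ∃ (U : Matrix ι ι ↥B.A) (C : Matrix ι ι ↥B.O) (d : ι → ℤ), IsUnit U.det ∧ IsUnit C.det ∧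
      U.map (algebraMap ↥B.A L) * M
        = Matrix.diagonal (fun i => B.x ^ d i) * C.map (algebraMap ↥B.O L) :=
  B.nfm_exists_aux (B.defect M).toNat M hM (Int.self_le_toNat _)

end NfBase

end Fermat.Agent.S20

end
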