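import Mathlib
import Fermat.Agent.S20.NfMatrix

/-!
# S20, package RR-NF, part 3: lattices over the projective line

`B : NfBase k L`, `V` a finite dimensional `L`-vector space (also a `k`-vector space).
For an `L`-basis `b` of `V`:

* `B.latA b`      : the `A`-lattice `⊕ A b_i` (as a `k`-subspace of `V`);
* `B.latInf b e`  : the lattice at infinity `⊕ x ^ (e i) O b_i = {f | v (b.repr f i) ≤ exp (e i)}`.

For a bilinear form `β` on `V`:

* `B.dualA β Λ`       : `{g | ∀ f ∈ Λ, β g f ∈ A}`;
* `B.dualInf β m Λ`   : `{g | ∀ f ∈ Λ, v (β g f) ≤ exp m}` (`m = -2` is the twist by `dx`).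
-/

set_option autoImplicit false
set_option linter.style.haveILetI false
set_option linter.unusedSectionVars false

noncomputable section

namespace Fermat.Agent.S20

open Module WithZero Matrix

namespace NfBase

variable {k L : Type*} [Field k] [Field L] [Algebra k L] (B : NfBase k L)
variable {V : Type*} [AddCommGroup V] [Module L V] [Module k V] [IsScalarTower k L V]
variable {ι : Type*} [Fintype ι] [DecidableEq ι]

/-- the `A`-lattice spanned by the basis `b`, as a `k`-subspace. -/
def latA (b : Basis ι L V) : Submodule k V where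
  carrier := {f | ∀ i, b.repr f i ∈ B.A}
  zero_mem' := by
    intro i
    rw [map_zero, Finsupp.zero_apply]
    exact B.A.zero_mem
  add_mem' := by
    intro f g hf hg i
    rw [map_add, Finsupp.add_apply]
    exact B.A.add_mem (hf i) (hg i)
  smul_mem' := by
    intro c f hf i
    rw [← algebraMap_smul L c f, map_smul, Finsupp.smul_apply, smul_eq_mul]
    exact B.A.mul_mem (B.A.algebraMap_mem c) (hf i)

theorem mem_latA {b : Basis ι L V} {f : V} : f ∈ B.latA b ↔ ∀ i, b.repr f i ∈ B.A := Iff.rfl

/-- the lattice at infinity `{f | v (b.repr f i) ≤ exp (e i)}`, as a `k`-subspace. -/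
def latInf (b : Basis ι L V) (e : ι → ℤ) : Submodule k V where
  carrier := {f | ∀ i, B.v (b.repr f i) ≤ exp (e i)}
  zero_mem' := by
    intro i
    rw [map_zero, Finsupp.zero_apply, map_zero]
    exact zero_le
  add_mem' := by
    intro f g hf hg i
    rw [map_add, Finsupp.add_apply]
    exact (B.v.map_add _ _).trans (max_le (hf i) (hg i))
  smul_mem' := by
    intro c f hf i
    rw [← algebraMap_smul L c f, map_smul, Finsupp.smul_apply, smul_eq_mul, map_mul]
    exact (mul_le_of_le_one_left' (B.v_algebraMap_le c)).trans (hf i)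

theorem mem_latInf {b : Basis ι L V} {e : ι → ℤ} {f : V} :
    f ∈ B.latInf b e ↔ ∀ i, B.v (b.repr f i) ≤ exp (e i) := Iff.rfl

/-- the `A`-dual of a subspace with respect to a bilinear form. -/
def dualA (β : LinearMap.BilinForm L V) (Λ : Submodule k V) : Submodule k V where
  carrier := {g | ∀ f ∈ Λ, β g f ∈ B.A}
  zero_mem' := by
    intro f _
    rw [map_zero, LinearMap.zero_apply]
    exact B.A.zero_mem
  add_mem' := by
    intro g g' hg hg' f hf
    rw [map_add, LinearMap.add_apply]
    exact B.A.add_mem (hg f hf) (hg' f hf)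
  smul_mem' := by
    intro c g hg f hf
    rw [← algebraMap_smul L c g, map_smul, LinearMap.smul_apply, smul_eq_mul]
    exact B.A.mul_mem (B.A.algebraMap_mem c) (hg f hf)

theorem mem_dualA {β : LinearMap.BilinForm L V} {Λ : Submodule k V} {g : V} :
    g ∈ B.dualA β Λ ↔ ∀ f ∈ Λ, β g f ∈ B.A := Iff.rfl

/-- the dual at infinity of a subspace, with a twist: `{g | ∀ f ∈ Λ, v (β g f) ≤ exp m}`. -/
def dualInf (β : LinearMap.BilinForm L V) (m : ℤ) (Λ : Submodule k V) : Submodule k V where
  carrier := {g | ∀ f ∈ Λ, B.v (β g f) ≤ exp m}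
  zero_mem' := by
    intro f _
    rw [map_zero, LinearMap.zero_apply, map_zero]
    exact zero_le
  add_mem' := by
    intro g g' hg hg' f hf
    rw [map_add, LinearMap.add_apply]
    exact (B.v.map_add _ _).trans (max_le (hg f hf) (hg' f hf))
  smul_mem' := by
    intro c g hg f hf
    rw [← algebraMap_smul L c g, map_smul, LinearMap.smul_apply, smul_eq_mul, map_mul]
    exact (mul_le_of_le_one_left' (B.v_algebraMap_le c)).trans (hg f hf)

theorem mem_dualInf {β : LinearMap.BilinForm L V} {m : ℤ} {Λ : Submodule k V} {g : V} :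
    g ∈ B.dualInf β m Λ ↔ ∀ f ∈ Λ, B.v (β g f) ≤ exp m := Iff.rfl

end NfBase

end Fermat.Agent.S20

end
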