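import Mathlib
import Fermat.Agent.S20.NfLattice

/-!
# S20, package RR-NF, part 4: dimensions for a pair of lattices

For bases `b`, `c` of `V` over `L` and the normal form `U M = diag (x ^ d) C` of the matrix `M`
of `b` with respect to `c`:

`dim (latA b ∩ latInf c m) = ∑ (m - d i + 1)⁺`, `dim V / (latA b + latInf c m) = ∑ (d i - m - 1)⁺`.
-/

set_option autoImplicit false
set_option linter.style.haveILetI false
set_option linter.unusedSectionVars false

noncomputable section

namespace Fermat.Agent.S20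

open Module WithZero Matrix

section pi

variable {k : Type*} [Field k] {ι : Type*} {W : Type*} [AddCommGroup W] [Module k W]

theorem nfp_pi_inf (p q : ι → Submodule k W) :
    Submodule.pi Set.univ p ⊓ Submodule.pi Set.univ q
      = Submodule.pi Set.univ (fun i => p i ⊓ q i) := by
  ext t
  simp only [Submodule.mem_inf, Submodule.mem_pi, Set.mem_univ, forall_true_left]
  exact ⟨fun h i => ⟨h.1 i, h.2 i⟩, fun h => ⟨fun i => (h i).1, fun i => (h i).2⟩⟩

theorem nfp_pi_sup (p q : ι → Submodule k W) :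
    Submodule.pi Set.univ p ⊔ Submodule.pi Set.univ q
      = Submodule.pi Set.univ (fun i => p i ⊔ q i) := by
  apply le_antisymm
  · apply sup_le
    · intro t ht i hi
      exact Submodule.mem_sup_left (ht i hi)
    · intro t ht i hi
      exact Submodule.mem_sup_right (ht i hi)
  · intro t ht
    have h : ∀ i, ∃ a ∈ p i, ∃ b ∈ q i, a + b = t i := fun i =>
      Submodule.mem_sup.mp (ht i (Set.mem_univ i))
    choose a ha b hb hab using h
    rw [Submodule.mem_sup]
    exact ⟨a, fun i _ => ha i, b, fun i _ => hb i, funext hab⟩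

/-- `pi univ p ≃ Π i, p i`. -/
def nfpPiEquiv (p : ι → Submodule k W) :
    ↥(Submodule.pi Set.univ p) ≃ₗ[k] ((i : ι) → ↥(p i)) where
  toFun t i := ⟨t.1 i, t.2 i (Set.mem_univ i)⟩
  map_add' _ _ := rfl
  map_smul' _ _ := rfl
  invFun s := ⟨fun i => (s i : W), fun i _ => (s i).2⟩
  left_inv _ := rfl
  right_inv _ := rfl

theorem nfp_finite_pi [Fintype ι] (p : ι → Submodule k W) [∀ i, Module.Finite k ↥(p i)] :
    Module.Finite k ↥(Submodule.pi Set.univ p) :=
  Module.Finite.equiv (nfpPiEquiv p).symm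

theorem nfp_finrank_pi [Fintype ι] (p : ι → Submodule k W) [∀ i, Module.Finite k ↥(p i)] :
    finrank k ↥(Submodule.pi Set.univ p) = ∑ i, finrank k ↥(p i) := by
  rw [LinearEquiv.finrank_eq (nfpPiEquiv p), finrank_pi_fintype]

theorem nfp_finite_quot_pi [Fintype ι] [DecidableEq ι] (p : ι → Submodule k W)
    [∀ i, Module.Finite k (W ⧸ p i)] :
    Module.Finite k ((ι → W) ⧸ Submodule.pi Set.univ p) :=
  Module.Finite.equiv (Submodule.quotientPi p).symm

theorem nfp_finrank_quot_pi [Fintype ι] [DecidableEq ι] (p : ι → Submodule k W)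
    [∀ i, Module.Finite k (W ⧸ p i)] :
    finrank k ((ι → W) ⧸ Submodule.pi Set.univ p) = ∑ i, finrank k (W ⧸ p i) := by
  rw [LinearEquiv.finrank_eq (Submodule.quotientPi p), finrank_pi_fintype]

end pi

section transfer

variable {k : Type*} [Field k] {V W : Type*} [AddCommGroup V] [Module k V]
  [AddCommGroup W] [Module k W]

/-- transport of the intersection along a linear equivalence. -/
def nfpInfEquiv (Ψ : V ≃ₗ[k] W) (Q₁ Q₂ : Submodule k W) :
    ↥(Q₁.comap (Ψ : V →ₗ[k] W) ⊓ Q₂.comap (Ψ : V →ₗ[k] W)) ≃ₗ[k] ↥(Q₁ ⊓ Q₂) :=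
  (LinearEquiv.ofEq _ _ (Submodule.comap_inf Q₁ Q₂ (Ψ : V →ₗ[k] W)).symm).trans
    (LinearEquiv.ofSubmodule' Ψ (Q₁ ⊓ Q₂))

/-- transport of the quotient by the sum along a linear equivalence. -/
def nfpSupEquiv (Ψ : V ≃ₗ[k] W) (Q₁ Q₂ : Submodule k W) :
    (V ⧸ (Q₁.comap (Ψ : V →ₗ[k] W) ⊔ Q₂.comap (Ψ : V →ₗ[k] W))) ≃ₗ[k] (W ⧸ (Q₁ ⊔ Q₂)) :=
  Submodule.Quotient.equiv _ _ Ψ (by
    rw [Submodule.map_sup, Submodule.map_comap_eq_of_surjective Ψ.surjective,
      Submodule.map_comap_eq_of_surjective Ψ.surjective])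

end transfer


namespace NfBase

variable {k L : Type*} [Field k] [Field L] [Algebra k L] (B : NfBase k L)
variable {ι : Type*} [Fintype ι] [DecidableEq ι]

/-- the normal form of a matrix, with all matrices over `L`. -/
structure NfData (M : Matrix ι ι L) where
  U : Matrix ι ι L
  Uinv : Matrix ι ι L
  C : Matrix ι ι L
  Cinv : Matrix ι ι L
  d : ι → ℤ
  U_mem : ∀ i j, U i j ∈ B.A
  Uinv_mem : ∀ i j, Uinv i j ∈ B.A
  U_mul : U * Uinv = 1
  Uinv_mul : Uinv * U = 1
  C_le : ∀ i j, B.v (C i j) ≤ 1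
  Cinv_le : ∀ i j, B.v (Cinv i j) ≤ 1
  C_mul : C * Cinv = 1
  Cinv_mul : Cinv * C = 1
  eq : U * M = Matrix.diagonal (fun i => B.x ^ d i) * C

theorem nfd_exists (M : Matrix ι ι L) (hM : M.det ≠ 0) : Nonempty (B.NfData M) := by
  obtain ⟨U, C, d, hU, hC, h⟩ := B.nfm_exists M hM
  refine ⟨{
    U := U.map (algebraMap ↥B.A L)
    Uinv := U⁻¹.map (algebraMap ↥B.A L)
    C := C.map (algebraMap ↥B.O L)
    Cinv := C⁻¹.map (algebraMap ↥B.O L)
    d := d
    U_mem := fun i j => (U i j).2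
    Uinv_mem := fun i j => (U⁻¹ i j).2
    U_mul := ?_
    Uinv_mul := ?_
    C_le := fun i j => B.v_coe_le (C i j)
    Cinv_le := fun i j => B.v_coe_le (C⁻¹ i j)
    C_mul := ?_
    Cinv_mul := ?_
    eq := h }⟩
  · rw [← Matrix.map_mul, Matrix.mul_nonsing_inv U hU, Matrix.map_one _ (map_zero _) (map_one _)]
  · rw [← Matrix.map_mul, Matrix.nonsing_inv_mul U hU, Matrix.map_one _ (map_zero _) (map_one _)]
  · rw [← Matrix.map_mul, Matrix.mul_nonsing_inv C hC, Matrix.map_one _ (map_zero _) (map_one _)]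
  · rw [← Matrix.map_mul, Matrix.nonsing_inv_mul C hC, Matrix.map_one _ (map_zero _) (map_one _)]

/-- the normal form of the inverse transpose. -/
def NfData.dual {M : Matrix ι ι L} (D : B.NfData M) (M' : Matrix ι ι L) (h : M * M'ᵀ = 1) :
    B.NfData M' where
  U := D.Uinvᵀ
  Uinv := D.Uᵀ
  C := D.Cinvᵀ
  Cinv := D.Cᵀ
  d := fun i => -D.d i
  U_mem := fun i j => D.Uinv_mem j i
  Uinv_mem := fun i j => D.U_mem j i
  U_mul := by rw [← Matrix.transpose_mul, D.U_mul, Matrix.transpose_one]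
  Uinv_mul := by rw [← Matrix.transpose_mul, D.Uinv_mul, Matrix.transpose_one]
  C_le := fun i j => D.Cinv_le j i
  Cinv_le := fun i j => D.C_le j i
  C_mul := by rw [← Matrix.transpose_mul, D.C_mul, Matrix.transpose_one]
  Cinv_mul := by rw [← Matrix.transpose_mul, D.Cinv_mul, Matrix.transpose_one]
  eq := by
    -- `Cinv D⁻¹ U M = 1`
    have hdd : Matrix.diagonal (fun i => B.x ^ (-D.d i)) * Matrix.diagonal (fun i => B.x ^ D.d i)
        = (1 : Matrix ι ι L) := by
      rw [Matrix.diagonal_mul_diagonal]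
      have : (fun i => B.x ^ (-D.d i) * B.x ^ D.d i) = fun _ => (1 : L) := by
        funext i
        rw [← zpow_add₀ B.x_ne_zero, neg_add_cancel, zpow_zero]
      rw [this, Matrix.diagonal_one]
    have h1 : D.Cinv * Matrix.diagonal (fun i => B.x ^ (-D.d i)) * D.U * M = 1 := by
      rw [Matrix.mul_assoc, D.eq, ← Matrix.mul_assoc, Matrix.mul_assoc D.Cinv, hdd,
        Matrix.mul_one, D.Cinv_mul]
    have h2 : D.Cinv * Matrix.diagonal (fun i => B.x ^ (-D.d i)) * D.U = M'ᵀ := by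
      calc D.Cinv * Matrix.diagonal (fun i => B.x ^ (-D.d i)) * D.U
          = D.Cinv * Matrix.diagonal (fun i => B.x ^ (-D.d i)) * D.U * (M * M'ᵀ) := by
            rw [h, Matrix.mul_one]
        _ = (D.Cinv * Matrix.diagonal (fun i => B.x ^ (-D.d i)) * D.U * M) * M'ᵀ := by
            rw [Matrix.mul_assoc _ M]
        _ = M'ᵀ := by rw [h1, Matrix.one_mul]
    have h3 : M'ᵀ * D.Uinv = D.Cinv * Matrix.diagonal (fun i => B.x ^ (-D.d i)) := by
      rw [← h2, Matrix.mul_assoc, D.U_mul, Matrix.mul_one]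
    have h4 := congrArg Matrix.transpose h3
    rw [Matrix.transpose_mul, Matrix.transpose_transpose, Matrix.transpose_mul,
      Matrix.diagonal_transpose] at h4
    exact h4


/-! ### the pair `(latA b, latInf c m)` -/

variable {V : Type*} [AddCommGroup V] [Module L V] [Module k V] [IsScalarTower k L V]

/-- the matrix of `b` with respect to `c`: `b i = ∑ j, basMat b c i j • c j`. -/
def basMat (b c : Basis ι L V) : Matrix ι ι L := Matrix.of fun i j => c.repr (b i) j

theorem basMat_apply (b c : Basis ι L V) (i j : ι) : basMat b c i j = c.repr (b i) j := rfl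

theorem repr_eq_vecMul (b c : Basis ι L V) (f : V) :
    (c.repr f : ι → L) = (b.repr f : ι → L) ᵥ* basMat b c := by
  funext j
  have h1 : c.repr f j = c.repr (∑ i, b.repr f i • b i) j := by rw [b.sum_repr f]
  rw [h1, map_sum, Finsupp.coe_finsetSum, Finset.sum_apply]
  simp only [Matrix.vecMul, dotProduct, basMat_apply]
  refine Finset.sum_congr rfl fun i _ => ?_
  rw [map_smul, Finsupp.smul_apply, smul_eq_mul]

variable {B}

/-- the coordinates in which the pair is a product. -/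
def NfData.psiL {b c : Basis ι L V} (D : B.NfData (basMat b c)) : V ≃ₗ[L] (ι → L) :=
  b.equivFun.trans (Matrix.toLinearEquivRight'OfInv D.U_mul D.Uinv_mul)

/-- the same, `k`-linear. -/
def NfData.psi {b c : Basis ι L V} (D : B.NfData (basMat b c)) : V ≃ₗ[k] (ι → L) :=
  D.psiL.restrictScalars k

theorem NfData.psi_apply {b c : Basis ι L V} (D : B.NfData (basMat b c)) (f : V) :
    D.psi f = (b.repr f : ι → L) ᵥ* D.Uinv := rfl

theorem NfData.basMat_mul_Cinv {b c : Basis ι L V} (D : B.NfData (basMat b c)) :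
    basMat b c * D.Cinv = D.Uinv * Matrix.diagonal (fun i => B.x ^ D.d i) := by
  have h1 : basMat b c = D.Uinv * (Matrix.diagonal (fun i => B.x ^ D.d i) * D.C) := by
    rw [← D.eq, ← Matrix.mul_assoc, D.Uinv_mul, Matrix.one_mul]
  calc basMat b c * D.Cinv
      = D.Uinv * (Matrix.diagonal (fun i => B.x ^ D.d i) * D.C) * D.Cinv := by rw [← h1]
    _ = D.Uinv * Matrix.diagonal (fun i => B.x ^ D.d i) := by
        rw [Matrix.mul_assoc, Matrix.mul_assoc, D.C_mul, Matrix.mul_one]

theorem NfData.repr_vecMul_Cinv {b c : Basis ι L V} (D : B.NfData (basMat b c)) (f : V)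
    (i : ι) : ((c.repr f : ι → L) ᵥ* D.Cinv) i = D.psi f i * B.x ^ D.d i := by
  rw [repr_eq_vecMul b c f, Matrix.vecMul_vecMul, D.basMat_mul_Cinv, ← Matrix.vecMul_vecMul,
    Matrix.vecMul_diagonal, D.psi_apply]

theorem NfData.psi_apply' {b c : Basis ι L V} (D : B.NfData (basMat b c)) (f : V) (i : ι) :
    D.psi f i = B.x ^ (-D.d i) * ((c.repr f : ι → L) ᵥ* D.Cinv) i := by
  rw [D.repr_vecMul_Cinv, mul_comm (D.psi f i), ← mul_assoc, ← zpow_add₀ B.x_ne_zero,
    neg_add_cancel, zpow_zero, one_mul]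

theorem NfData.repr_eq {b c : Basis ι L V} (D : B.NfData (basMat b c)) (f : V) :
    (c.repr f : ι → L) = (fun i => D.psi f i * B.x ^ D.d i) ᵥ* D.C := by
  have h1 : (fun i => D.psi f i * B.x ^ D.d i) = (c.repr f : ι → L) ᵥ* D.Cinv := by
    funext i
    rw [D.repr_vecMul_Cinv]
  rw [h1, Matrix.vecMul_vecMul, D.Cinv_mul, Matrix.vecMul_one]

theorem NfData.repr_b_eq {b c : Basis ι L V} (D : B.NfData (basMat b c)) (f : V) :
    (b.repr f : ι → L) = D.psi f ᵥ* D.U := by
  rw [D.psi_apply, Matrix.vecMul_vecMul, D.Uinv_mul, Matrix.vecMul_one]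

theorem NfData.mem_latA_iff {b c : Basis ι L V} (D : B.NfData (basMat b c)) (f : V) :
    f ∈ B.latA b ↔ ∀ i, D.psi f i ∈ B.A := by
  constructor
  · intro hf i
    rw [D.psi_apply]
    simp only [Matrix.vecMul, dotProduct]
    exact B.A.sum_mem fun j _ => B.A.mul_mem (hf j) (D.Uinv_mem j i)
  · intro h i
    have h1 : b.repr f i = (D.psi f ᵥ* D.U) i := congrFun (D.repr_b_eq f) i
    rw [h1]
    simp only [Matrix.vecMul, dotProduct]
    exact B.A.sum_mem fun j _ => B.A.mul_mem (h j) (D.U_mem j i)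

theorem NfData.mem_latInf_iff {b c : Basis ι L V} (D : B.NfData (basMat b c)) (m : ℤ)
    (f : V) : f ∈ B.latInf c (fun _ => m) ↔ ∀ i, D.psi f i ∈ B.Linf (m - D.d i) := by
  constructor
  · intro hf i
    rw [D.psi_apply']
    have h1 : ((c.repr f : ι → L) ᵥ* D.Cinv) i ∈ B.Linf m := by
      rw [B.mem_Linf]
      simp only [Matrix.vecMul, dotProduct]
      refine B.v.map_sum_le fun j _ => ?_
      rw [map_mul]
      calc B.v (c.repr f j) * B.v (D.Cinv j i) ≤ exp m * 1 :=
            mul_le_mul' (hf j) (D.Cinv_le j i)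
        _ = exp m := mul_one _
    have h2 := B.x_zpow_mul_mem_Linf (m := -D.d i) h1
    have h3 : -D.d i + m = m - D.d i := by ring
    rwa [h3] at h2
  · intro h j
    have h1 : c.repr f j = ((fun i => D.psi f i * B.x ^ D.d i) ᵥ* D.C) j :=
      congrFun (D.repr_eq f) j
    rw [h1]
    simp only [Matrix.vecMul, dotProduct]
    refine B.v.map_sum_le fun i _ => ?_
    rw [map_mul, map_mul, B.v_x_zpow]
    have h2 : B.v (D.psi f i) ≤ exp (m - D.d i) := h i
    calc B.v (D.psi f i) * exp (D.d i) * B.v (D.C i j)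
        ≤ exp (m - D.d i) * exp (D.d i) * 1 :=
          mul_le_mul' (mul_le_mul' h2 le_rfl) (D.C_le i j)
      _ = exp m := by rw [mul_one, ← exp_add, sub_add_cancel]

theorem NfData.latA_eq_comap {b c : Basis ι L V} (D : B.NfData (basMat b c)) :
    B.latA b = (Submodule.pi Set.univ fun _ : ι => B.Asub).comap (D.psi : V →ₗ[k] (ι → L)) := by
  ext f
  rw [D.mem_latA_iff, Submodule.mem_comap, Submodule.mem_pi]
  exact ⟨fun h i _ => h i, fun h i => h i (Set.mem_univ i)⟩

theorem NfData.latInf_eq_comap {b c : Basis ι L V} (D : B.NfData (basMat b c)) (m : ℤ) :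
    B.latInf c (fun _ => m)
      = (Submodule.pi Set.univ fun i : ι => B.Linf (m - D.d i)).comap
          (D.psi : V →ₗ[k] (ι → L)) := by
  ext f
  rw [D.mem_latInf_iff, Submodule.mem_comap, Submodule.mem_pi]
  exact ⟨fun h i _ => h i, fun h i => h i (Set.mem_univ i)⟩

/-- the intersection is a product. -/
def NfData.infEquiv {b c : Basis ι L V} (D : B.NfData (basMat b c)) (m : ℤ) :
    ↥(B.latA b ⊓ B.latInf c (fun _ => m))
      ≃ₗ[k] ↥(Submodule.pi Set.univ fun i : ι => B.Asub ⊓ B.Linf (m - D.d i)) :=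
  (LinearEquiv.ofEq _ _ (by rw [D.latA_eq_comap, D.latInf_eq_comap m])).trans
    ((nfpInfEquiv D.psi _ _).trans (LinearEquiv.ofEq _ _ (nfp_pi_inf _ _)))

/-- the quotient by the sum is a product. -/
def NfData.supEquiv {b c : Basis ι L V} (D : B.NfData (basMat b c)) (m : ℤ) :
    (V ⧸ (B.latA b ⊔ B.latInf c (fun _ => m)))
      ≃ₗ[k] ((ι → L) ⧸ Submodule.pi Set.univ fun i : ι => B.Asub ⊔ B.Linf (m - D.d i)) :=
  (Submodule.quotEquivOfEq _ _ (by rw [D.latA_eq_comap, D.latInf_eq_comap m])).trans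
    ((nfpSupEquiv D.psi _ _).trans (Submodule.quotEquivOfEq _ _ (nfp_pi_sup _ _)))

/-- **dimensions of a pair of lattices in normal form**. -/
theorem NfData.pair {b c : Basis ι L V} (D : B.NfData (basMat b c)) (m : ℤ) :
    Module.Finite k ↥(B.latA b ⊓ B.latInf c (fun _ => m)) ∧
    Module.Finite k (V ⧸ (B.latA b ⊔ B.latInf c (fun _ => m))) ∧
    finrank k ↥(B.latA b ⊓ B.latInf c (fun _ => m)) = ∑ i, (m - D.d i + 1).toNat ∧
    finrank k (V ⧸ (B.latA b ⊔ B.latInf c (fun _ => m))) = ∑ i, (-(m - D.d i) - 1).toNat := by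
  haveI h1 : Module.Finite k
      ↥(Submodule.pi Set.univ fun i : ι => B.Asub ⊓ B.Linf (m - D.d i)) := nfp_finite_pi _
  haveI h2 : Module.Finite k
      ((ι → L) ⧸ Submodule.pi Set.univ fun i : ι => B.Asub ⊔ B.Linf (m - D.d i)) :=
    nfp_finite_quot_pi _
  refine ⟨Module.Finite.equiv (D.infEquiv m).symm, Module.Finite.equiv (D.supEquiv m).symm,
    ?_, ?_⟩
  · rw [LinearEquiv.finrank_eq (D.infEquiv m), nfp_finrank_pi]
    exact Finset.sum_congr rfl fun i _ => B.finrank_inf _
  · rw [LinearEquiv.finrank_eq (D.supEquiv m), nfp_finrank_quot_pi]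
    refine Finset.sum_congr rfl fun i _ => ?_
    rw [B.finrank_quot]

end NfBase

end Fermat.Agent.S20

end
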