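import Mathlib
import Fermat.Agent.S20.NfPair

/-!
# S20, package RR-NF, part 5: duality for a pair of lattices over the projective line

`nf_duality` : for bases `b`, `c` of `V` over `L` and a nondegenerate bilinear form `β`,
with `Λ = latA b`, `Λ∞ = latInf c 0`, `Λ' = dualA β Λ`, `Λ∞' = dualInf β (-2) Λ∞`:
all of `Λ ∩ Λ∞`, `V/(Λ + Λ∞)`, `Λ' ∩ Λ∞'`, `V/(Λ' + Λ∞')` are finite dimensional and
`dim (Λ' ∩ Λ∞') = dim V/(Λ + Λ∞)`, `dim V/(Λ' + Λ∞') = dim (Λ ∩ Λ∞)`.
-/

set_option autoImplicit false
set_option linter.style.haveILetI false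
set_option linter.unusedSectionVars false

noncomputable section

namespace Fermat.Agent.S20

open Module WithZero Matrix

namespace NfBase

variable {k L : Type*} [Field k] [Field L] [Algebra k L] (B : NfBase k L)
variable {ι : Type*} [Fintype ι] [DecidableEq ι]
variable {V : Type*} [AddCommGroup V] [Module L V] [Module k V] [IsScalarTower k L V]

theorem basis_mem_latA (b : Basis ι L V) (i : ι) : b i ∈ B.latA b := by
  intro j
  rw [Basis.repr_self, Finsupp.single_apply]
  split_ifs
  · exact B.A.one_mem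
  · exact B.A.zero_mem

theorem basis_mem_latInf (c : Basis ι L V) (i : ι) : c i ∈ B.latInf c 0 := by
  intro j
  rw [Basis.repr_self, Finsupp.single_apply, Pi.zero_apply, exp_zero]
  split_ifs
  · rw [map_one]
  · rw [map_zero]
    exact zero_le_one

theorem bilin_eq_sum (β : LinearMap.BilinForm L V) (b : Basis ι L V) (g f : V) :
    β g f = ∑ i, b.repr f i * β g (b i) := by
  conv_lhs => rw [← b.sum_repr f]
  rw [map_sum]
  refine Finset.sum_congr rfl fun i _ => ?_
  rw [map_smul, smul_eq_mul]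

/-- the `A`-dual of `⊕ A b_i` is `⊕ A b_i*`. -/
theorem dualA_latA (β : LinearMap.BilinForm L V) (hβ : β.Nondegenerate) (b : Basis ι L V) :
    B.dualA β (B.latA b) = B.latA (β.dualBasis hβ b) := by
  ext g
  rw [mem_dualA, mem_latA]
  simp only [LinearMap.BilinForm.dualBasis_repr_apply]
  constructor
  · intro h i
    exact h (b i) (B.basis_mem_latA b i)
  · intro h f hf
    rw [bilin_eq_sum β b g f]
    exact B.A.sum_mem fun i _ => B.A.mul_mem (hf i) (h i)

/-- the dual at infinity of `⊕ O c_i` is `⊕ x ^ m O c_i*`. -/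
theorem dualInf_latInf (β : LinearMap.BilinForm L V) (hβ : β.Nondegenerate) (c : Basis ι L V)
    (m : ℤ) :
    B.dualInf β m (B.latInf c 0) = B.latInf (β.dualBasis hβ c) (fun _ => m) := by
  ext g
  rw [mem_dualInf, mem_latInf]
  simp only [LinearMap.BilinForm.dualBasis_repr_apply]
  constructor
  · intro h i
    exact h (c i) (B.basis_mem_latInf c i)
  · intro h f hf
    rw [bilin_eq_sum β c g f]
    refine B.v.map_sum_le fun i _ => ?_
    rw [map_mul]
    have h1 : B.v (c.repr f i) ≤ 1 := by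
      have := hf i
      rwa [Pi.zero_apply, exp_zero] at this
    calc B.v (c.repr f i) * B.v (β g (c i)) ≤ 1 * exp m := mul_le_mul' h1 (h i)
      _ = exp m := one_mul _

/-- the matrices of `(b, c)` and of the dual bases are inverse transposes of each other. -/
theorem basMat_mul_dual (β : LinearMap.BilinForm L V) (hβ : β.Nondegenerate)
    (b c : Basis ι L V) :
    basMat b c * (basMat (β.dualBasis hβ b) (β.dualBasis hβ c))ᵀ = 1 := by
  ext i l
  rw [Matrix.mul_apply, Matrix.one_apply]
  have h1 : ∀ j, basMat b c i j * (basMat (β.dualBasis hβ b) (β.dualBasis hβ c))ᵀ j l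
      = c.repr (b i) j * β (β.dualBasis hβ b l) (c j) := by
    intro j
    rw [Matrix.transpose_apply, basMat_apply, basMat_apply,
      LinearMap.BilinForm.dualBasis_repr_apply]
  simp_rw [h1]
  rw [← bilin_eq_sum β c (β.dualBasis hβ b l) (b i),
    LinearMap.BilinForm.apply_dualBasis_left]

theorem det_basMat_ne_zero (β : LinearMap.BilinForm L V) (hβ : β.Nondegenerate)
    (b c : Basis ι L V) : (basMat b c).det ≠ 0 := by
  intro h
  have h1 := congrArg Matrix.det (basMat_mul_dual β hβ b c)
  rw [Matrix.det_mul, h, zero_mul, Matrix.det_one] at h1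
  exact zero_ne_one h1

/-- **Serre duality for a pair of lattices over the projective line.** -/
theorem nf_duality (β : LinearMap.BilinForm L V) (hβ : β.Nondegenerate) (b c : Basis ι L V) :
    Module.Finite k ↥(B.latA b ⊓ B.latInf c 0) ∧
    Module.Finite k (V ⧸ (B.latA b ⊔ B.latInf c 0)) ∧
    Module.Finite k ↥(B.dualA β (B.latA b) ⊓ B.dualInf β (-2) (B.latInf c 0)) ∧
    Module.Finite k (V ⧸ (B.dualA β (B.latA b) ⊔ B.dualInf β (-2) (B.latInf c 0))) ∧
    finrank k ↥(B.dualA β (B.latA b) ⊓ B.dualInf β (-2) (B.latInf c 0))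
      = finrank k (V ⧸ (B.latA b ⊔ B.latInf c 0)) ∧
    finrank k (V ⧸ (B.dualA β (B.latA b) ⊔ B.dualInf β (-2) (B.latInf c 0)))
      = finrank k ↥(B.latA b ⊓ B.latInf c 0) := by
  obtain ⟨D⟩ := B.nfd_exists (basMat b c) (det_basMat_ne_zero β hβ b c)
  obtain ⟨h1, h2, h3, h4⟩ := D.pair 0
  obtain ⟨h5, h6, h7, h8⟩ := (D.dual B _ (basMat_mul_dual β hβ b c)).pair (-2)
  have e0 : B.latInf c 0 = B.latInf c (fun _ => 0) := rfl
  rw [B.dualA_latA β hβ b, B.dualInf_latInf β hβ c (-2), e0]
  refine ⟨h1, h2, h5, h6, ?_, ?_⟩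
  · rw [h7, h4]
    refine Finset.sum_congr rfl fun i _ => ?_
    have : (D.dual B _ (basMat_mul_dual β hβ b c)).d i = -D.d i := rfl
    rw [this]
    congr 1
    ring
  · rw [h8, h3]
    refine Finset.sum_congr rfl fun i _ => ?_
    have : (D.dual B _ (basMat_mul_dual β hβ b c)).d i = -D.d i := rfl
    rw [this]
    congr 1
    ring

end NfBase

end Fermat.Agent.S20

end
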