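import Mathlib
import Fermat.Prelude.Def_AlgebraicCurve_Repartitions
import Fermat.Agent.S20.NfLattice

/-!
# S20, Riemann–Roch: shared definitions (sorry-free)

`K ⊆ F` fields, `x : F`.  For a divisor `D` (prelude `Divisor K F`):

* `rrLam x D`    : `{f | ord_v f ≥ - D v at all places v with ord_v x ≥ 0}` (finite part);
* `rrLamInf x D` : the same at the poles of `x`;
* `rr_inf_eq`    : `rrLam x D ⊓ rrLamInf x D = riemannRochSpace D`;
* `IsDivisorOfD x W` : `W` is the divisor of `dx`, described by ramification;
* `RrBaseFor x B` : the `NfBase K K⟮x⟯` is the standard one (`B.x = x`, `B.A = K[x]`).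
-/

set_option autoImplicit false

noncomputable section

namespace Fermat.Agent.S20

open AlgebraicCurve IntermediateField WithZero

variable {K F : Type*} [Field K] [Field F] [Algebra K F]

/-- the finite part of the Riemann–Roch condition. -/
def rrLam (x : F) (D : Divisor K F) : Submodule K F where
  carrier := {f | ∀ v : Place K F, 0 ≤ v.ord x → v.adicValuation f ≤ exp (D v)}
  zero_mem' := by
    intro v _
    simp
  add_mem' := by
    intro f g hf hg v hv
    exact (Valuation.map_add _ _ _).trans (max_le (hf v hv) (hg v hv))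
  smul_mem' := by
    intro c f hf v hv
    show v.adicValuation (c • f) ≤ exp (D v)
    rw [Algebra.smul_def, map_mul]
    exact (mul_le_of_le_one_left' (v.adicValuation_algebraMap_le_one c)).trans (hf v hv)

/-- the infinite part of the Riemann–Roch condition. -/
def rrLamInf (x : F) (D : Divisor K F) : Submodule K F where
  carrier := {f | ∀ v : Place K F, v.ord x < 0 → v.adicValuation f ≤ exp (D v)}
  zero_mem' := by
    intro v _
    simp
  add_mem' := by
    intro f g hf hg v hv
    exact (Valuation.map_add _ _ _).trans (max_le (hf v hv) (hg v hv))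
  smul_mem' := by
    intro c f hf v hv
    show v.adicValuation (c • f) ≤ exp (D v)
    rw [Algebra.smul_def, map_mul]
    exact (mul_le_of_le_one_left' (v.adicValuation_algebraMap_le_one c)).trans (hf v hv)

theorem mem_rrLam {x : F} {D : Divisor K F} {f : F} :
    f ∈ rrLam x D ↔ ∀ v : Place K F, 0 ≤ v.ord x → v.adicValuation f ≤ exp (D v) := Iff.rfl

theorem mem_rrLamInf {x : F} {D : Divisor K F} {f : F} :
    f ∈ rrLamInf x D ↔ ∀ v : Place K F, v.ord x < 0 → v.adicValuation f ≤ exp (D v) := Iff.rfl

theorem mem_rrLam_iff {x : F} {D : Divisor K F} {f : F} :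
    f ∈ rrLam x D ↔ ∀ v : Place K F, 0 ≤ v.ord x → f = 0 ∨ -D v ≤ v.ord f :=
  forall_congr' fun v => imp_congr_right fun _ => v.adicValuation_le_exp_iff

theorem mem_rrLamInf_iff {x : F} {D : Divisor K F} {f : F} :
    f ∈ rrLamInf x D ↔ ∀ v : Place K F, v.ord x < 0 → f = 0 ∨ -D v ≤ v.ord f :=
  forall_congr' fun v => imp_congr_right fun _ => v.adicValuation_le_exp_iff

theorem rr_inf_eq (x : F) (D : Divisor K F) :
    rrLam x D ⊓ rrLamInf x D = riemannRochSpace D := by
  ext f
  constructor
  · rintro ⟨h1, h2⟩ v
    rcases le_or_gt 0 (v.ord x) with h | h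
    · exact h1 v h
    · exact h2 v h
  · intro h
    exact ⟨fun v _ => h v, fun v _ => h v⟩

/-- `W` is the divisor of `dx`. -/
def IsDivisorOfD (x : F) (W : Divisor K F) : Prop :=
  (∀ (v : Place K F) (a : K), 0 < v.ord (x - algebraMap K F a) →
      W v = v.ord (x - algebraMap K F a) - 1) ∧
  (∀ v : Place K F, v.ord x < 0 → W v = v.ord x - 1)

/-- the `NfBase` on `K(x)` is the standard one. -/
def RrBaseFor (x : F) (B : NfBase K K⟮x⟯) : Prop :=
  B.x = AdjoinSimple.gen K x ∧ B.A = Algebra.adjoin K {AdjoinSimple.gen K x}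

end Fermat.Agent.S20

end
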