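import Mathlib
import Fermat.Agent.S20.RRDefs
import Fermat.Agent.S24.CountingVal

/-!
# S20, package RR-BASE: the standard `NfBase` on `K(x)`

* `rrb_val_aeval` : a valuation trivial on `K` with `u z = exp t`, `t > 0`, takes the value
  `exp (t * deg p)` on `p(z)`;
* `rrb_exists`    : the standard `NfBase K K⟮x⟯` (`B.x = x`, `B.A = K[x]`, `B.v` the degree
  valuation);
* `rrb_v_aeval`, `rrb_log_v` : for ANY `B` with `RrBaseFor x B`, `B.v` is the degree valuation;
* `rrb_ord_of_pole` : a place of `F` at which `x` has a pole restricts to the degree valuation.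
-/

set_option autoImplicit false
set_option linter.style.haveILetI false
set_option linter.unusedSectionVars false

noncomputable section

namespace Fermat.Agent.S20

open AlgebraicCurve IntermediateField WithZero Polynomial

section core

variable {K R : Type*} [Field K] [Field R] [Algebra K R]

theorem rrb_val_algebraMap_le (u : Valuation R ℤᵐ⁰)
    (hK : ∀ c : K, c ≠ 0 → u (algebraMap K R c) = 1) (c : K) : u (algebraMap K R c) ≤ 1 := by
  rcases eq_or_ne c 0 with rfl | hc
  · rw [map_zero, map_zero]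
    exact zero_le_one
  · exact (hK c hc).le

/-- the valuation of a polynomial in an element of valuation `> 1`. -/
theorem rrb_val_aeval (u : Valuation R ℤᵐ⁰) (hK : ∀ c : K, c ≠ 0 → u (algebraMap K R c) = 1)
    (z : R) (t : ℤ) (ht : 0 < t) (hz : u z = exp t) (p : K[X]) (hp : p ≠ 0) :
    u (aeval z p) = exp (t * p.natDegree) := by
  rw [aeval_eq_sum_range, Finset.sum_range_succ, add_comm]
  have hlead : u (p.coeff p.natDegree • z ^ p.natDegree) = exp (t * p.natDegree) := by
    rw [Algebra.smul_def, map_mul, map_pow, hz,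
      hK _ (by rwa [Polynomial.coeff_natDegree, Polynomial.leadingCoeff_ne_zero]), one_mul,
      ← exp_nsmul, nsmul_eq_mul, mul_comm]
  have hrest : u (∑ i ∈ Finset.range p.natDegree, p.coeff i • z ^ i) < exp (t * p.natDegree) := by
    rcases Nat.eq_zero_or_pos p.natDegree with h0 | hpos
    · rw [h0, Finset.range_zero, Finset.sum_empty, map_zero]
      exact exp_pos
    · refine lt_of_le_of_lt (u.map_sum_le (g := exp (t * (p.natDegree - 1 : ℕ))) ?_) ?_
      · intro i hi
        rw [Finset.mem_range] at hi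
        rw [Algebra.smul_def, map_mul, map_pow, hz, ← exp_nsmul, nsmul_eq_mul]
        refine (mul_le_of_le_one_left' (rrb_val_algebraMap_le u hK _)).trans ?_
        rw [exp_le_exp, mul_comm]
        apply mul_le_mul_of_nonneg_left _ ht.le
        have : i ≤ p.natDegree - 1 := by omega
        exact_mod_cast this
      · rw [exp_lt_exp]
        apply mul_lt_mul_of_pos_left _ ht
        have : p.natDegree - 1 < p.natDegree := by omega
        exact_mod_cast this
  rw [u.map_add_eq_of_lt_left (hlead ▸ hrest), hlead]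

end core

section base

variable {K F : Type*} [Field K] [Field F] [Algebra K F]

/-- every element of `K(x)` is a quotient of polynomials in `x`. -/
theorem rrb_exists_quot (x : F) (hx : Transcendental K x) (r : K⟮x⟯) :
    ∃ p q : K[X], q ≠ 0 ∧ r = aeval (AdjoinSimple.gen K x) p / aeval (AdjoinSimple.gen K x) q := by
  obtain ⟨ρ, rfl⟩ := (RatFunc.algEquivOfTranscendental x hx).surjective r
  refine ⟨ρ.num, ρ.denom, ρ.denom_ne_zero, ?_⟩
  conv_lhs => rw [← RatFunc.num_div_denom ρ]
  rw [map_div₀, RatFunc.algEquivOfTranscendental_algebraMap,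
    RatFunc.algEquivOfTranscendental_algebraMap]

open scoped Classical in
/-- the degree valuation on `K(x)`. -/
def rrbVal (x : F) (hx : Transcendental K x) : Valuation K⟮x⟯ ℤᵐ⁰ :=
  (RatFunc.inftyValuation K).comap
    ((RatFunc.algEquivOfTranscendental x hx).symm : K⟮x⟯ →+* RatFunc K)

theorem rrbVal_algebraMap (x : F) (hx : Transcendental K x) (c : K) (hc : c ≠ 0) :
    rrbVal x hx (algebraMap K K⟮x⟯ c) = 1 := by
  classical
  show RatFunc.inftyValuation K ((RatFunc.algEquivOfTranscendental x hx).symm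
    (algebraMap K K⟮x⟯ c)) = 1
  rw [AlgEquiv.commutes, RatFunc.algebraMap_eq_C]
  exact RatFunc.inftyValuation.C K hc

theorem rrbVal_gen (x : F) (hx : Transcendental K x) :
    rrbVal x hx (AdjoinSimple.gen K x) = exp (1 : ℤ) := by
  classical
  show RatFunc.inftyValuation K ((RatFunc.algEquivOfTranscendental x hx).symm
    (AdjoinSimple.gen K x)) = exp (1 : ℤ)
  have h1 : (RatFunc.algEquivOfTranscendental x hx).symm (AdjoinSimple.gen K x) = RatFunc.X := by
    rw [AlgEquiv.symm_apply_eq]
    apply Subtype.ext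
    rw [RatFunc.algEquivOfTranscendental_X]
    rfl
  rw [h1]
  exact RatFunc.inftyValuation.X K


/-- for a valuation `u` on `K(x)`, trivial on `K`, with `u x = exp t`, `t > 0`: the value of a
quotient of polynomials. -/
theorem rrb_val_quot (x : F) (u : Valuation K⟮x⟯ ℤᵐ⁰)
    (hK : ∀ c : K, c ≠ 0 → u (algebraMap K K⟮x⟯ c) = 1) (t : ℤ) (ht : 0 < t)
    (hz : u (AdjoinSimple.gen K x) = exp t) (p q : K[X]) (hp : p ≠ 0) (hq : q ≠ 0) :
    u (aeval (AdjoinSimple.gen K x) p / aeval (AdjoinSimple.gen K x) q)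
      = exp (t * ((p.natDegree : ℤ) - q.natDegree)) := by
  rw [map_div₀, rrb_val_aeval u hK _ t ht hz p hp, rrb_val_aeval u hK _ t ht hz q hq,
    ← exp_sub, mul_sub]

theorem rrb_aeval_ne_zero (x : F) (hx : Transcendental K x) (q : K[X]) (hq : q ≠ 0) :
    aeval (AdjoinSimple.gen K x) q ≠ 0 := by
  intro h
  have h1 := rrb_val_aeval (rrbVal x hx) (rrbVal_algebraMap x hx) _ 1 one_pos (rrbVal_gen x hx)
    q hq
  rw [h, map_zero] at h1
  exact exp_ne_zero h1.symm

/-- division with remainder, evaluated at `x`. -/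
theorem rrb_div_sub (x : F) (hx : Transcendental K x) (p q : K[X]) (hq : q ≠ 0) :
    aeval (AdjoinSimple.gen K x) p / aeval (AdjoinSimple.gen K x) q
        - aeval (AdjoinSimple.gen K x) (p / q)
        = aeval (AdjoinSimple.gen K x) (p % q) / aeval (AdjoinSimple.gen K x) q := by
  have hq' := rrb_aeval_ne_zero x hx q hq
  have h3 : aeval (AdjoinSimple.gen K x) p
      = aeval (AdjoinSimple.gen K x) q * aeval (AdjoinSimple.gen K x) (p / q)
        + aeval (AdjoinSimple.gen K x) (p % q) := by
    rw [← map_mul, ← map_add, EuclideanDomain.div_add_mod]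
  rw [h3]
  field_simp
  ring

theorem rrb_mem_adjoin_iff (x : F) (a : K⟮x⟯) :
    a ∈ Algebra.adjoin K {AdjoinSimple.gen K x} ↔ ∃ p : K[X], aeval (AdjoinSimple.gen K x) p = a := by
  rw [Algebra.adjoin_singleton_eq_range_aeval]
  rfl

/-- **RR-BASE**: the standard `NfBase` on `K(x)`. -/
def rrbBase (x : F) (hx : Transcendental K x) : NfBase K K⟮x⟯ where
  x := AdjoinSimple.gen K x
  A := Algebra.adjoin K {AdjoinSimple.gen K x}
  v := rrbVal x hx
  x_mem := Algebra.self_mem_adjoin_singleton K _
  v_x := rrbVal_gen x hx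
  v_k := rrbVal_algebraMap x hx
  v_A := by
    intro a ha hlt
    obtain ⟨p, rfl⟩ := (rrb_mem_adjoin_iff x a).mp ha
    by_contra hne
    have hp : p ≠ 0 := by
      rintro rfl
      exact hne (map_zero _)
    rw [rrb_val_aeval (rrbVal x hx) (rrbVal_algebraMap x hx) _ 1 one_pos (rrbVal_gen x hx) p hp,
      ← exp_zero, exp_lt_exp] at hlt
    have : (0 : ℤ) ≤ 1 * (p.natDegree : ℤ) := by positivity
    omega
  approx := by
    intro r
    obtain ⟨p, q, hq, rfl⟩ := rrb_exists_quot x hx r
    refine ⟨aeval (AdjoinSimple.gen K x) (p / q),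
      (rrb_mem_adjoin_iff x _).mpr ⟨_, rfl⟩, ?_⟩
    have hq' := rrb_aeval_ne_zero x hx q hq
    have h1 := rrb_div_sub x hx p q hq
    rw [h1]
    by_cases hmod : p % q = 0
    · rw [hmod, map_zero, zero_div, map_zero]
      exact zero_lt_one
    · rw [rrb_val_quot x (rrbVal x hx) (rrbVal_algebraMap x hx) 1 one_pos (rrbVal_gen x hx)
        _ _ hmod hq, ← exp_zero, exp_lt_exp]
      have h3 : (p % q).natDegree < q.natDegree :=
        Polynomial.natDegree_lt_natDegree hmod (Polynomial.degree_mod_lt p hq)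
      omega
  res := by
    intro r hr
    -- first approximate by a polynomial, which must be constant
    obtain ⟨p, q, hq, rfl⟩ := rrb_exists_quot x hx r
    have hq' := rrb_aeval_ne_zero x hx q hq
    have h1 := rrb_div_sub x hx p q hq
    have hlt : rrbVal x hx (aeval (AdjoinSimple.gen K x) p / aeval (AdjoinSimple.gen K x) q
        - aeval (AdjoinSimple.gen K x) (p / q)) < 1 := by
      rw [h1]
      by_cases hmod : p % q = 0
      · rw [hmod, map_zero, zero_div, map_zero]
        exact zero_lt_one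
      · rw [rrb_val_quot x (rrbVal x hx) (rrbVal_algebraMap x hx) 1 one_pos (rrbVal_gen x hx)
          _ _ hmod hq, ← exp_zero, exp_lt_exp]
        have h3 : (p % q).natDegree < q.natDegree :=
          Polynomial.natDegree_lt_natDegree hmod (Polynomial.degree_mod_lt p hq)
        omega
    -- the polynomial part has valuation `≤ 1`, so it is constant
    have hs : rrbVal x hx (aeval (AdjoinSimple.gen K x) (p / q)) ≤ 1 := by
      have h3 : aeval (AdjoinSimple.gen K x) (p / q)
          = aeval (AdjoinSimple.gen K x) p / aeval (AdjoinSimple.gen K x) q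
            - (aeval (AdjoinSimple.gen K x) p / aeval (AdjoinSimple.gen K x) q
              - aeval (AdjoinSimple.gen K x) (p / q)) := by ring
      rw [h3]
      exact ((rrbVal x hx).map_sub _ _).trans (max_le hr hlt.le)
    have hconst : ∃ c : K, p / q = C c := by
      by_cases h0 : p / q = 0
      · exact ⟨0, by rw [h0, map_zero]⟩
      · rw [rrb_val_aeval (rrbVal x hx) (rrbVal_algebraMap x hx) _ 1 one_pos (rrbVal_gen x hx)
          _ h0, ← exp_zero, exp_le_exp] at hs
        have h4 : (p / q).natDegree = 0 := by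
          have : (0 : ℤ) ≤ ((p / q).natDegree : ℤ) := by positivity
          omega
        exact ⟨(p / q).coeff 0, Polynomial.eq_C_of_natDegree_eq_zero h4⟩
    obtain ⟨c, hc⟩ := hconst
    refine ⟨c, ?_⟩
    have h5 : aeval (AdjoinSimple.gen K x) (p / q) = algebraMap K K⟮x⟯ c := by
      rw [hc, aeval_C]
    rw [← h5]
    exact hlt

theorem rrb_exists (x : F) (hx : Transcendental K x) :
    ∃ B : NfBase K K⟮x⟯, RrBaseFor x B :=
  ⟨rrbBase x hx, rfl, rfl⟩

/-- for ANY standard base, `B.v` is the degree valuation. -/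
theorem rrb_v_quot (x : F) (B : NfBase K K⟮x⟯) (hB : RrBaseFor x B) (p q : K[X]) (hp : p ≠ 0)
    (hq : q ≠ 0) :
    B.v (aeval (AdjoinSimple.gen K x) p / aeval (AdjoinSimple.gen K x) q)
      = exp ((p.natDegree : ℤ) - q.natDegree) := by
  have hz : B.v (AdjoinSimple.gen K x) = exp (1 : ℤ) := by
    rw [← hB.1]
    exact B.v_x
  rw [rrb_val_quot x B.v B.v_k 1 one_pos hz p q hp hq, one_mul]

/-- **RR-BASE'**: a place of `F` at which `x` has a pole restricts to the degree valuation. -/
theorem rrb_ord_of_pole (x : F) (hx : Transcendental K x) (B : NfBase K K⟮x⟯)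
    (hB : RrBaseFor x B) (v : Place K F) (hv : v.ord x < 0) (r : K⟮x⟯) (hr : r ≠ 0) :
    v.ord (r : F) = v.ord x * WithZero.log (B.v r) := by
  obtain ⟨p, q, hq, rfl⟩ := rrb_exists_quot x hx r
  have hp : p ≠ 0 := by
    rintro rfl
    rw [map_zero, zero_div] at hr
    exact hr rfl
  rw [rrb_v_quot x B hB p q hp hq, log_exp]
  -- the valuation induced by `v` on `K(x)`
  set u : Valuation K⟮x⟯ ℤᵐ⁰ := v.adicValuation.comap (algebraMap K⟮x⟯ F) with hu
  have hx0 : x ≠ 0 := by
    rintro rfl
    rw [v.ord_zero] at hv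
    exact lt_irrefl 0 hv
  have huK : ∀ c : K, c ≠ 0 → u (algebraMap K K⟮x⟯ c) = 1 := by
    intro c hc
    show v.adicValuation (algebraMap K⟮x⟯ F (algebraMap K K⟮x⟯ c)) = 1
    rw [← IsScalarTower.algebraMap_apply K K⟮x⟯ F]
    exact Fermat.Agent.S24.ct_adic_algebraMap v hc
  have huz : u (AdjoinSimple.gen K x) = exp (-v.ord x) := by
    show v.adicValuation (algebraMap K⟮x⟯ F (AdjoinSimple.gen K x)) = exp (-v.ord x)
    rw [AdjoinSimple.algebraMap_gen]
    exact v.adicValuation_eq_exp_neg_ord hx0
  have h1 := rrb_val_quot x u huK (-v.ord x) (by omega) huz p q hp hq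
  have h2 : v.adicValuation ((aeval (AdjoinSimple.gen K x) p / aeval (AdjoinSimple.gen K x) q
      : K⟮x⟯) : F) = exp (-v.ord x * ((p.natDegree : ℤ) - q.natDegree)) := h1
  unfold Place.ord at *
  rw [h2, log_exp]
  ring

end base

end Fermat.Agent.S20

end
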