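import Mathlib
import Fermat.Agent.S20.RRDefs
import Fermat.Agent.S20.RRBase
import Fermat.Agent.S20.NfDual

/-!
# S20, package RR-ASM: assembly of the Riemann–Roch package

`rr_canonical_of` : `2 ℓ(W) - 2 = deg W` for the divisor `W` of `dx`, from

* the lattice descriptions of `rrLam x 0`, `rrLamInf x 0` (RR-DICT),
* the Euler characteristic formula at `W` (RR-CHI),
* `ℓ(0) = 1` (RR-ZERO),
* the trace duals of `rrLam x 0`, `rrLamInf x 0` (RR-DIFF),

via the abstract duality `NfBase.nf_duality` for lattice pairs.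
-/

set_option autoImplicit false
set_option linter.unusedSectionVars false
set_option linter.style.haveILetI false

noncomputable section

namespace Fermat.Agent.S20

open AlgebraicCurve IntermediateField Module

variable {K F : Type*} [Field K] [Field F] [Algebra K F]

/-- transport of `finrank` along an equality of submodules. -/
theorem rra_finrank_congr {M : Type*} [AddCommGroup M] [Module K M] {P Q : Submodule K M}
    (h : P = Q) : finrank K ↥P = finrank K ↥Q := by
  subst h
  rfl

theorem rra_finrank_quot_congr {M : Type*} [AddCommGroup M] [Module K M] {P Q : Submodule K M}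
    (h : P = Q) : finrank K (M ⧸ P) = finrank K (M ⧸ Q) := by
  subst h
  rfl

theorem rra_finite_congr {M : Type*} [AddCommGroup M] [Module K M] {P Q : Submodule K M}
    (h : P = Q) (hP : Module.Finite K ↥P) : Module.Finite K ↥Q := by
  subst h
  exact hP

/-- [RR-FIN] from the finiteness half of RR-CHI. -/
theorem rr_finite_of (x : F) (D : Divisor K F)
    (hfin : Module.Finite K ↥(rrLam x D ⊓ rrLamInf x D)) :
    Module.Finite K (riemannRochSpace D) :=
  rra_finite_congr (rr_inf_eq x D) hfin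

/-- [RR-CAN] assembly: `2 ℓ(W) - 2 = deg W`. -/
theorem rr_canonical_of [CharZero K] (x : F) [FiniteDimensional K⟮x⟯ F]
    (W : Divisor K F) (B : NfBase K K⟮x⟯)
    (hb : ∃ b : Basis (Fin (finrank K⟮x⟯ F)) K⟮x⟯ F, rrLam x (0 : Divisor K F) = B.latA b)
    (hc : ∃ c : Basis (Fin (finrank K⟮x⟯ F)) K⟮x⟯ F, rrLamInf x (0 : Divisor K F) = B.latInf c 0)
    (hchi : (finrank K ↥(rrLam x W ⊓ rrLamInf x W) : ℤ)
        - finrank K (F ⧸ (rrLam x W ⊔ rrLamInf x W))
      = (finrank K ↥(rrLam x (0 : Divisor K F) ⊓ rrLamInf x (0 : Divisor K F)) : ℤ)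
        - finrank K (F ⧸ (rrLam x (0 : Divisor K F) ⊔ rrLamInf x (0 : Divisor K F)))
        + Divisor.degree W)
    (hzero : finrank K ↥(riemannRochSpace (0 : Divisor K F)) = 1)
    (hdA : B.dualA (Algebra.traceForm K⟮x⟯ F) (rrLam x (0 : Divisor K F)) = rrLam x W)
    (hdI : B.dualInf (Algebra.traceForm K⟮x⟯ F) (-2) (rrLamInf x (0 : Divisor K F))
      = rrLamInf x W) :
    2 * (Module.finrank K (riemannRochSpace W) : ℤ) - 2 = Divisor.degree W := by
  obtain ⟨b, hb⟩ := hb
  obtain ⟨c, hc⟩ := hc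
  haveI : CharZero K⟮x⟯ := charZero_of_injective_algebraMap (algebraMap K K⟮x⟯).injective
  have hβ : (Algebra.traceForm K⟮x⟯ F).Nondegenerate := traceForm_nondegenerate K⟮x⟯ F
  obtain ⟨-, -, -, -, h1, h2⟩ := B.nf_duality (Algebra.traceForm K⟮x⟯ F) hβ b c
  rw [← hb, ← hc, hdA, hdI] at h1 h2
  rw [rra_finrank_congr (rr_inf_eq x W)] at h1 hchi
  rw [rra_finrank_congr (rr_inf_eq x (0 : Divisor K F)), hzero] at h2 hchi
  rw [h2, ← h1] at hchi
  push_cast at hchi
  linarith

end Fermat.Agent.S20

end
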