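import Fermat.Agent.S24.AlgA
import Fermat.Agent.S20.RRDefs

/-!
# S20 / RR-ZERO: functions without poles are constant

`K` algebraically closed of characteristic `0`, `F ⊇ K` a field finite over `K(x)`, `x`
transcendental.  `riemannRochSpace 0 = K`, hence of dimension one.
-/

set_option autoImplicit false
set_option linter.deprecated false
set_option linter.unusedSectionVars false
set_option linter.unusedVariables false
set_option linter.style.haveILetI false

namespace Fermat.Agent.S20

open Fermat.Agent.S24
open AlgebraicCurve IntermediateField Module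

variable {K F : Type*} [Field K] [Field F] [Algebra K F] [IsAlgClosed K] [CharZero K]

/-- a function without poles is algebraic over `K`. -/
theorem rrz_isAlgebraic (x : F) (hx : Transcendental K x) [FiniteDimensional K⟮x⟯ F]
    (f : F) (hf : ∀ v : Place K F, 0 ≤ v.ord f) : IsAlgebraic K f := by
  by_contra htr
  have htr' : Transcendental K f := htr
  have hsum := alg_sum_poles x hx f htr'
  have hempty : {v : Place K F | v.ord f < 0} = ∅ := by
    ext v
    simp only [Set.mem_setOf_eq, Set.mem_empty_iff_false, iff_false, not_lt]
    exact hf v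
  rw [hempty, finsum_mem_empty] at hsum
  haveI : FiniteDimensional K⟮f⟯ F := alga_finiteDimensional_of_transcendental x f htr'
  have hpos : 0 < Module.finrank K⟮f⟯ F := Module.finrank_pos
  have : (Module.finrank K⟮f⟯ F : ℤ) = 0 := hsum.symm
  omega

/-- the functions without poles are the constants. -/
theorem rrz_mem_iff (x : F) (hx : Transcendental K x) [FiniteDimensional K⟮x⟯ F] (f : F) :
    f ∈ riemannRochSpace (0 : Divisor K F) ↔ ∃ a : K, algebraMap K F a = f := by
  constructor
  · intro hf
    rw [mem_riemannRochSpace_iff] at hf
    refine alga_mem_range_of_isAlgebraic (rrz_isAlgebraic x hx f fun v => ?_)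
    rcases hf v with h | h
    · rw [h, Place.ord_zero]
    · simpa using h
  · rintro ⟨a, rfl⟩
    rw [mem_riemannRochSpace_iff]
    intro v
    right
    rw [alga_ord_algebraMap]
    simp

/-- [RR-ZERO] functions without poles are constant. -/
theorem rr_finrank_zero (x : F) (hx : Transcendental K x) [FiniteDimensional K⟮x⟯ F] :
    finrank K ↥(riemannRochSpace (0 : Divisor K F)) = 1 := by
  have h1 : (1 : F) ∈ riemannRochSpace (0 : Divisor K F) :=
    (rrz_mem_iff x hx 1).2 ⟨1, map_one _⟩
  refine finrank_eq_one (⟨1, h1⟩ : ↥(riemannRochSpace (0 : Divisor K F))) ?_ ?_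
  · intro h
    have := congrArg Subtype.val h
    simp at this
  · rintro ⟨f, hf⟩
    obtain ⟨a, rfl⟩ := (rrz_mem_iff x hx f).1 hf
    refine ⟨a, ?_⟩
    apply Subtype.ext
    show a • (1 : F) = algebraMap K F a
    rw [Algebra.smul_def, mul_one]

end Fermat.Agent.S20
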