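import Fermat.Agent.S20.DiffDict
import Fermat.Agent.S20.RRDefs
import Fermat.Agent.S24.AlgA

/-!
# S20 / RR-DIFF, finite part: the trace dual of the integral closure of `K[x]`
-/

set_option autoImplicit false
set_option linter.style.haveILetI false
set_option linter.unusedSectionVars false
set_option linter.unusedVariables false
set_option linter.deprecated false

noncomputable section

namespace Fermat.Agent.S20

open AlgebraicCurve IntermediateField Polynomial IsDedekindDomain WithZero Fermat.Agent.S24
open scoped IntermediateField.algebraAdjoinAdjoin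

section fin

variable {K F : Type*} [Field K] [Field F] [Algebra K F]

/-- `x - a` as an element of `K[x]`. -/
def difffGen (x : F) (a : K) : Algebra.adjoin K ({x} : Set F) :=
  ⟨x - algebraMap K F a, sub_mem (Algebra.self_mem_adjoin_singleton K x) (Subalgebra.algebraMap_mem _ a)⟩

theorem difff_prime (x : F) (hx : Transcendental K x) (a : K) : Prime (difffGen x a) := by
  have h1 : Prime (X - C a : K[X]) := Polynomial.prime_X_sub_C a
  have h2 := (MulEquiv.prime_iff (Polynomial.algEquivOfTranscendental K x hx)).mpr h1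
  have h3 : (Polynomial.algEquivOfTranscendental K x hx) (X - C a) = difffGen x a := by
    apply Subtype.ext
    simp [difffGen, Polynomial.algEquivOfTranscendental]
  rwa [← h3]

/-- the subalgebra `B.A` of the standard base is the image of `K[x]`. -/
theorem difff_mem_A_iff (x : F) (B : NfBase K K⟮x⟯) (hB : RrBaseFor x B) (r : K⟮x⟯) :
    r ∈ B.A ↔ r ∈ (algebraMap (Algebra.adjoin K ({x} : Set F)) K⟮x⟯).range := by
  rw [hB.2, Algebra.adjoin_singleton_eq_range_aeval]
  constructor
  · rintro ⟨q, rfl⟩
    refine ⟨⟨aeval x q, ?_⟩, ?_⟩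
    · rw [Algebra.adjoin_singleton_eq_range_aeval]
      exact ⟨q, rfl⟩
    · apply Subtype.ext
      rw [IntermediateField.algebraAdjoinAdjoin.coe_algebraMap]
      simp only [AlgHom.toRingHom_eq_coe, RingHom.coe_coe]
      have := Polynomial.aeval_algHom_apply (IntermediateField.val K⟮x⟯) (AdjoinSimple.gen K x) q
      simp
  · rintro ⟨⟨y, hy⟩, rfl⟩
    rw [Algebra.adjoin_singleton_eq_range_aeval] at hy
    obtain ⟨q, rfl⟩ := hy
    refine ⟨q, ?_⟩
    apply Subtype.ext
    rw [IntermediateField.algebraAdjoinAdjoin.coe_algebraMap]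
    simp only [AlgHom.toRingHom_eq_coe, RingHom.coe_coe]
    have := Polynomial.aeval_algHom_apply (IntermediateField.val K⟮x⟯) (AdjoinSimple.gen K x) q
    simp

end fin

section main

variable {K F : Type*} [Field K] [Field F] [Algebra K F] [IsAlgClosed K] [CharZero K]

/-- [RR-DIFF] the trace dual of the integral closure of `K[x]`. -/
theorem rr_dualA (x : F) (hx : Transcendental K x) [FiniteDimensional K⟮x⟯ F]
    (B : NfBase K K⟮x⟯) (hB : RrBaseFor x B) (W : Divisor K F) (hW : IsDivisorOfD x W) :
    B.dualA (Algebra.traceForm K⟮x⟯ F) (rrLam x (0 : Divisor K F)) = rrLam x W := by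
  classical
  have hDed : IsDedekindDomain (Algebra.adjoin K ({x} : Set F)) := algaz_isDedekindDomain x hx
  have hchar : CharZero K⟮x⟯ := charZero_of_injective_algebraMap (algebraMap K K⟮x⟯).injective
  have hsep : Algebra.IsSeparable K⟮x⟯ F := inferInstance
  have hDedB : IsDedekindDomain (integralClosure (Algebra.adjoin K ({x} : Set F)) F) :=
    integralClosure.isDedekindDomain (Algebra.adjoin K ({x} : Set F)) K⟮x⟯ F
  have hFracB : IsFractionRing (integralClosure (Algebra.adjoin K ({x} : Set F)) F) F :=
    integralClosure.isFractionRing_of_finite_extension K⟮x⟯ F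
  have hFinB : Module.Finite (Algebra.adjoin K ({x} : Set F))
      (integralClosure (Algebra.adjoin K ({x} : Set F)) F) :=
    IsIntegralClosure.finite (Algebra.adjoin K ({x} : Set F)) K⟮x⟯ F
      (integralClosure (Algebra.adjoin K ({x} : Set F)) F)
  -- the places over `K[x]`
  set S : Set (Place K F) := {v | 0 ≤ v.ord x} with hS
  have hS1 : ∀ v ∈ S, ∀ a : Algebra.adjoin K ({x} : Set F),
      algebraMap (Algebra.adjoin K ({x} : Set F)) F a ∈ v.toValuationSubring := by
    intro v hv a
    have hzmem : x ∈ v.toValuationSubring := alga_mem_of_ord_nonneg v hv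
    have hc : (a : F) ∈ (aeval x : K[X] →ₐ[K] F).range := by
      rw [← Algebra.adjoin_singleton_eq_range_aeval]
      exact a.2
    obtain ⟨q, hq⟩ := hc
    show (a : F) ∈ v.toValuationSubring
    rw [← hq]
    exact alga_aeval_mem v hzmem q
  have hS2 : ∀ P : HeightOneSpectrum (integralClosure (Algebra.adjoin K ({x} : Set F)) F),
      Place.ofHeightOneSpectrum (K := K) (F := F) P ∈ S := by
    intro P
    show 0 ≤ (Place.ofHeightOneSpectrum (K := K) (F := F) P).ord x
    apply alga_ord_nonneg_of_mem
    rw [algad_mem_iff (K := K)]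
    have hxB : x ∈ integralClosure (Algebra.adjoin K ({x} : Set F)) F :=
      (integralClosure (Algebra.adjoin K ({x} : Set F)) F).algebraMap_mem
        ⟨x, Algebra.self_mem_adjoin_singleton K x⟩
    exact P.valuation_le_one (⟨x, hxB⟩ : integralClosure (Algebra.adjoin K ({x} : Set F)) F)
  have hE : ∀ v ∈ S, ∃ t : Algebra.adjoin K ({x} : Set F), Prime t ∧
      0 < v.ord (algebraMap (Algebra.adjoin K ({x} : Set F)) F t) ∧
      W v = v.ord (algebraMap (Algebra.adjoin K ({x} : Set F)) F t) - 1 := by
    intro v hv
    obtain ⟨a, ha, -⟩ := alg_exists_value x hx v x hv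
    have hpos : 0 < v.ord (x - algebraMap K F a) := by
      refine ha.resolve_left fun h => hx ?_
      rw [h]
      exact isAlgebraic_algebraMap a
    exact ⟨difffGen x a, difff_prime x hx a, hpos, hW.1 v a hpos⟩
  have key := diffd_mem_traceDual_iff (K := K) (F := F) K⟮x⟯
    (integralClosure (Algebra.adjoin K ({x} : Set F)) F) S hS1 hS2 W hE
  have key2 := diffd_mem_range_iff (K := K) (F := F) K⟮x⟯
    (integralClosure (Algebra.adjoin K ({x} : Set F)) F) S hS1 hS2
  ext g
  rw [mem_rrLam_iff, NfBase.mem_dualA]
  have hg := key g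
  rw [Submodule.mem_traceDual] at hg
  have hiff : (∀ f ∈ rrLam x (0 : Divisor K F), (Algebra.traceForm K⟮x⟯ F) g f ∈ B.A) ↔
      (∀ a ∈ (1 : Submodule (integralClosure (Algebra.adjoin K ({x} : Set F)) F) F),
        (Algebra.traceForm K⟮x⟯ F) g a
          ∈ (algebraMap (Algebra.adjoin K ({x} : Set F)) K⟮x⟯).range) := by
    refine forall_congr' fun f => ?_
    rw [difff_mem_A_iff x B hB]
    refine imp_congr_left ?_
    rw [Submodule.mem_one, mem_rrLam]
    have h2 := key2 f
    rw [RingHom.mem_range] at h2
    rw [h2]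
    refine forall_congr' fun v => ?_
    show (0 ≤ v.ord x → _) ↔ (0 ≤ v.ord x → _)
    refine imp_congr_right fun _ => ?_
    rw [Finsupp.zero_apply, exp_zero, alga_mem_iff, v.adicValuation_le_one_iff]
    constructor
    · rintro (h | h)
      · rw [h, v.ord_zero]
      · exact h
    · exact fun h => Or.inr h
  rw [hiff, hg]
  exact Iff.rfl

end main

end Fermat.Agent.S20
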