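import Fermat.Agent.S20.DiffCore
import Fermat.Agent.S24.AlgADedekind

/-!
# S20 / RR-DIFF, dictionary: the trace dual in terms of prelude places

AKLB over a field of constants `K` (char. 0); `S` the set of places of `F` over `A`.
-/

set_option autoImplicit false
set_option linter.style.haveILetI false
set_option linter.unusedSectionVars false
set_option linter.unusedVariables false

noncomputable section

namespace Fermat.Agent.S20

open AlgebraicCurve IsDedekindDomain WithZero Fermat.Agent.S24

section dict

variable {K F : Type*} [Field K] [Field F] [Algebra K F]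
variable {R : Type*} [CommRing R] [IsDedekindDomain R] [Algebra R F] [IsFractionRing R F]
  [Algebra K R] [IsScalarTower K R F]

/-- `v_P y < 1 ↔ y = 0 ∨ 0 < ord y`. -/
theorem diffd_valuation_lt_one_iff (P : HeightOneSpectrum R) (y : F) :
    P.valuation F y < 1 ↔ y = 0 ∨ 0 < (Place.ofHeightOneSpectrum (K := K) (F := F) P).ord y := by
  rcases eq_or_ne y 0 with rfl | hy
  · simp
  · have hne : P.valuation F y ≠ 0 := (Valuation.ne_zero_iff _).mpr hy
    rw [algad_ord_eq (K := K) P y, or_iff_right hy, ← exp_log hne, ← exp_zero, exp_lt_exp,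
      log_exp]
    omega

/-- `v_P y ≤ 1 ↔ y = 0 ∨ 0 ≤ ord y`. -/
theorem diffd_valuation_le_one_iff (P : HeightOneSpectrum R) (y : F) :
    P.valuation F y ≤ 1 ↔ y = 0 ∨ 0 ≤ (Place.ofHeightOneSpectrum (K := K) (F := F) P).ord y := by
  rcases eq_or_ne y 0 with rfl | hy
  · simp
  · have hne : P.valuation F y ≠ 0 := (Valuation.ne_zero_iff _).mpr hy
    rw [algad_ord_eq (K := K) P y, or_iff_right hy, ← exp_log hne, ← exp_zero, exp_le_exp,
      log_exp]
    omega

end dict

section main

/-- The trace dual of `B` in terms of places. -/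
theorem diffd_mem_traceDual_iff {K F : Type*} [Field K] [Field F] [Algebra K F] [CharZero K]
    {A : Type*} (L B : Type*) [CommRing A] [IsDedekindDomain A] [Field L] [Algebra A L]
    [IsFractionRing A L] [Algebra L F] [Algebra A F] [IsScalarTower A L F]
    [CommRing B] [IsDedekindDomain B] [Algebra A B] [Module.IsTorsionFree A B] [Algebra B F]
    [IsFractionRing B F] [IsScalarTower A B F] [Module.Finite A B] [IsIntegralClosure B A F]
    [Algebra K A] [Algebra K B] [IsScalarTower K A B] [IsScalarTower K B F]
    [FiniteDimensional L F] [Algebra.IsSeparable L F]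
    (S : Set (Place K F))
    (hS1 : ∀ v ∈ S, ∀ a : A, algebraMap A F a ∈ v.toValuationSubring)
    (hS2 : ∀ P : HeightOneSpectrum B, Place.ofHeightOneSpectrum (K := K) (F := F) P ∈ S)
    (E : Place K F → ℤ)
    (hE : ∀ v ∈ S, ∃ t : A, Prime t ∧ 0 < v.ord (algebraMap A F t) ∧
      E v = v.ord (algebraMap A F t) - 1)
    (g : F) :
    g ∈ Submodule.traceDual A L (1 : Submodule B F) ↔ ∀ v ∈ S, g = 0 ∨ -E v ≤ v.ord g := by
  constructor
  · intro h v hv
    rcases eq_or_ne g 0 with hg | hg
    · exact Or.inl hg
    right
    have hBv : ∀ b : B, algebraMap B F b ∈ v.toValuationSubring :=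
      algad_integral_mem (A := A) v (hS1 v hv)
    obtain ⟨P, hP, hPmem⟩ := algad_exists_heightOneSpectrum (R := B) v hBv
    obtain ⟨t, htprime, htpos, hEv⟩ := hE v hv
    have htF : algebraMap B F (algebraMap A B t) = algebraMap A F t :=
      (IsScalarTower.algebraMap_apply A B F t).symm
    have htP : algebraMap A B t ∈ P.asIdeal := by
      rw [hPmem, htF]
      exact Or.inr htpos
    have h1 := diffc_valuation_lt_one_of_mem K A L h P t htprime htP
    rw [diffd_valuation_lt_one_iff (K := K), hP, htF] at h1
    have ht0 : algebraMap A F t ≠ 0 := by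
      intro h0
      rw [h0] at htpos
      simp at htpos
    rcases h1 with h1 | h1
    · exact absurd h1 (mul_ne_zero hg ht0)
    · rw [v.ord_mul hg ht0] at h1
      omega
  · intro h
    apply diffc_mem_of_forall_exists K A L
    intro P
    set v := Place.ofHeightOneSpectrum (K := K) (F := F) P with hv
    have hvS : v ∈ S := hS2 P
    obtain ⟨t, htprime, htpos, hEv⟩ := hE v hvS
    have htF : algebraMap B F (algebraMap A B t) = algebraMap A F t :=
      (IsScalarTower.algebraMap_apply A B F t).symm
    have ht0 : algebraMap A F t ≠ 0 := by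
      intro h0
      rw [h0] at htpos
      simp at htpos
    refine ⟨t, htprime, ?_, ?_⟩
    · have hval : P.valuation F (algebraMap B F (algebraMap A B t)) < 1 := by
        rw [diffd_valuation_lt_one_iff (K := K), htF]
        exact Or.inr htpos
      exact (P.valuation_lt_one_iff_mem (algebraMap A B t)).mp hval
    · rw [diffd_valuation_lt_one_iff (K := K), htF]
      rcases h v hvS with hg | hg
      · left
        rw [hg, zero_mul]
      · rcases eq_or_ne g 0 with hg0 | hg0
        · left
          rw [hg0, zero_mul]
        · right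
          rw [← hv, v.ord_mul hg0 ht0]
          omega

/-- The integral closure in terms of places. -/
theorem diffd_mem_range_iff {K F : Type*} [Field K] [Field F] [Algebra K F]
    {A : Type*} (L B : Type*) [CommRing A] [IsDedekindDomain A] [Field L] [Algebra A L]
    [IsFractionRing A L] [Algebra L F] [Algebra A F] [IsScalarTower A L F]
    [CommRing B] [IsDedekindDomain B] [Algebra A B] [Module.IsTorsionFree A B] [Algebra B F]
    [IsFractionRing B F] [IsScalarTower A B F] [Module.Finite A B]
    [Algebra K A] [Algebra K B] [IsScalarTower K A B] [IsScalarTower K B F]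
    (S : Set (Place K F))
    (hS1 : ∀ v ∈ S, ∀ a : A, algebraMap A F a ∈ v.toValuationSubring)
    (hS2 : ∀ P : HeightOneSpectrum B, Place.ofHeightOneSpectrum (K := K) (F := F) P ∈ S)
    (f : F) :
    f ∈ (algebraMap B F).range ↔ ∀ v ∈ S, f ∈ v.toValuationSubring := by
  constructor
  · rintro ⟨b, rfl⟩ v hv
    exact algad_integral_mem (A := A) v (hS1 v hv) b
  · intro h
    apply HeightOneSpectrum.mem_integers_of_valuation_le_one
    intro P
    have := h _ (hS2 P)
    rwa [algad_mem_iff (K := K)] at this

end main

end Fermat.Agent.S20
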