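import Fermat.Agent.S20.RRDictInf

/-!
# S20, package RR-DIFF (infinite part): reduction to the finite part in the chart `1 / x`

`rr_dualInf_of` : if the trace dual of the integral closure of `K[y]` is `rrLam y W'` for every
chart `y` (`rr_dualA`), then the twisted trace dual at infinity of `rrLamInf x 0` is
`rrLamInf x W`.
-/

set_option autoImplicit false
set_option linter.style.haveILetI false
set_option linter.unusedSectionVars false

noncomputable section

namespace Fermat.Agent.S20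

open Fermat.Agent.S24
open AlgebraicCurve IntermediateField Module Polynomial WithZero

section transport

variable {K F : Type*} [Field K] [Field F] [Algebra K F]

/-- the `F`-valued trace does not depend on the presentation of the subfield. -/
theorem dinf_trace_congr {E E' : IntermediateField K F} (h : E = E') (f : F) :
    ((Algebra.trace E F f : E) : F) = ((Algebra.trace E' F f : E') : F) := by
  subst h
  rfl

/-- the trace is linear over the subfield. -/
theorem dinf_trace_mul (E : IntermediateField K F) (e : E) (f : F) :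
    Algebra.trace E F ((e : F) * f) = e * Algebra.trace E F f := by
  have h := (Algebra.trace E F).map_smul e f
  rw [smul_eq_mul] at h
  rw [← h]
  rfl

theorem dinf_trace_mul_coe (E : IntermediateField K F) (e : E) (f : F) :
    ((Algebra.trace E F ((e : F) * f) : E) : F) = (e : F) * ((Algebra.trace E F f : E) : F) := by
  rw [dinf_trace_mul]
  rfl

theorem dinf_inv_mem (x : F) : x⁻¹ ∈ K⟮x⟯ := inv_mem (mem_adjoin_simple_self K x)

theorem dinf_adjoin_le (x : F) {a : F} (ha : a ∈ Algebra.adjoin K ({x⁻¹} : Set F)) :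
    a ∈ K⟮x⟯ := by
  have h : Algebra.adjoin K ({x⁻¹} : Set F) ≤ K⟮x⟯.toSubalgebra :=
    Algebra.adjoin_le (by
      intro t ht
      rw [Set.mem_singleton_iff] at ht
      rw [ht]
      exact dinf_inv_mem x)
  exact h ha

end transport

section main

variable {K F : Type*} [Field K] [Field F] [Algebra K F] [IsAlgClosed K] [CharZero K]

/-- the finite part in the chart `y = x⁻¹`, with traces over `K(x)`. -/
theorem dinf_dualA_iff
    (hA : ∀ (y : F) (_ : Transcendental K y) [FiniteDimensional K⟮y⟯ F] (B' : NfBase K K⟮y⟯)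
      (_ : RrBaseFor y B') (W' : Divisor K F) (_ : IsDivisorOfD y W'),
      B'.dualA (Algebra.traceForm K⟮y⟯ F) (rrLam y (0 : Divisor K F)) = rrLam y W')
    (x : F) (hx : Transcendental K x) [FiniteDimensional K⟮x⟯ F]
    (W' : Divisor K F) (hW' : IsDivisorOfD x⁻¹ W') (g : F) :
    g ∈ rrLam x⁻¹ W' ↔ ∀ f ∈ rrLam x⁻¹ (0 : Divisor K F),
      ((Algebra.trace K⟮x⟯ F (g * f) : K⟮x⟯) : F) ∈ Algebra.adjoin K ({x⁻¹} : Set F) := by
  have hy : Transcendental K x⁻¹ := algaz_transcendental_inv hx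
  haveI : FiniteDimensional K⟮x⁻¹⟯ F := alga_finiteDimensional_of_transcendental x x⁻¹ hy
  obtain ⟨B', hB'⟩ := rrb_exists x⁻¹ hy
  rw [← hA x⁻¹ hy B' hB' W' hW', NfBase.mem_dualA]
  refine forall_congr' fun f => imp_congr_right fun _ => ?_
  rw [hB'.2, rrd_mem_adjoin_gen_iff, Algebra.traceForm_apply,
    dinf_trace_congr (algaz_adjoin_inv x)]

/-- if `x⁻¹ - a` vanishes at `v` with `a ≠ 0`, then `x` is a unit at `v`. -/
theorem dinf_ord_eq_zero (x : F) (v : Place K F) (a : K) (ha : a ≠ 0)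
    (h : 0 < v.ord (x⁻¹ - algebraMap K F a)) : v.ord x = 0 := by
  have hne : x⁻¹ - algebraMap K F a ≠ 0 := ct_ne_zero_of_ord_pos v h
  have h1 : v.adicValuation (x⁻¹ - algebraMap K F a) < 1 := (ct_ord_pos_iff v hne).mp h
  have h2 : v.adicValuation (algebraMap K F a) = 1 := ct_adic_algebraMap v ha
  have h3 : v.adicValuation x⁻¹ = 1 := by
    have e : x⁻¹ = (x⁻¹ - algebraMap K F a) + algebraMap K F a := by ring
    rw [e, Valuation.map_add_eq_of_lt_right _ (by rw [h2]; exact h1), h2]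
  have hx0 : x⁻¹ ≠ 0 := by
    intro h0
    rw [h0, map_zero] at h3
    exact zero_ne_one h3
  have h4 : v.ord x⁻¹ = 0 := (ct_ord_eq_zero_iff v hx0).mpr h3
  rw [Place.ord_inv] at h4
  omega

/-- the divisor of `dy` for `y = 1 / x` is `W - 2 div x`. -/
theorem dinf_exists_W' (x : F) (hx : Transcendental K x) [FiniteDimensional K⟮x⟯ F]
    (W : Divisor K F) (hW : IsDivisorOfD x W) :
    ∃ W' : Divisor K F, IsDivisorOfD x⁻¹ W' ∧ ∀ v : Place K F, W' v = W v - 2 * v.ord x := by
  have hx0 : x ≠ 0 := by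
    rintro rfl
    exact hx isAlgebraic_zero
  obtain ⟨Dx, hDx, -⟩ := (alg_hasPrincipalDivisors x hx).exists_divisor x hx0
  have hDapp : ∀ v : Place K F, (W - 2 • Dx) v = W v - 2 * v.ord x := by
    intro v
    rw [Finsupp.sub_apply, Finsupp.smul_apply, hDx v, nsmul_eq_mul]
    norm_num
  refine ⟨W - 2 • Dx, ⟨?_, ?_⟩, hDapp⟩
  · intro v a hva
    rw [hDapp v]
    rcases eq_or_ne a 0 with rfl | ha
    · rw [map_zero, sub_zero] at hva ⊢
      have hpole : v.ord x < 0 := by
        rw [Place.ord_inv] at hva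
        omega
      rw [hW.2 v hpole, Place.ord_inv]
      ring
    · have h0 := dinf_ord_eq_zero x v a ha hva
      have hne : x⁻¹ - algebraMap K F a ≠ 0 := ct_ne_zero_of_ord_pos v hva
      have ha' : algebraMap K F a⁻¹ ≠ 0 := by
        simpa using ha
      have e : x - algebraMap K F a⁻¹
          = (-(algebraMap K F a⁻¹)) * (x * (x⁻¹ - algebraMap K F a)) := by
        rw [map_inv₀]
        have haF : algebraMap K F a ≠ 0 := by simpa using ha
        field_simp
        ring
      have hord : v.ord (x - algebraMap K F a⁻¹) = v.ord (x⁻¹ - algebraMap K F a) := by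
        rw [e, v.ord_mul (neg_ne_zero.mpr ha') (mul_ne_zero hx0 hne), v.ord_mul hx0 hne, h0]
        have : v.ord (-(algebraMap K F a⁻¹)) = 0 := by
          rw [← map_neg]
          exact alga_ord_algebraMap v _
        rw [this]
        ring
      rw [hW.1 v a⁻¹ (by rw [hord]; exact hva), hord, h0]
      ring
  · intro v hv
    rw [hDapp v]
    have hz : 0 < v.ord (x - algebraMap K F 0) := by
      rw [map_zero, sub_zero]
      rw [Place.ord_inv] at hv
      omega
    have := hW.1 v 0 hz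
    rw [map_zero, sub_zero] at this
    rw [this, Place.ord_inv]
    ring

/-- `x` has a pole. -/
theorem dinf_exists_pole (x : F) (hx : Transcendental K x) [FiniteDimensional K⟮x⟯ F] :
    ∃ v : Place K F, v.ord x < 0 := by
  by_contra hcon
  push Not at hcon
  have h := alg_sum_poles x hx x hx
  have hempty : {v : Place K F | v.ord x < 0} = ∅ := by
    ext v
    simp only [Set.mem_ofPred_eq, Set.mem_empty_iff_false, iff_false, not_lt]
    exact hcon v
  rw [hempty, finsum_mem_empty] at h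
  have hpos : 0 < Module.finrank K⟮x⟯ F := Module.finrank_pos
  omega

/-- a polynomial in `y` with nonzero constant term is a unit at the zeros of `y`. -/
theorem dinf_ord_aeval_eq_zero (y : F) (v : Place K F) (hv : 0 < v.ord y) (p : K[X])
    (hp : p.coeff 0 ≠ 0) : aeval y p ≠ 0 ∧ v.ord (aeval y p) = 0 := by
  have hy0 : y ≠ 0 := ct_ne_zero_of_ord_pos v hv
  have e : aeval y p = aeval y p.divX * y + algebraMap K F (p.coeff 0) := by
    conv_lhs => rw [← Polynomial.divX_mul_X_add p]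
    simp
  have h1 : v.adicValuation (aeval y p.divX * y) < 1 := by
    rw [map_mul]
    have h2 : v.adicValuation (aeval y p.divX) ≤ 1 :=
      rrd_adjoin_val_le y v hv.le (aeval_mem_adjoin_singleton K y)
    have h3 : v.adicValuation y < 1 := (ct_ord_pos_iff v hy0).mp hv
    calc v.adicValuation (aeval y p.divX) * v.adicValuation y
        ≤ 1 * v.adicValuation y := mul_le_mul_left h2 _
      _ = v.adicValuation y := one_mul _
      _ < 1 := h3
  have h4 : v.adicValuation (algebraMap K F (p.coeff 0)) = 1 := ct_adic_algebraMap v hp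
  have h5 : v.adicValuation (aeval y p) = 1 := by
    rw [e, Valuation.map_add_eq_of_lt_right _ (by rw [h4]; exact h1), h4]
  have hne : aeval y p ≠ 0 := by
    intro h0
    rw [h0, map_zero] at h5
    exact zero_ne_one h5
  exact ⟨hne, (ct_ord_eq_zero_iff v hne).mpr h5⟩

/-- the degree valuation in terms of the order at a pole of `x`. -/
theorem dinf_v_le_iff (x : F) (hx : Transcendental K x) (B : NfBase K K⟮x⟯)
    (hB : RrBaseFor x B) (v₀ : Place K F) (hv₀ : v₀.ord x < 0) (r : K⟮x⟯) (m : ℤ) :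
    B.v r ≤ exp m ↔ r = 0 ∨ m * v₀.ord x ≤ v₀.ord (r : F) := by
  rcases eq_or_ne r 0 with rfl | hr
  · simp
  · rw [or_iff_right hr, rrb_ord_of_pole x hx B hB v₀ hv₀ r hr]
    have hne : B.v r ≠ 0 := (Valuation.ne_zero_iff _).mpr hr
    rw [← exp_log hne, exp_le_exp, log_exp]
    constructor
    · intro h
      nlinarith
    · intro h
      nlinarith

theorem dinf_one_mem (y : F) : (1 : F) ∈ rrLam y (0 : Divisor K F) := by
  intro v _
  simp

theorem dinf_rrLam_le_rrLamInf (x : F) {f : F} (hf : f ∈ rrLam x⁻¹ (0 : Divisor K F)) :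
    f ∈ rrLamInf x (0 : Divisor K F) := by
  intro v hv
  exact hf v (by rw [Place.ord_inv]; omega)

/-- `⊇` : regular differentials at infinity pair into `x⁻² O_∞`. -/
theorem dinf_ge
    (hA : ∀ (y : F) (_ : Transcendental K y) [FiniteDimensional K⟮y⟯ F] (B' : NfBase K K⟮y⟯)
      (_ : RrBaseFor y B') (W' : Divisor K F) (_ : IsDivisorOfD y W'),
      B'.dualA (Algebra.traceForm K⟮y⟯ F) (rrLam y (0 : Divisor K F)) = rrLam y W')
    (x : F) (hx : Transcendental K x) [FiniteDimensional K⟮x⟯ F]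
    (B : NfBase K K⟮x⟯) (hB : RrBaseFor x B) (W : Divisor K F) (hW : IsDivisorOfD x W) :
    rrLamInf x W
      ≤ B.dualInf (Algebra.traceForm K⟮x⟯ F) (-2) (rrLamInf x (0 : Divisor K F)) := by
  intro g hg
  rw [NfBase.mem_dualInf]
  intro f hf
  rw [Algebra.traceForm_apply]
  obtain ⟨v₀, hv₀⟩ := dinf_exists_pole x hx
  obtain ⟨W', hW', hW'v⟩ := dinf_exists_W' x hx W hW
  rw [dinf_v_le_iff x hx B hB v₀ hv₀]
  have hx0 : x ≠ 0 := by
    rintro rfl
    exact hx isAlgebraic_zero
  by_cases hr : Algebra.trace K⟮x⟯ F (g * f) = 0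
  · exact Or.inl hr
  right
  have hgf : g * f ≠ 0 := by
    intro h0
    rw [h0, map_zero] at hr
    exact hr rfl
  have hg0 : g ≠ 0 := left_ne_zero_of_mul hgf
  have hf0 : f ≠ 0 := right_ne_zero_of_mul hgf
  -- `h = x² g f` is a regular differential w.r.t. `dy` at the zeros of `y`
  have hh : x ^ 2 * (g * f) ∈ rrLamInf x W' := by
    rw [mem_rrLamInf_iff]
    intro v hv
    right
    have h1 := (mem_rrLamInf_iff.mp hg v hv).resolve_left hg0
    have h2 := (mem_rrLamInf_iff.mp hf v hv).resolve_left hf0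
    rw [v.ord_mul (pow_ne_zero 2 hx0) hgf, v.ord_mul hg0 hf0, hW'v v,
      show x ^ 2 = x ^ (2 : ℤ) by norm_cast, v.ord_zpow]
    have hWv := hW.2 v hv
    simp only [Finsupp.coe_zero, Pi.zero_apply, neg_zero] at h2
    linarith
  obtain ⟨p, hp0, hp⟩ := rrd_exists_clear_inf x hx W' _ hh
  have h1 := (dinf_dualA_iff hA x hx W' hW' _).mp hp 1 (dinf_one_mem _)
  rw [mul_one] at h1
  -- rewrite the trace
  set P : K⟮x⟯ := ⟨aeval x⁻¹ p, dinf_adjoin_le x (aeval_mem_adjoin_singleton K x⁻¹)⟩ with hP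
  set X : K⟮x⟯ := AdjoinSimple.gen K x with hX
  have e : aeval x⁻¹ p * (x ^ 2 * (g * f)) = ((P * X ^ 2 : K⟮x⟯) : F) * (g * f) := by
    simp only [hP, hX, MulMemClass.coe_mul, SubmonoidClass.coe_pow, AdjoinSimple.coe_gen]
    ring
  rw [e, dinf_trace_mul_coe] at h1
  have hy₀ : 0 < v₀.ord x⁻¹ := by rw [Place.ord_inv]; omega
  have h2 := rrd_adjoin_ord_nonneg x⁻¹ v₀ hy₀.le h1
  obtain ⟨hpne, hpord⟩ := dinf_ord_aeval_eq_zero x⁻¹ v₀ hy₀ p hp0
  have hrF : ((Algebra.trace K⟮x⟯ F (g * f) : K⟮x⟯) : F) ≠ 0 := by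
    intro h0
    exact hr (Subtype.ext h0)
  have e2 : ((P * X ^ 2 : K⟮x⟯) : F) = aeval x⁻¹ p * x ^ 2 := by
    simp only [hP, hX, MulMemClass.coe_mul, SubmonoidClass.coe_pow, AdjoinSimple.coe_gen]
  rw [e2, v₀.ord_mul (mul_ne_zero hpne (pow_ne_zero 2 hx0)) hrF,
    v₀.ord_mul hpne (pow_ne_zero 2 hx0), hpord,
    show x ^ 2 = x ^ (2 : ℤ) by norm_cast, v₀.ord_zpow] at h2
  linarith

theorem dinf_aeval_reverse (x : F) (hx0 : x ≠ 0) (Q : K[X]) :
    aeval x⁻¹ Q.reverse * x ^ Q.natDegree = aeval x Q := by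
  letI := invertibleOfNonzero hx0
  have h := Polynomial.eval₂_reverse_mul_pow (algebraMap K F) x Q
  rw [invOf_eq_inv] at h
  exact h

theorem dinf_aeval_eq (x : F) (hx0 : x ≠ 0) (Q : K[X]) :
    aeval x Q = aeval x⁻¹ Q.reverse * x ^ Q.natDegree := (dinf_aeval_reverse x hx0 Q).symm

theorem dinf_coe_aeval_gen (x : F) (P : K[X]) :
    ((aeval (AdjoinSimple.gen K x) P : K⟮x⟯) : F) = aeval x P := by
  have h := Polynomial.aeval_algebraMap_apply F (AdjoinSimple.gen K x) P
  rw [AdjoinSimple.algebraMap_gen] at h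
  exact h.symm

/-- an element of `K(x)` which is regular at infinity is a polynomial in `y = 1 / x` up to a
polynomial in `y` with nonzero constant term. -/
theorem dinf_exists_clear_base (x : F) (hx : Transcendental K x) (B : NfBase K K⟮x⟯)
    (hB : RrBaseFor x B) (s : K⟮x⟯) (hs : B.v s ≤ 1) :
    ∃ p : K[X], p.coeff 0 ≠ 0 ∧
      aeval x⁻¹ p * (s : F) ∈ Algebra.adjoin K ({x⁻¹} : Set F) := by
  have hx0 : x ≠ 0 := by
    rintro rfl
    exact hx isAlgebraic_zero
  obtain ⟨P, Q, hQ, rfl⟩ := rrb_exists_quot x hx s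
  rcases eq_or_ne P 0 with rfl | hP
  · refine ⟨1, by simp, ?_⟩
    simp
  have hdeg : P.natDegree ≤ Q.natDegree := by
    rw [rrb_v_quot x B hB P Q hP hQ, ← exp_zero, exp_le_exp] at hs
    omega
  refine ⟨Q.reverse, ?_, ?_⟩
  · rw [Polynomial.coeff_zero_reverse]
    exact Polynomial.leadingCoeff_ne_zero.mpr hQ
  · have hQx : aeval x Q ≠ 0 := rrd_aeval_ne_zero hx hQ
    have e : aeval x⁻¹ Q.reverse
        * ((aeval (AdjoinSimple.gen K x) P / aeval (AdjoinSimple.gen K x) Q : K⟮x⟯) : F)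
        = aeval x⁻¹ P.reverse * x⁻¹ ^ (Q.natDegree - P.natDegree) := by
      have hcoe : ((aeval (AdjoinSimple.gen K x) P / aeval (AdjoinSimple.gen K x) Q : K⟮x⟯) : F)
          = aeval x P / aeval x Q := by
        rw [IntermediateField.coe_div, dinf_coe_aeval_gen, dinf_coe_aeval_gen]
      rw [hcoe]
      have h1 := dinf_aeval_eq x hx0 Q
      have h2 := dinf_aeval_eq x hx0 P
      have hQr : aeval x⁻¹ Q.reverse ≠ 0 := by
        intro h0
        rw [h1, h0, zero_mul] at hQx
        exact hQx rfl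
      rw [h1] at hQx ⊢
      rw [h2]
      have hpow : x ^ Q.natDegree = x ^ P.natDegree * x ^ (Q.natDegree - P.natDegree) := by
        rw [← pow_add, Nat.add_sub_cancel' hdeg]
      rw [hpow, inv_pow]
      have hxP : x ^ P.natDegree ≠ 0 := pow_ne_zero _ hx0
      have hxQ : x ^ (Q.natDegree - P.natDegree) ≠ 0 := pow_ne_zero _ hx0
      generalize aeval x⁻¹ Q.reverse = A at hQr ⊢
      generalize aeval x⁻¹ P.reverse = Bp
      generalize x ^ P.natDegree = a at hxP ⊢
      generalize x ^ (Q.natDegree - P.natDegree) = b at hxQ ⊢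
      field_simp
    rw [e]
    exact Subalgebra.mul_mem _ (aeval_mem_adjoin_singleton K x⁻¹)
      (Subalgebra.pow_mem _ (Algebra.self_mem_adjoin_singleton K x⁻¹) _)

/-- `⊆` : the twisted dual at infinity consists of regular differentials. -/
theorem dinf_le
    (hA : ∀ (y : F) (_ : Transcendental K y) [FiniteDimensional K⟮y⟯ F] (B' : NfBase K K⟮y⟯)
      (_ : RrBaseFor y B') (W' : Divisor K F) (_ : IsDivisorOfD y W'),
      B'.dualA (Algebra.traceForm K⟮y⟯ F) (rrLam y (0 : Divisor K F)) = rrLam y W')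
    (x : F) (hx : Transcendental K x) [FiniteDimensional K⟮x⟯ F]
    (B : NfBase K K⟮x⟯) (hB : RrBaseFor x B) (W : Divisor K F) (hW : IsDivisorOfD x W) :
    B.dualInf (Algebra.traceForm K⟮x⟯ F) (-2) (rrLamInf x (0 : Divisor K F))
      ≤ rrLamInf x W := by
  classical
  intro g hg
  rw [NfBase.mem_dualInf] at hg
  obtain ⟨W', hW', hW'v⟩ := dinf_exists_W' x hx W hW
  have hy : Transcendental K x⁻¹ := algaz_transcendental_inv hx
  have hx0 : x ≠ 0 := by
    rintro rfl
    exact hx isAlgebraic_zero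
  obtain ⟨c, hc⟩ := rrd_lam_basis_of_eq x x⁻¹ hy (0 : Divisor K F) K⟮x⟯ (algaz_adjoin_inv x)
  have hci : ∀ i, c i ∈ rrLam x⁻¹ (0 : Divisor K F) := fun i => (hc (c i)).mpr (fun j => by
    rw [Basis.repr_self, Finsupp.single_apply]
    split_ifs
    · exact Subalgebra.one_mem _
    · exact Subalgebra.zero_mem _)
  set X : K⟮x⟯ := AdjoinSimple.gen K x with hX
  have hvX : B.v X = exp (1 : ℤ) := by
    rw [hX, ← hB.1]
    exact B.v_x
  have hs : ∀ i, B.v (X ^ 2 * Algebra.trace K⟮x⟯ F (g * c i)) ≤ 1 := by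
    intro i
    have h1 := hg (c i) (dinf_rrLam_le_rrLamInf x (hci i))
    rw [Algebra.traceForm_apply] at h1
    rw [map_mul, map_pow, hvX]
    calc exp (1 : ℤ) ^ 2 * B.v (Algebra.trace K⟮x⟯ F (g * c i))
        ≤ exp (1 : ℤ) ^ 2 * exp (-2 : ℤ) := mul_le_mul_right h1 _
      _ = 1 := by
          rw [← exp_nsmul, ← exp_add]
          simp
  choose p hp0 hp using fun i => dinf_exists_clear_base x hx B hB _ (hs i)
  set q : K[X] := ∏ i, p i with hq
  have hq0 : q.coeff 0 ≠ 0 := by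
    rw [Polynomial.coeff_zero_eq_eval_zero, hq, Polynomial.eval_prod]
    refine Finset.prod_ne_zero_iff.mpr (fun i _ => ?_)
    rw [← Polynomial.coeff_zero_eq_eval_zero]
    exact hp0 i
  have hqs : ∀ i, aeval x⁻¹ q * ((X ^ 2 * Algebra.trace K⟮x⟯ F (g * c i) : K⟮x⟯) : F)
      ∈ Algebra.adjoin K ({x⁻¹} : Set F) := by
    intro i
    have e : q = (∏ j ∈ Finset.univ.erase i, p j) * p i :=
      (Finset.prod_erase_mul _ _ (Finset.mem_univ i)).symm
    rw [e, map_mul, mul_assoc]
    exact Subalgebra.mul_mem _ (aeval_mem_adjoin_singleton K x⁻¹) (hp i)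
  set Qe : K⟮x⟯ := ⟨aeval x⁻¹ q, dinf_adjoin_le x (aeval_mem_adjoin_singleton K x⁻¹)⟩ with hQe
  have hmem : aeval x⁻¹ q * (x ^ 2 * g) ∈ rrLam x⁻¹ W' := by
    rw [dinf_dualA_iff hA x hx W' hW']
    intro f hf
    have hrepr := (hc f).mp hf
    have e1 : aeval x⁻¹ q * (x ^ 2 * g) * f = ((Qe * X ^ 2 : K⟮x⟯) : F) * (g * f) := by
      simp only [hQe, hX, MulMemClass.coe_mul, SubmonoidClass.coe_pow, AdjoinSimple.coe_gen]
      ring
    have e2 : g * f = ∑ i, (c.repr f i) • (g * c i) := by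
      conv_lhs => rw [← c.sum_repr f, Finset.mul_sum]
      refine Finset.sum_congr rfl (fun i _ => ?_)
      rw [mul_smul_comm]
    have e3 : Algebra.trace K⟮x⟯ F (g * f)
        = ∑ i, (c.repr f i) * Algebra.trace K⟮x⟯ F (g * c i) := by
      rw [e2, map_sum]
      refine Finset.sum_congr rfl (fun i _ => ?_)
      rw [map_smul, smul_eq_mul]
    rw [e1, dinf_trace_mul_coe, e3]
    have e4 : ((Qe * X ^ 2 : K⟮x⟯) : F)
          * ((∑ i, (c.repr f i) * Algebra.trace K⟮x⟯ F (g * c i) : K⟮x⟯) : F)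
        = ∑ i, ((c.repr f i : K⟮x⟯) : F)
            * (aeval x⁻¹ q * ((X ^ 2 * Algebra.trace K⟮x⟯ F (g * c i) : K⟮x⟯) : F)) := by
      rw [← MulMemClass.coe_mul, Finset.mul_sum, AddSubmonoidClass.coe_finsetSum]
      refine Finset.sum_congr rfl (fun i _ => ?_)
      simp only [hQe, MulMemClass.coe_mul]
      ring
    rw [e4]
    exact Subalgebra.sum_mem _ (fun i _ => Subalgebra.mul_mem _ (hrepr i) (hqs i))
  rw [mem_rrLamInf_iff]
  intro v hv
  rcases eq_or_ne g 0 with rfl | hg0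
  · exact Or.inl rfl
  right
  have hyv : 0 < v.ord x⁻¹ := by rw [Place.ord_inv]; omega
  obtain ⟨hqne, hqord⟩ := dinf_ord_aeval_eq_zero x⁻¹ v hyv q hq0
  have hne : aeval x⁻¹ q * (x ^ 2 * g) ≠ 0 :=
    mul_ne_zero hqne (mul_ne_zero (pow_ne_zero 2 hx0) hg0)
  have h1 := (mem_rrLam_iff.mp hmem v hyv.le).resolve_left hne
  rw [v.ord_mul hqne (mul_ne_zero (pow_ne_zero 2 hx0) hg0), v.ord_mul (pow_ne_zero 2 hx0) hg0,
    hqord, show x ^ 2 = x ^ (2 : ℤ) by norm_cast, v.ord_zpow, hW'v v] at h1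
  linarith

/-- **RR-DIFF, infinite part**, as a consequence of the finite part in all charts. -/
theorem rr_dualInf_of
    (hA : ∀ (y : F) (_ : Transcendental K y) [FiniteDimensional K⟮y⟯ F] (B' : NfBase K K⟮y⟯)
      (_ : RrBaseFor y B') (W' : Divisor K F) (_ : IsDivisorOfD y W'),
      B'.dualA (Algebra.traceForm K⟮y⟯ F) (rrLam y (0 : Divisor K F)) = rrLam y W')
    (x : F) (hx : Transcendental K x) [FiniteDimensional K⟮x⟯ F]
    (B : NfBase K K⟮x⟯) (hB : RrBaseFor x B) (W : Divisor K F) (hW : IsDivisorOfD x W) :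
    B.dualInf (Algebra.traceForm K⟮x⟯ F) (-2) (rrLamInf x (0 : Divisor K F)) = rrLamInf x W :=
  le_antisymm (dinf_le hA x hx B hB W hW) (dinf_ge hA x hx B hB W hW)

end main

end Fermat.Agent.S20

end
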