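import Fermat.Agent.S20.HurPkg

/-!
# S20 — [S20-ASM]: assembly (prefix `asm20_`)

`asm20_main_of` : `dim S₂(Γ₀(N)) = genusFormula N` from
* the generic analytic package `AdPkgG ℂ F x N` for a function field `F` of `X₀(N)` over `ℂ`
  (`x = J`),
* `rr_canonical` : `2 ℓ(W) - 2 = deg W` for the divisor `W` of `dx`,
* the dictionary `dim S₂(Γ₀(N)) = ℓ(W)`.
-/

set_option autoImplicit false

noncomputable section

namespace Fermat.Agent.S20

open AlgebraicCurve IntermediateField ModularCurve CongruenceSubgroup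
open Fermat.Agent.S24

/-- The dimension of `L(W)` is the genus. -/
theorem asm20_finrank_rr {K F : Type*} [Field K] [Field F] [Algebra K F] [IsAlgClosed K]
    [CharZero K] {x : F} {N : ℕ} [NeZero N] (P : AdPkgG K F x N) (hx : Transcendental K x)
    [FiniteDimensional K⟮x⟯ F] (W : Divisor K F) (hW : IsDivisorOfD x W)
    (hrr : 2 * (Module.finrank K (riemannRochSpace W) : ℤ) - 2 = Divisor.degree W) :
    (Module.finrank K (riemannRochSpace W) : ℚ) = genusFormula N := by
  obtain ⟨g, hgq, hgz⟩ := hurw_degree_W P hx W hW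
  have : Module.finrank K (riemannRochSpace W) = g := by omega
  rw [this, hgq]

/-- **[S20-ASM]** S20 from the analytic package, Riemann–Roch for the divisor of `dx`, and the
dictionary between cusp forms and `L(W)`. -/
theorem asm20_main_of (N : ℕ) [NeZero N] {F : Type*} [Field F] [Algebra ℂ F] {x : F}
    (P : AdPkgG ℂ F x N) (hx : Transcendental ℂ x) [FiniteDimensional ℂ⟮x⟯ F]
    (hrr : ∀ W : Divisor ℂ F, IsDivisorOfD x W →
      2 * (Module.finrank ℂ (riemannRochSpace W) : ℤ) - 2 = Divisor.degree W)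
    (hdict : ∀ W : Divisor ℂ F, IsDivisorOfD x W →
      Module.finrank ℂ (CuspForm (Gamma0 N) 2) = Module.finrank ℂ (riemannRochSpace W)) :
    (Module.finrank ℂ (CuspForm (Gamma0 N) 2) : ℚ) = genusFormula N := by
  obtain ⟨W, hW⟩ := hurw_exists_W P hx
  rw [hdict W hW]
  exact asm20_finrank_rr P hx W hW (hrr W hW)

end Fermat.Agent.S20

end
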