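import Fermat.Agent.S20.DictMain
import Fermat.Agent.S20.Lift

/-!
# S20 — the dictionary `dim S₂(Γ₀(N)) = ℓ(W)` (final form)

`s20_dict_of` : `dmain_dict` with its two analytic inputs discharged by `Lift.lean`.
What is left to provide is a function field `F` over `ℂ` with an embedding `incl` into `ana_M N`,
an analytic package `P` on it, and the five compatibilities `i1`–`i5`.
-/

set_option autoImplicit false

noncomputable section

namespace Fermat.Agent.S20

open AlgebraicCurve IntermediateField WithZero UpperHalfPlane CongruenceSubgroup ModularForm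
open Fermat.Agent.S24
open scoped MatrixGroups

/-- **[S20-DICT]** `dim S₂(Γ₀(N)) = ℓ(W)`. -/
theorem s20_dict_of {N : ℕ} [NeZero N] {F : Type*} [Field F] [Algebra ℂ F] {x : F}
    (P : AdPkgG ℂ F x N) (incl : F →+* ana_M N)
    (hι : ∀ c : ℂ, P.ι c = c) (hx : Transcendental ℂ x) [FiniteDimensional ℂ⟮x⟯ F]
    (i1 : ∀ c : ℂ, incl (algebraMap ℂ F c) = algebraMap (ana_ring N) (ana_M N) (ana_const N c))
    (i2 : ∀ γ ∈ Gamma0 N, ∀ h : F, ana_act N γ (incl h) = incl h)
    (i3 : ∀ (τ : ℍ) (g : SL(2, ℤ)) (h : F),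
      P.val τ (P.ρ (g : s24Q N) h) = hol_val τ (ana_toMer N (ana_act N g (incl h))))
    (i4 : ∀ (g : SL(2, ℤ)) (h : F),
      P.valInfty (P.ρ (g : s24Q N) h) = atw_valInfty N (ana_act N g (incl h)))
    (i5 : ∀ f : CuspForm (Gamma0 N) 2, ∃ h : F, incl h = s20_Phi N f)
    (W : Divisor ℂ F) (hW : IsDivisorOfD x W) :
    Module.finrank ℂ (CuspForm (Gamma0 N) 2) = Module.finrank ℂ (riemannRochSpace W) :=
  dmain_dict incl P hι hx i1 i2 i3 i4 i5 lift_DJ lift_DJ_apply lift_hol_val_DJ
    (lift_exists_cuspForm N) W hW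

end Fermat.Agent.S20

end
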