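import Mathlib
import Fermat.Agent.S24.AnaEv
import Fermat.Agent.S24.AnaTwist
import Fermat.Agent.S24.AnaInj

/-!
# S20, analytic side: definitions (prefix `s20`)

* `Algebra ℂ (ana_ring N)` (constants), hence `Algebra ℂ (ana_M N)`.
* `s20Field N : IntermediateField ℂ (ana_M N)` : the field `ℂ(J, J_N)` of modular functions for
  `Γ₀(N)`; `s20F N` its underlying type, `s20J N`, `s20JN N : s20F N` the generators.
* `s20_rho N : s24Q N → (s20F N →+* ana_M N)` : the conjugate embeddings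
  `s20_rho N ↑g = (ana_act N g) ∘ inclusion`, with `s20_rho_smul`, `s20_rho_injective`,
  `s20_rho_J`, `s20_rho_algebraMap`.
* `s20_val N τ`, `s20_valInfty N` : the order valuations on `ana_M N`.
-/

set_option autoImplicit false

noncomputable section

namespace Fermat.Agent.S20

open UpperHalfPlane hiding I
open Filter Function Topology ModularForm Complex ModularCurve IntermediateField
open scoped Manifold MatrixGroups ModularForm Real
open Fermat.Agent.S23 Fermat.Agent.S24

/-- The constants. -/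
instance s20_algebraRing (N : ℕ) : Algebra ℂ (ana_ring N) := (ana_const N).toAlgebra

theorem s20_algebraMap_ring (N : ℕ) (c : ℂ) : algebraMap ℂ (ana_ring N) c = ana_const N c := rfl

theorem s20_algebraMap_M (N : ℕ) (c : ℂ) :
    algebraMap ℂ (ana_M N) c = algebraMap (ana_ring N) (ana_M N) (ana_const N c) := by
  rw [IsScalarTower.algebraMap_apply ℂ (ana_ring N) (ana_M N)]
  rfl

/-- `J` as an element of `ana_M N`. -/
def s20_Jm (N : ℕ) [NeZero N] : ana_M N := algebraMap (ana_ring N) (ana_M N) (ana_J N)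

/-- `J_N = J (N τ)` as an element of `ana_M N`. -/
def s20_JNm (N : ℕ) [NeZero N] : ana_M N := algebraMap (ana_ring N) (ana_M N) (ana_Jd N N dvd_rfl)

/-- The field of modular functions for `Γ₀(N)`: `ℂ(J, J_N)`. -/
def s20Field (N : ℕ) [NeZero N] : IntermediateField ℂ (ana_M N) :=
  IntermediateField.adjoin ℂ {s20_Jm N, s20_JNm N}

/-- The function field of `X₀(N)` over `ℂ`. -/
abbrev s20F (N : ℕ) [NeZero N] : Type := ↥(s20Field N)

theorem s20_Jm_mem (N : ℕ) [NeZero N] : s20_Jm N ∈ s20Field N :=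
  IntermediateField.subset_adjoin ℂ _ (Set.mem_insert _ _)

theorem s20_JNm_mem (N : ℕ) [NeZero N] : s20_JNm N ∈ s20Field N :=
  IntermediateField.subset_adjoin ℂ _ (Set.mem_insert_of_mem _ rfl)

/-- `J ∈ s20F N`. -/
def s20J (N : ℕ) [NeZero N] : s20F N := ⟨s20_Jm N, s20_Jm_mem N⟩

/-- `J_N ∈ s20F N`. -/
def s20JN (N : ℕ) [NeZero N] : s20F N := ⟨s20_JNm N, s20_JNm_mem N⟩

/-- The inclusion `s20F N → ana_M N`. -/
def s20_incl (N : ℕ) [NeZero N] : s20F N →+* ana_M N := (s20Field N).val.toRingHom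

@[simp] theorem s20_incl_apply (N : ℕ) [NeZero N] (x : s20F N) : s20_incl N x = (x : ana_M N) := rfl

theorem s20_incl_injective (N : ℕ) [NeZero N] : Function.Injective (s20_incl N) :=
  (s20_incl N).injective

theorem s20_incl_J (N : ℕ) [NeZero N] :
    s20_incl N (s20J N) = algebraMap (ana_ring N) (ana_M N) (ana_J N) := rfl

theorem s20_incl_JN (N : ℕ) [NeZero N] :
    s20_incl N (s20JN N) = algebraMap (ana_ring N) (ana_M N) (ana_Jd N N dvd_rfl) := rfl

theorem s20_incl_algebraMap (N : ℕ) [NeZero N] (c : ℂ) :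
    s20_incl N (algebraMap ℂ (s20F N) c) = algebraMap (ana_ring N) (ana_M N) (ana_const N c) :=
  s20_algebraMap_M N c

/-- Two ring homomorphisms out of `s20F N` that agree on constants, `J` and `J_N` are equal. -/
theorem s20_ringHom_ext {N : ℕ} [NeZero N] {L : Type*} [Field L] {φ ψ : s20F N →+* L}
    (hc : ∀ c : ℂ, φ (algebraMap ℂ (s20F N) c) = ψ (algebraMap ℂ (s20F N) c))
    (hJ : φ (s20J N) = ψ (s20J N)) (hJN : φ (s20JN N) = ψ (s20JN N)) : φ = ψ := by
  have key : ∀ (x : ana_M N) (hx : x ∈ s20Field N), φ ⟨x, hx⟩ = ψ ⟨x, hx⟩ := by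
    intro x hx
    induction hx using IntermediateField.adjoin_induction with
    | mem x hx =>
      rcases hx with rfl | hx
      · exact hJ
      · rw [Set.mem_singleton_iff] at hx
        subst hx
        exact hJN
    | algebraMap c => exact hc c
    | add x y hx hy ihx ihy =>
      have h1 : (⟨x + y, add_mem hx hy⟩ : s20F N) = ⟨x, hx⟩ + ⟨y, hy⟩ := rfl
      rw [h1, map_add, map_add, ihx, ihy]
    | inv x hx ihx =>
      have h1 : (⟨x⁻¹, inv_mem hx⟩ : s20F N) = (⟨x, hx⟩ : s20F N)⁻¹ := rfl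
      rw [h1, map_inv₀, map_inv₀, ihx]
    | mul x y hx hy ihx ihy =>
      have h1 : (⟨x * y, mul_mem hx hy⟩ : s20F N) = ⟨x, hx⟩ * ⟨y, hy⟩ := rfl
      rw [h1, map_mul, map_mul, ihx, ihy]
  ext ⟨x, hx⟩
  exact key x hx

/-- Elements of `s20F N` are `Γ₀(N)`-invariant. -/
theorem s20_act_incl_of_mem (N : ℕ) [NeZero N] (γ : SL(2, ℤ))
    (hγ : γ ∈ CongruenceSubgroup.Gamma0 N) : (ana_act N γ).comp (s20_incl N) = s20_incl N := by
  apply s20_ringHom_ext
  · intro c
    simp only [RingHom.comp_apply]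
    rw [s20_incl_algebraMap, ana_act_algebraMap, ana_comp_const]
  · simp only [RingHom.comp_apply]
    rw [s20_incl_J, ana_act_algebraMap, ana_comp_J]
  · simp only [RingHom.comp_apply]
    rw [s20_incl_JN, ana_act_algebraMap, ana_comp_Jd_of_mem N N dvd_rfl γ⁻¹ (inv_mem hγ)]

theorem s20_act_of_mem (N : ℕ) [NeZero N] (γ : SL(2, ℤ))
    (hγ : γ ∈ CongruenceSubgroup.Gamma0 N) (x : s20F N) :
    ana_act N γ (x : ana_M N) = (x : ana_M N) :=
  congrArg (fun φ : s20F N →+* ana_M N => φ x) (s20_act_incl_of_mem N γ hγ)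

/-- The conjugate embedding attached to `g : SL(2,ℤ)`. -/
def s20_rhoG (N : ℕ) [NeZero N] (g : SL(2, ℤ)) : s20F N →+* ana_M N :=
  (ana_act N g).comp (s20_incl N)

theorem s20_rhoG_mul_of_mem (N : ℕ) [NeZero N] (g γ : SL(2, ℤ))
    (hγ : γ ∈ CongruenceSubgroup.Gamma0 N) : s20_rhoG N (g * γ) = s20_rhoG N g := by
  unfold s20_rhoG
  rw [ana_act_mul, RingHom.comp_assoc, s20_act_incl_of_mem N γ hγ]

/-- The conjugate embeddings, indexed by the cosets `g Γ₀(N)`. -/
def s20_rho (N : ℕ) [NeZero N] (q : s24Q N) : s20F N →+* ana_M N :=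
  Quotient.liftOn' q (s20_rhoG N) (fun a b hab => by
    have h : a⁻¹ * b ∈ CongruenceSubgroup.Gamma0 N := QuotientGroup.leftRel_apply.mp hab
    have := s20_rhoG_mul_of_mem N a (a⁻¹ * b) h
    rw [mul_inv_cancel_left] at this
    exact this.symm)

theorem s20_rho_mk (N : ℕ) [NeZero N] (g : SL(2, ℤ)) :
    s20_rho N (g : s24Q N) = (ana_act N g).comp (s20_incl N) := rfl

theorem s20_rho_mk_apply (N : ℕ) [NeZero N] (g : SL(2, ℤ)) (x : s20F N) :
    s20_rho N (g : s24Q N) x = ana_act N g (x : ana_M N) := rfl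

theorem s20_rho_one (N : ℕ) [NeZero N] (x : s20F N) :
    s20_rho N ((1 : SL(2, ℤ)) : s24Q N) x = (x : ana_M N) := by
  rw [s20_rho_mk_apply, ana_act_one]
  rfl

theorem s20_rho_smul (N : ℕ) [NeZero N] (c : SL(2, ℤ)) (q : s24Q N) :
    s20_rho N (c • q) = (ana_act N c).comp (s20_rho N q) := by
  induction q using QuotientGroup.induction_on with
  | _ g =>
    have h1 : c • ((g : SL(2, ℤ)) : s24Q N) = (((c * g : SL(2, ℤ))) : s24Q N) := rfl
    rw [h1, s20_rho_mk, s20_rho_mk, ana_act_mul, RingHom.comp_assoc]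

theorem s20_rho_algebraMap (N : ℕ) [NeZero N] (q : s24Q N) (c : ℂ) :
    s20_rho N q (algebraMap ℂ (s20F N) c)
      = algebraMap (ana_ring N) (ana_M N) (ana_const N c) := by
  induction q using QuotientGroup.induction_on with
  | _ g =>
    rw [s20_rho_mk, RingHom.comp_apply, s20_incl_algebraMap, ana_act_algebraMap, ana_comp_const]

theorem s20_rho_J (N : ℕ) [NeZero N] (q : s24Q N) :
    s20_rho N q (s20J N) = algebraMap (ana_ring N) (ana_M N) (ana_J N) := by
  induction q using QuotientGroup.induction_on with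
  | _ g =>
    rw [s20_rho_mk, RingHom.comp_apply, s20_incl_J, ana_act_algebraMap, ana_comp_J]

theorem s20_rho_JN (N : ℕ) [NeZero N] (g : SL(2, ℤ)) :
    s20_rho N (g : s24Q N) (s20JN N)
      = algebraMap (ana_ring N) (ana_M N) (ana_comp N g⁻¹ (ana_Jd N N dvd_rfl)) := by
  rw [s20_rho_mk, RingHom.comp_apply, s20_incl_JN, ana_act_algebraMap]

/-- `ρ_x` of `CountingData`. -/
theorem s20_rho_x (N : ℕ) [NeZero N] (q q' : s24Q N) :
    s20_rho N q (s20J N) = s20_rho N q' (s20J N) := by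
  rw [s20_rho_J, s20_rho_J]

/-- `ρ_K` of `CountingData`. -/
theorem s20_rho_K (N : ℕ) [NeZero N] (q q' : s24Q N) (c : ℂ) :
    s20_rho N q (algebraMap ℂ (s20F N) c) = s20_rho N q' (algebraMap ℂ (s20F N) c) := by
  rw [s20_rho_algebraMap, s20_rho_algebraMap]

/-- `ρ_injective` of `CountingData`: the conjugates of `J_N` are pairwise distinct. -/
theorem s20_rho_injective (N : ℕ) [NeZero N] : Function.Injective (s20_rho N) :=
  adi_injective N (s20_rho N) (s20JN N) (ana_Jd N N dvd_rfl) (fun _ => rfl)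
    (fun g => s20_rho_JN N g)

/-- The order valuation at `τ ∈ ℍ` on `ana_M N`. -/
def s20_val (N : ℕ) (τ : ℍ) : Valuation (ana_M N) (WithZero (Multiplicative ℤ)) :=
  (hol_val τ).comap (ana_toMer N)

theorem s20_val_apply (N : ℕ) (τ : ℍ) (m : ana_M N) :
    s20_val N τ m = hol_val τ (ana_toMer N m) := rfl

end Fermat.Agent.S20
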