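import Fermat.Agent.S20.Hur
import Fermat.Agent.S24.Final

/-!
# S20 — [S20-HUR]: the generic analytic package and the degree of the divisor of `dx`
(prefix `adg_`, `hurw_`)

`AdPkgG K F x N` is `AdPkg N` of S24 with `(s24K, s24F N, s24j N)` replaced by a general
`(K, F, x)`: conjugate embeddings of `F` indexed by `SL(2,ℤ) ⧸ Γ₀(N)` into a field of meromorphic
functions, with the order valuations at the points of `ℍ` and at `i∞`.
`hurw_main` : `[F : K(x)] = ψ(N)`, the divisor `W` of `dx` exists, and `deg W = 2 g - 2` with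
`g = genusFormula N`.
-/

set_option autoImplicit false

noncomputable section

namespace Fermat.Agent.S20

open AlgebraicCurve IntermediateField ModularCurve UpperHalfPlane MulAction Subgroup
open Fermat.Agent.S24
open scoped MatrixGroups

/-- The generic analytic package. -/
structure AdPkgG (K F : Type*) [Field K] [Field F] [Algebra K F] (x : F) (N : ℕ) [NeZero N] where
  /-- the field of meromorphic functions -/
  M : Type
  [fieldM : Field M]
  /-- the action of `SL(2,ℤ)` on meromorphic functions -/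
  act : SL(2, ℤ) → (M →+* M)
  /-- the conjugate embeddings -/
  ρ : s24Q N → (F →+* M)
  ρ_smul : ∀ (g : SL(2, ℤ)) (q : s24Q N), ρ (g • q) = (act g).comp (ρ q)
  ρ_injective : Function.Injective ρ
  ρ_x : ∀ q q', ρ q x = ρ q' x
  ρ_K : ∀ q q' (a : K), ρ q (algebraMap K F a) = ρ q' (algebraMap K F a)
  norm_mem : ∀ f : F, ∃ g ∈ K⟮x⟯, ∀ q, ρ q g = ∏ q', ρ q' f
  /-- the embedding of the constants -/
  ι : K →+* ℂ
  /-- the order valuation at a point of `ℍ` -/
  val : ℍ → Valuation M (WithZero (Multiplicative ℤ))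
  val_K : ∀ (τ : ℍ) (q : s24Q N) (a : K), a ≠ 0 → val τ (ρ q (algebraMap K F a)) = 1
  val_act_fix : ∀ (τ : ℍ) (g : SL(2, ℤ)), g • τ = τ → ∀ m : M, val τ (act g m) = val τ m
  val_j_sub : ∀ (τ : ℍ) (q : s24Q N) (a : K),
    val τ (ρ q (x - algebraMap K F a))
      = WithZero.exp (-(analyticOrderNatAt (fun z : ℂ => ord_J (ofComplex z) - ι a) (τ : ℂ) : ℤ))
  stab_S : ∀ m : M, m ≠ 0 → act ModularGroup.S m = m →
    ∃ k : ℤ, val UpperHalfPlane.I m = WithZero.exp (k * ((2 : ℕ) : ℤ))
  stab_ST : ∀ m : M, m ≠ 0 → act (ModularGroup.S * ModularGroup.T) m = m →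
    ∃ k : ℤ, val ord_rho m = WithZero.exp (k * ((3 : ℕ) : ℤ))
  /-- the order valuation at `i∞` (in the parameter `q^{1/N}`) -/
  valInfty : Valuation M (WithZero (Multiplicative ℤ))
  valInfty_K : ∀ (q : s24Q N) (a : K), a ≠ 0 → valInfty (ρ q (algebraMap K F a)) = 1
  valInfty_j : ∀ q : s24Q N, valInfty (ρ q x) = WithZero.exp (N : ℤ)
  valInfty_act : ∀ g ∈ zpowers (ModularGroup.T : SL(2, ℤ)), ∀ m : M,
    valInfty (act g m) = valInfty m
  valInfty_div : ∀ s : ℕ, s ∣ N → ∀ m : M, m ≠ 0 → act (ModularGroup.T ^ s) m = m →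
    ∃ k : ℤ, valInfty m = WithZero.exp (k * ((N / s : ℕ) : ℤ))

namespace AdPkgG

attribute [instance] AdPkgG.fieldM

end AdPkgG

section data

variable {K F : Type*} [Field K] [Field F] [Algebra K F] {x : F} {N : ℕ} [NeZero N]
  (P : AdPkgG K F x N)

/-- counting data over `x = 0`. -/
def adg_data_zero :
    CountingData K F x x (s24Q N) (s24Orb N (ModularGroup.S * ModularGroup.T)) 3 :=
  ad_countingData (CongruenceSubgroup.Gamma0 N) x x
    (ModularGroup.S * ModularGroup.T) 3 P.M P.act P.ρ P.ρ_smul P.ρ_injective P.ρ_x P.ρ_K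
    P.norm_mem (P.val ord_rho) (P.val_K ord_rho) (by norm_num)
    (by
      intro q
      have h := P.val_j_sub ord_rho q 0
      rw [map_zero, map_zero, sub_zero] at h
      simp only [sub_zero] at h
      rw [h, ad_orderNat_eq (ord_analyticOrderAt_zero ord_rho ord_J_rho)])
    (fun g hg m => P.val_act_fix ord_rho g (ad_smul_eq_of_mem_zpowers ord_ST_smul_rho hg) m)
    (mg_orbit_card_dvd_ST N)
    (ad_hdiv_of_prime P.act (P.val ord_rho) _ 3 Nat.prime_three P.stab_ST)

/-- counting data over `x = 1728`. -/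
def adg_data_1728 :
    CountingData K F x (x - algebraMap K F 1728) (s24Q N) (s24Orb N ModularGroup.S) 2 :=
  ad_countingData (CongruenceSubgroup.Gamma0 N) x (x - algebraMap K F 1728)
    ModularGroup.S 2 P.M P.act P.ρ P.ρ_smul P.ρ_injective P.ρ_x P.ρ_K
    P.norm_mem (P.val UpperHalfPlane.I) (P.val_K UpperHalfPlane.I) (by norm_num)
    (by
      intro q
      have h := P.val_j_sub UpperHalfPlane.I q 1728
      have h1728 : P.ι 1728 = 1728 := map_ofNat P.ι 1728
      rw [h1728] at h
      rw [h, ad_orderNat_eq (ord_analyticOrderAt_1728 UpperHalfPlane.I ord_J_I)])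
    (fun g hg m => P.val_act_fix UpperHalfPlane.I g
      (ad_smul_eq_of_mem_zpowers ord_S_smul_I hg) m)
    (mg_orbit_card_dvd_S N)
    (ad_hdiv_of_prime P.act (P.val UpperHalfPlane.I) _ 2 Nat.prime_two P.stab_S)

/-- counting data over `x = a`, `a ≠ 0, 1728`. -/
def adg_data_generic (a : K) (h0 : a ≠ 0) (h1 : a ≠ 1728) :
    CountingData K F x (x - algebraMap K F a) (s24Q N) (s24Orb N 1) 1 :=
  let τ₀ : ℍ := (ord_J_surjective (P.ι a)).choose
  have hτ₀ : ord_J τ₀ = P.ι a := (ord_J_surjective (P.ι a)).choose_spec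
  ad_countingData (CongruenceSubgroup.Gamma0 N) x (x - algebraMap K F a)
    1 1 P.M P.act P.ρ P.ρ_smul P.ρ_injective P.ρ_x P.ρ_K
    P.norm_mem (P.val τ₀) (P.val_K τ₀) (by norm_num)
    (by
      intro q
      have h := P.val_j_sub τ₀ q a
      have hne0 : ord_J τ₀ ≠ 0 := by
        rw [hτ₀]
        exact (map_ne_zero P.ι).mpr h0
      have hne1 : ord_J τ₀ ≠ 1728 := by
        rw [hτ₀]
        intro h
        apply h1
        apply P.ι.injective
        rw [h]
        exact (map_ofNat P.ι 1728).symm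
      rw [← hτ₀] at h
      rw [h, ad_orderNat_eq (ord_analyticOrderAt_generic τ₀ hne0 hne1)])
    (fun g hg m => P.val_act_fix τ₀ g (by
      have : g = 1 := by
        rw [Subgroup.zpowers_one_eq_bot] at hg
        exact Subgroup.mem_bot.mp hg
      rw [this, one_smul]) m)
    ad_orbit_card_dvd_one
    (ad_hdiv_one P.act (P.val τ₀) 1)

/-- counting data over `x = ∞`. -/
def adg_data_infty :
    CountingData K F x x⁻¹ (s24Q N) (s24Orb N ModularGroup.T) N :=
  ad_countingData (CongruenceSubgroup.Gamma0 N) x x⁻¹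
    ModularGroup.T N P.M P.act P.ρ P.ρ_smul P.ρ_injective P.ρ_x P.ρ_K
    P.norm_mem P.valInfty P.valInfty_K (Nat.pos_of_ne_zero (NeZero.ne N))
    (by
      intro q
      rw [map_inv₀, map_inv₀, P.valInfty_j q, ← WithZero.exp_neg])
    P.valInfty_act
    (mg_orbit_card_dvd_T N)
    P.valInfty_div

end data

section main

variable {K F : Type*} [Field K] [Field F] [Algebra K F] [IsAlgClosed K] [CharZero K]
  {x : F} {N : ℕ} [NeZero N]

/-- The Hurwitz data of `x` (packages ALG-A, ALG-D of S24). -/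
theorem hurw_hurData (hx : Transcendental K x) [FiniteDimensional K⟮x⟯ F] :
    HurData K F x (Module.finrank K⟮x⟯ F) :=
  fin_hurData x hx (alg_nontrivial_kaehler _ hx) (alg_dCoordGenerates _ hx)
    (fun v a h => alg_ordDifferential_of_zero _ hx v _ a h)
    (fun v h => alg_ordDifferential_of_pole _ hx v _ h)
    (fun v => alg_differentialCoeff_D_ne_zero _ hx v _ hx)

/-- The degree of `F` over `K(x)`. -/
theorem hurw_finrank (P : AdPkgG K F x N) (hx : Transcendental K x)
    [FiniteDimensional K⟮x⟯ F] : Module.finrank K⟮x⟯ F = dedekindPsi N := by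
  have c0 := fin_counting x hx x (Or.inl ⟨0, by simp⟩) _ 3 (adg_data_zero P)
  rw [c0.1, ← Nat.card_eq_fintype_card, mg_card N]

/-- `x` is unramified outside `0`, `1728`, `∞`. -/
theorem hurw_unramified [DecidableEq K] (P : AdPkgG K F x N) (hx : Transcendental K x)
    [FiniteDimensional K⟮x⟯ F] (a : K) (ha : a ∉ ({0, 1728} : Finset K)) (v : Place K F)
    (hv : 0 < v.ord (x - algebraMap K F a)) : v.ord (x - algebraMap K F a) = 1 := by
  simp only [Finset.mem_insert, Finset.mem_singleton, not_or] at ha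
  exact asm24_ord_of_counting
    (fin_counting x hx _ (Or.inl ⟨a, rfl⟩) _ 1 (adg_data_generic P a ha.1 ha.2))
    (asm24_orb_one_card N) v hv

/-- **[S20-HUR]** existence of the divisor of `dx`. -/
theorem hurw_exists_W (P : AdPkgG K F x N) (hx : Transcendental K x)
    [FiniteDimensional K⟮x⟯ F] : ∃ W : Divisor K F, IsDivisorOfD x W := by
  classical
  exact hurw_exists (hurw_hurData hx) {0, 1728} (hurw_unramified P hx)

/-- **[S20-HUR]** the degree of the divisor of `dx` is `2 g - 2`. -/
theorem hurw_degree_W (P : AdPkgG K F x N) (hx : Transcendental K x)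
    [FiniteDimensional K⟮x⟯ F] (W : Divisor K F) (hW : IsDivisorOfD x W) :
    ∃ g : ℕ, (g : ℚ) = genusFormula N ∧ Divisor.degree W = 2 * (g : ℤ) - 2 := by
  classical
  obtain ⟨g, hgq, hgz⟩ := mg_genusFormula N
  refine ⟨g, hgq, ?_⟩
  have c0 := fin_counting x hx x (Or.inl ⟨0, by simp⟩) _ 3 (adg_data_zero P)
  have c1 := fin_counting x hx _ (Or.inl ⟨1728, rfl⟩) _ 2 (adg_data_1728 P)
  have cinf := fin_counting x hx _ (Or.inr rfl) _ N (adg_data_infty P)
  have h1728 : (1728 : K) ≠ 0 := by norm_num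
  rw [hurw_degree (hurw_hurData hx) {0, 1728} (hurw_unramified P hx) W hW,
    Finset.sum_pair h1728.symm, hurw_finrank P hx, hgz]
  have e0 : Nat.card {v : Place K F // 0 < v.ord (x - algebraMap K F 0)}
      = Nat.card (Quotient (s24Orb N (ModularGroup.S * ModularGroup.T))) := by
    have h0 : x - algebraMap K F 0 = x := by rw [map_zero, sub_zero]
    rw [h0]
    exact asm24_card_of_counting c0
  have e1 : Nat.card {v : Place K F // 0 < v.ord (x - algebraMap K F 1728)}
      = Nat.card (Quotient (s24Orb N ModularGroup.S)) := asm24_card_of_counting c1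
  have einf : Nat.card {v : Place K F // v.ord x < 0}
      = Nat.card (Quotient (s24Orb N ModularGroup.T)) := by
    rw [← asm24_card_of_counting cinf]
    refine Nat.card_congr (Equiv.subtypeEquivRight fun v => ?_)
    rw [Place.ord_inv, neg_pos]
  rw [e0, e1, einf]

end main

end Fermat.Agent.S20

end
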