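import Mathlib
import Fermat.Agent.S20.HurPkg
import Fermat.Agent.S20.AnaDefs
import Fermat.Agent.S24.AnaPkg
import Fermat.Agent.S24.AnaEv
import Fermat.Agent.S24.AnaTwist
import Fermat.Agent.S24.HolStab

/-!
# S20, package FC (generic part): the analytic package of a function field inside `ana_M N`

`fcv_pkg x ρ ..` : the term of `AdPkgG ℂ F x N` for ANY field `F` over `ℂ` with conjugate
embeddings `ρ q : F →+* ana_M N` (equivariant, injective, constants to constants, `x ↦ J`) and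
norms in `ℂ(x)`; the valuations are `(hol_val τ).comap (ana_toMer N)` and `atw_valInfty N`.

`fcv_pkg_s20 N hnorm` : the instance for `F = s20F N`, `ρ = s20_rho N`, with the compatibilities
`i3`, `i4` of the dictionary (`fcv_s20_val`, `fcv_s20_valInfty`).
-/

set_option autoImplicit false

noncomputable section

namespace Fermat.Agent.S20

open UpperHalfPlane hiding I
open IntermediateField Subgroup
open Fermat.Agent.S24
open scoped MatrixGroups

variable {N : ℕ} [NeZero N]

omit [NeZero N] in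
theorem fcv_toMer_const (c : ℂ) :
    ana_toMer N (algebraMap (ana_ring N) (ana_M N) (ana_const N c)) = hol_constMer c := by
  rw [ana_toMer_algebraMap]
  rfl

theorem fcv_toMer_J :
    ana_toMer N (algebraMap (ana_ring N) (ana_M N) (ana_J N)) = algebraMap hol_ring hol_Mer ad_J := by
  rw [ana_toMer_algebraMap]
  rfl

/-- **The analytic package** of a function field with conjugate embeddings into `ana_M N`. -/
def fcv_pkg {F : Type*} [Field F] [Algebra ℂ F] (x : F) (ρ : s24Q N → (F →+* ana_M N))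
    (hsmul : ∀ (g : SL(2, ℤ)) (q : s24Q N), ρ (g • q) = (ana_act N g).comp (ρ q))
    (hinj : Function.Injective ρ)
    (hK : ∀ (q : s24Q N) (a : ℂ),
      ρ q (algebraMap ℂ F a) = algebraMap (ana_ring N) (ana_M N) (ana_const N a))
    (hj : ∀ q : s24Q N, ρ q x = algebraMap (ana_ring N) (ana_M N) (ana_J N))
    (hnorm : ∀ f : F, ∃ g ∈ ℂ⟮x⟯, ∀ q, ρ q g = ∏ q', ρ q' f) :
    AdPkgG ℂ F x N where
  M := ana_M N
  act := ana_act N
  ρ := ρ
  ρ_smul := hsmul
  ρ_injective := hinj
  ρ_x := fun q q' => (hj q).trans (hj q').symm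
  ρ_K := fun q q' a => (hK q a).trans (hK q' a).symm
  norm_mem := hnorm
  ι := RingHom.id ℂ
  val := fun τ => (hol_val τ).comap (ana_toMer N)
  val_K := fun τ q a ha => by
    show hol_val τ (ana_toMer N (ρ q (algebraMap ℂ F a))) = 1
    rw [hK, fcv_toMer_const, hol_val_constMer τ _ ha]
  val_act_fix := fun τ g hg m =>
    ad_val_act_fix (ana_act N) (ana_toMer N) (ana_toMer_act N) τ g hg m
  val_j_sub := fun τ q a => by
    show hol_val τ (ana_toMer N (ρ q (x - algebraMap ℂ F a))) = _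
    rw [map_sub, map_sub, hK, hj, fcv_toMer_const, fcv_toMer_J, ad_hol_val_J_sub]
    rfl
  stab_S := ad_stab (ana_act N) (ana_toMer N) (ana_toMer_act N) _ _ 2 stab_val_S
  stab_ST := ad_stab (ana_act N) (ana_toMer N) (ana_toMer_act N) _ _ 3 stab_val_ST
  valInfty := atw_valInfty N
  valInfty_K := fun q a ha => by
    rw [hK]
    exact atw_valInfty_const N ha
  valInfty_j := fun q => by
    rw [hj]
    exact atw_valInfty_J N (ana_J N) rfl
  valInfty_act := fun g hg m => atw_valInfty_act N g hg m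
  valInfty_div := fun s hs m hm hinv => atw_valInfty_div N s hs m hm hinv

section lemmas

variable {F : Type*} [Field F] [Algebra ℂ F] (x : F) (ρ : s24Q N → (F →+* ana_M N))
    (hsmul : ∀ (g : SL(2, ℤ)) (q : s24Q N), ρ (g • q) = (ana_act N g).comp (ρ q))
    (hinj : Function.Injective ρ)
    (hK : ∀ (q : s24Q N) (a : ℂ),
      ρ q (algebraMap ℂ F a) = algebraMap (ana_ring N) (ana_M N) (ana_const N a))
    (hj : ∀ q : s24Q N, ρ q x = algebraMap (ana_ring N) (ana_M N) (ana_J N))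
    (hnorm : ∀ f : F, ∃ g ∈ ℂ⟮x⟯, ∀ q, ρ q g = ∏ q', ρ q' f)

theorem fcv_pkg_iota (c : ℂ) : (fcv_pkg x ρ hsmul hinj hK hj hnorm).ι c = c := rfl

theorem fcv_pkg_rho (q : s24Q N) : (fcv_pkg x ρ hsmul hinj hK hj hnorm).ρ q = ρ q := rfl

theorem fcv_pkg_val (τ : ℍ) (m : ana_M N) :
    (fcv_pkg x ρ hsmul hinj hK hj hnorm).val τ m = hol_val τ (ana_toMer N m) := rfl

theorem fcv_pkg_valInfty (m : ana_M N) :
    (fcv_pkg x ρ hsmul hinj hK hj hnorm).valInfty m = atw_valInfty N m := rfl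

end lemmas

/-! ### the instance for `s20F N` -/

/-- The analytic package of `s20F N = ℂ(J, J_N)`, given the norm statement. -/
def fcv_pkg_s20 (N : ℕ) [NeZero N]
    (hnorm : ∀ f : s20F N, ∃ g ∈ ℂ⟮s20J N⟯, ∀ q, s20_rho N q g = ∏ q', s20_rho N q' f) :
    AdPkgG ℂ (s20F N) (s20J N) N :=
  fcv_pkg (s20J N) (s20_rho N) (s20_rho_smul N) (s20_rho_injective N) (s20_rho_algebraMap N)
    (s20_rho_J N) hnorm

section s20

variable (N : ℕ) [NeZero N]
    (hnorm : ∀ f : s20F N, ∃ g ∈ ℂ⟮s20J N⟯, ∀ q, s20_rho N q g = ∏ q', s20_rho N q' f)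

/-- compatibility `hι` of `s20_dict_of` -/
theorem fcv_s20_iota (c : ℂ) : (fcv_pkg_s20 N hnorm).ι c = c := rfl

/-- compatibility `i1` of `s20_dict_of` -/
theorem fcv_s20_i1 (c : ℂ) :
    s20_incl N (algebraMap ℂ (s20F N) c) = algebraMap (ana_ring N) (ana_M N) (ana_const N c) :=
  s20_incl_algebraMap N c

/-- compatibility `i2` of `s20_dict_of` -/
theorem fcv_s20_i2 (γ : SL(2, ℤ)) (hγ : γ ∈ CongruenceSubgroup.Gamma0 N) (h : s20F N) :
    ana_act N γ (s20_incl N h) = s20_incl N h :=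
  s20_act_of_mem N γ hγ h

/-- compatibility `i3` of `s20_dict_of` -/
theorem fcv_s20_val (τ : ℍ) (g : SL(2, ℤ)) (h : s20F N) :
    (fcv_pkg_s20 N hnorm).val τ ((fcv_pkg_s20 N hnorm).ρ (g : s24Q N) h)
      = hol_val τ (ana_toMer N (ana_act N g (s20_incl N h))) := rfl

/-- compatibility `i4` of `s20_dict_of` -/
theorem fcv_s20_valInfty (g : SL(2, ℤ)) (h : s20F N) :
    (fcv_pkg_s20 N hnorm).valInfty ((fcv_pkg_s20 N hnorm).ρ (g : s24Q N) h)
      = atw_valInfty N (ana_act N g (s20_incl N h)) := rfl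

end s20

end Fermat.Agent.S20
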