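import Mathlib
import Fermat.Agent.S20.AnaDefs
import Fermat.Agent.S24.SymCore
import Fermat.Agent.S24.DistJd

/-!
# S20, package [S20-INV]: `Γ₀(N)`-invariant modular functions are in `ℂ(J, J_N)` (prefix `s20`)

* `s20_mem_of_invariant` : a `Γ₀(N)`-invariant element of `ana_ring N` lies in `s20Field N`.
* `s20_transcendental` : `J` is transcendental over `ℂ`.
-/

set_option autoImplicit false

noncomputable section

namespace Fermat.Agent.S20

open UpperHalfPlane hiding I
open Filter Function Topology ModularForm Complex ModularCurve IntermediateField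
open scoped Manifold MatrixGroups ModularForm Real
open Fermat.Agent.S23 Fermat.Agent.S24

/-- Evaluation at a point, as a ring homomorphism. -/
def s20_evPt (N : ℕ) (τ : ℍ) : ana_ring N →+* ℂ :=
  (Pi.evalRingHom (fun _ : ℍ => ℂ) τ).comp (ana_ring N).subtype

@[simp] theorem s20_evPt_apply (N : ℕ) (τ : ℍ) (f : ana_ring N) :
    s20_evPt N τ f = (f : ℍ → ℂ) τ := rfl

/-- The values of a polynomial in `J`. -/
theorem s20_aeval_J_apply (N : ℕ) [NeZero N] (p : Polynomial ℂ) (τ : ℍ) :
    ((Polynomial.aeval (ana_J N) p : ana_ring N) : ℍ → ℂ) τ = p.eval (ord_J τ) := by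
  have h := Polynomial.hom_eval₂ p (algebraMap ℂ (ana_ring N)) (s20_evPt N τ) (ana_J N)
  have h2 : (s20_evPt N τ).comp (algebraMap ℂ (ana_ring N)) = RingHom.id ℂ := by
    ext c
    rfl
  rw [h2] at h
  rw [← s20_evPt_apply, Polynomial.aeval_def, h]
  rfl

/-- A nonzero polynomial in `J` is a nonzero function. -/
theorem s20_aeval_J_ne_zero (N : ℕ) [NeZero N] {p : Polynomial ℂ} (hp : p ≠ 0) :
    Polynomial.aeval (ana_J N) p ≠ 0 := by
  intro h
  apply hp
  apply Polynomial.funext
  intro c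
  obtain ⟨τ, hτ⟩ := ord_J_surjective c
  have h1 := s20_aeval_J_apply N p τ
  rw [h, hτ] at h1
  rw [Polynomial.eval_zero]
  exact h1.symm

/-- `Γ₀(N)`-invariant elements of `ana_ring N` are in helper9's `sym_ring N`. -/
theorem s20_mem_sym (N : ℕ) [NeZero N] (a : ana_ring N)
    (ha : ∀ γ ∈ CongruenceSubgroup.Gamma0 N, ana_comp N γ a = a) :
    (a : ℍ → ℂ) ∈ sym_ring N := by
  rw [sym_mem_ring_iff]
  refine ⟨fun γ hγ τ => ?_, fun g => ?_⟩
  · have h := congrArg (fun f : ana_ring N => (f : ℍ → ℂ) τ) (ha γ hγ)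
    simpa using h
  · rw [sym_mem_mer_iff]
    obtain ⟨m, hm⟩ := (a.2.2 g).2
    exact ⟨ana_mdiff_comp a.2.1 g, m, dist_bounded_disc_of_qN N (NeZero.pos N) m _ hm⟩

/-- The interpolation identity in `ana_ring N`. -/
theorem s20_interpolation (N : ℕ) [NeZero N] (a : ana_ring N)
    (ha : ∀ γ ∈ CongruenceSubgroup.Gamma0 N, ana_comp N γ a = a) :
    ∃ (B : Polynomial ℂ) (G : Fin (Fintype.card (s24Q N)) → Polynomial ℂ), B ≠ 0 ∧
      Polynomial.aeval (ana_J N) B * a
        = ∑ i : Fin (Fintype.card (s24Q N)),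
            ana_Jd N N dvd_rfl ^ (i : ℕ) * Polynomial.aeval (ana_J N) (G i) := by
  obtain ⟨B, G, hB, h⟩ := sym_core_JN (s20_mem_sym N a ha)
  refine ⟨B, G, hB, ?_⟩
  apply Subtype.ext
  funext τ
  have h1 := h τ
  rw [← s20_evPt_apply, ← s20_evPt_apply, map_mul, map_sum]
  simp only [map_mul, map_pow, s20_evPt_apply, s20_aeval_J_apply]
  rw [h1]
  rfl

/-- Polynomials in `J` are in `s20Field N`. -/
theorem s20_aeval_J_mem (N : ℕ) [NeZero N] (p : Polynomial ℂ) :
    algebraMap (ana_ring N) (ana_M N) (Polynomial.aeval (ana_J N) p) ∈ s20Field N := by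
  rw [← Polynomial.aeval_algebraMap_apply]
  have h : Polynomial.aeval (algebraMap (ana_ring N) (ana_M N) (ana_J N)) p
      = ((Polynomial.aeval (s20J N) p : s20F N) : ana_M N) :=
    IntermediateField.aeval_coe (s20Field N) (s20J N) p
  rw [h]
  exact (Polynomial.aeval (s20J N) p : s20F N).2

theorem s20_coe_aeval_J (N : ℕ) [NeZero N] (p : Polynomial ℂ) :
    ((Polynomial.aeval (s20J N) p : s20F N) : ana_M N)
      = algebraMap (ana_ring N) (ana_M N) (Polynomial.aeval (ana_J N) p) := by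
  rw [← Polynomial.aeval_algebraMap_apply]
  exact (IntermediateField.aeval_coe (s20Field N) (s20J N) p).symm

/-- **[S20-INV]** `Γ₀(N)`-invariant elements of `ana_ring N` lie in `ℂ(J, J_N)`. -/
theorem s20_mem_of_invariant (N : ℕ) [NeZero N] (a : ana_ring N)
    (ha : ∀ γ ∈ CongruenceSubgroup.Gamma0 N, ana_comp N γ a = a) :
    algebraMap (ana_ring N) (ana_M N) a ∈ s20Field N := by
  obtain ⟨B, G, hB, h⟩ := s20_interpolation N a ha
  have hB' : algebraMap (ana_ring N) (ana_M N) (Polynomial.aeval (ana_J N) B) ≠ 0 := by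
    intro h0
    exact s20_aeval_J_ne_zero N hB
      (IsFractionRing.injective (ana_ring N) (ana_M N) (h0.trans (map_zero _).symm))
  have h1 := congrArg (algebraMap (ana_ring N) (ana_M N)) h
  rw [map_mul, map_sum] at h1
  have h2 : algebraMap (ana_ring N) (ana_M N) a
      = (∑ i : Fin (Fintype.card (s24Q N)), algebraMap (ana_ring N) (ana_M N)
          (ana_Jd N N dvd_rfl ^ (i : ℕ) * Polynomial.aeval (ana_J N) (G i)))
        * (algebraMap (ana_ring N) (ana_M N) (Polynomial.aeval (ana_J N) B))⁻¹ := by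
    rw [← h1]
    field_simp
  rw [h2]
  refine mul_mem (sum_mem fun i _ => ?_) (inv_mem (s20_aeval_J_mem N B))
  rw [map_mul, map_pow]
  exact mul_mem (pow_mem (s20_JNm_mem N) _) (s20_aeval_J_mem N (G i))

/-- **[S20-SYM]** `J` is transcendental over `ℂ`. -/
theorem s20_transcendental (N : ℕ) [NeZero N] : Transcendental ℂ (s20J N) := by
  rw [transcendental_iff]
  intro p hp
  by_contra hne
  apply s20_aeval_J_ne_zero N hne
  apply IsFractionRing.injective (ana_ring N) (ana_M N)
  rw [map_zero, ← s20_coe_aeval_J, hp]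
  rfl

end Fermat.Agent.S20
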