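import Fermat.Agent.S20.RRDictInf
import Fermat.Agent.S20.NfDual

/-!
# S20 / RR-CHI: the Euler characteristic is `deg D + const`

`χ(D) = dim (Λ(D) ∩ Λ_∞(D)) - dim F / (Λ(D) + Λ_∞(D))` satisfies `χ(D + v) = χ(D) + 1` for every
place `v` (one of the two lattices grows by a subspace of colength `1`, the other one does not
change), hence `χ(D) = χ(0) + deg D`.  Finiteness at `D = 0` comes from the lattice description
(RR-DICT) and the normal form (RR-NF).
-/

set_option autoImplicit false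
set_option linter.deprecated false
set_option linter.unusedSectionVars false
set_option linter.unusedVariables false
set_option linter.style.haveILetI false

namespace Fermat.Agent.S20

open Fermat.Agent.S24
open AlgebraicCurve IntermediateField Module Polynomial WithZero

section approx

variable {K F : Type*} [Field K] [Field F] [Algebra K F]

/-- a uniformizer. -/
theorem rrc_exists_uniformizer (v : Place K F) : ∃ π : F, π ≠ 0 ∧ v.ord π = 1 := by
  obtain ⟨ϖ, hϖ⟩ := IsDiscreteValuationRing.exists_irreducible v.toValuationSubring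
  refine ⟨(ϖ : F), ?_, v.ord_coe_irreducible hϖ⟩
  simpa [ne_eq, ZeroMemClass.coe_eq_zero] using hϖ.ne_zero

/-- weak approximation with an exact order at one place. -/
theorem rrc_exists_ord (v₀ : Place K F) (S : Finset (Place K F)) (hv₀ : v₀ ∉ S) (n₀ N : ℤ) :
    ∃ f : F, f ≠ 0 ∧ v₀.ord f = n₀ ∧ ∀ w ∈ S, N ≤ w.ord f := by
  classical
  induction S using Finset.induction_on with
  | empty =>
    obtain ⟨π, hπ0, hπ⟩ := rrc_exists_uniformizer v₀
    refine ⟨π ^ n₀, zpow_ne_zero _ hπ0, ?_, fun w hw => absurd hw (Finset.notMem_empty w)⟩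
    rw [v₀.ord_zpow, hπ, mul_one]
  | insert w S hwS ih =>
    have hv₀w : v₀ ≠ w := fun h => hv₀ (h ▸ Finset.mem_insert_self _ S)
    have hv₀S : v₀ ∉ S := fun h => hv₀ (Finset.mem_insert_of_mem h)
    obtain ⟨f₁, hf₁0, hf₁v, hf₁S⟩ := ih hv₀S
    have hw : w ∉ insert v₀ S := by
      rw [Finset.mem_insert]
      rintro (h | h)
      · exact hv₀w h.symm
      · exact hwS h
    obtain ⟨s, hsw, hsS⟩ := ct_separation w (insert v₀ S) hw
    have hs0 : s ≠ 0 := by
      rintro rfl
      have := hsS v₀ (Finset.mem_insert_self _ _)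
      rw [map_zero] at this
      exact zero_ne_one this
    have hsw' : 0 < w.ord s := (ct_ord_pos_iff w hs0).2 hsw
    have hsS' : ∀ w' ∈ insert v₀ S, w'.ord s = 0 := fun w' hw' =>
      (ct_ord_eq_zero_iff w' hs0).2 (hsS w' hw')
    have hsk0 : s ^ ((N - w.ord f₁).toNat : ℤ) ≠ 0 := zpow_ne_zero _ hs0
    refine ⟨f₁ * s ^ ((N - w.ord f₁).toNat : ℤ), mul_ne_zero hf₁0 hsk0, ?_, fun w' hw' => ?_⟩
    · rw [v₀.ord_mul hf₁0 hsk0, v₀.ord_zpow, hsS' v₀ (Finset.mem_insert_self _ _), hf₁v]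
      ring
    · rw [w'.ord_mul hf₁0 hsk0, w'.ord_zpow]
      rcases Finset.mem_insert.1 hw' with rfl | hw''
      · have h1 : N - w'.ord f₁ ≤ ((N - w'.ord f₁).toNat : ℤ) := Int.self_le_toNat _
        have h2 : (0 : ℤ) ≤ ((N - w'.ord f₁).toNat : ℤ) := Int.natCast_nonneg _
        nlinarith
      · rw [hsS' w' (Finset.mem_insert_of_mem hw''), mul_zero, add_zero]
        exact hf₁S w' hw''

end approx

section gen

variable {K F : Type*} [Field K] [Field F] [Algebra K F]

/-- the Riemann–Roch condition at the places of a set `T`. -/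
def rrc_gen (T : Set (Place K F)) (D : Divisor K F) : Submodule K F where
  carrier := {f | ∀ v : Place K F, v ∈ T → v.adicValuation f ≤ exp (D v)}
  zero_mem' := by
    intro v _
    simp
  add_mem' := by
    intro f g hf hg v hv
    exact (Valuation.map_add _ _ _).trans (max_le (hf v hv) (hg v hv))
  smul_mem' := by
    intro c f hf v hv
    show v.adicValuation (c • f) ≤ exp (D v)
    rw [Algebra.smul_def, map_mul]
    exact (mul_le_of_le_one_left' (v.adicValuation_algebraMap_le_one c)).trans (hf v hv)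

theorem rrc_mem_gen_iff {T : Set (Place K F)} {D : Divisor K F} {f : F} :
    f ∈ rrc_gen T D ↔ ∀ v : Place K F, v ∈ T → f = 0 ∨ -D v ≤ v.ord f :=
  forall_congr' fun v => imp_congr_right fun _ => v.adicValuation_le_exp_iff

theorem rrc_lam_eq (x : F) (D : Divisor K F) :
    rrLam x D = rrc_gen {v : Place K F | 0 ≤ v.ord x} D := rfl

theorem rrc_lamInf_eq (x : F) (D : Divisor K F) :
    rrLamInf x D = rrc_gen {v : Place K F | v.ord x < 0} D := rfl

theorem rrc_gen_congr {T : Set (Place K F)} {D D' : Divisor K F}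
    (h : ∀ v ∈ T, D v = D' v) : rrc_gen T D = rrc_gen T D' := by
  ext f
  rw [rrc_mem_gen_iff, rrc_mem_gen_iff]
  refine forall_congr' fun v => ?_
  refine imp_congr_right fun hv => ?_
  rw [h v hv]

theorem rrc_gen_mono {T : Set (Place K F)} {D D' : Divisor K F}
    (h : ∀ v ∈ T, D v ≤ D' v) : rrc_gen T D ≤ rrc_gen T D' := by
  intro f hf
  rw [rrc_mem_gen_iff] at hf ⊢
  intro v hv
  rcases hf v hv with h0 | h1
  · exact Or.inl h0
  · right
    have := h v hv
    omega

theorem rrc_add_single_same (D : Divisor K F) (v₀ : Place K F) :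
    (D + Finsupp.single v₀ (1 : ℤ)) v₀ = D v₀ + 1 := by
  rw [Finsupp.add_apply, Finsupp.single_eq_same]

theorem rrc_add_single_ne (D : Divisor K F) {v₀ v : Place K F} (h : v ≠ v₀) :
    (D + Finsupp.single v₀ (1 : ℤ)) v = D v := by
  rw [Finsupp.add_apply, Finsupp.single_eq_of_ne h, add_zero]

end gen

section colength

variable {K F : Type*} [Field K] [Field F] [Algebra K F] [IsAlgClosed K]

/-- adding one point to `D` at a place of `T` enlarges `rrc_gen T D` by colength one, provided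
there is a function with the exact pole order. -/
theorem rrc_colength (x : F) [FiniteDimensional K⟮x⟯ F] (T : Set (Place K F)) (v₀ : Place K F)
    (hv₀ : v₀ ∈ T) (D : Divisor K F) (f₀ : F) (hf₀ : f₀ ≠ 0) (hord : v₀.ord f₀ = -(D v₀ + 1))
    (hoth : ∀ v ∈ T, v ≠ v₀ → -D v ≤ v.ord f₀) :
    finrank K (↥(rrc_gen T (D + Finsupp.single v₀ (1 : ℤ))) ⧸
      (rrc_gen T D).submoduleOf (rrc_gen T (D + Finsupp.single v₀ (1 : ℤ)))) = 1 := by
  classical
  have hf₀mem : f₀ ∈ rrc_gen T (D + Finsupp.single v₀ (1 : ℤ)) := by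
    rw [rrc_mem_gen_iff]
    intro v hv
    right
    by_cases hvv : v = v₀
    · subst hvv
      rw [rrc_add_single_same, hord]
    · rw [rrc_add_single_ne D hvv]
      exact hoth v hv hvv
  have hf₀not : f₀ ∉ rrc_gen T D := by
    intro h
    rw [rrc_mem_gen_iff] at h
    have := (h v₀ hv₀).resolve_left hf₀
    omega
  have hnz : (Submodule.Quotient.mk (⟨f₀, hf₀mem⟩ : ↥(rrc_gen T (D + Finsupp.single v₀ (1 : ℤ)))) :
      ↥(rrc_gen T (D + Finsupp.single v₀ (1 : ℤ))) ⧸
        (rrc_gen T D).submoduleOf (rrc_gen T (D + Finsupp.single v₀ (1 : ℤ)))) ≠ 0 := by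
    intro h
    rw [Submodule.Quotient.mk_eq_zero] at h
    exact hf₀not h
  rw [finrank_eq_one_iff_of_nonzero' _ hnz]
  intro w
  obtain ⟨⟨g, hg⟩, rfl⟩ := Submodule.Quotient.mk_surjective _ w
  -- the value of `g / f₀` at `v₀`
  have hg' := rrc_mem_gen_iff.1 hg
  have hmemQ : ∀ c : K, (g = c • f₀ ∨ 0 < v₀.ord (g / f₀ - algebraMap K F c)) →
      c • f₀ - g ∈ rrc_gen T D := by
    intro c hc
    rcases hc with hc | hc
    · rw [hc, sub_self]
      exact zero_mem _
    · have hne : g / f₀ - algebraMap K F c ≠ 0 := ct_ne_zero_of_ord_pos v₀ hc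
      have hh : c • f₀ - g = -(f₀ * (g / f₀ - algebraMap K F c)) := by
        rw [Algebra.smul_def]
        field_simp
        ring
      have hmem' : c • f₀ - g ∈ rrc_gen T (D + Finsupp.single v₀ (1 : ℤ)) :=
        Submodule.sub_mem _ (Submodule.smul_mem _ _ hf₀mem) hg
      rw [rrc_mem_gen_iff] at hmem' ⊢
      intro v hv
      by_cases hvv : v = v₀
      · subst hvv
        right
        rw [hh]
        have hneg : v.ord (-(f₀ * (g / f₀ - algebraMap K F c)))
            = v.ord (f₀ * (g / f₀ - algebraMap K F c)) := by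
          rw [Place.ord, Place.ord, Valuation.map_neg]
        rw [hneg, v.ord_mul hf₀ hne, hord]
        omega
      · have := hmem' v hv
        rwa [rrc_add_single_ne D hvv] at this
  rcases eq_or_ne g 0 with rfl | hg0
  · refine ⟨0, ?_⟩
    rw [zero_smul]
    exact (Submodule.Quotient.mk_zero _).symm
  · have hgord := (hg' v₀ hv₀).resolve_left hg0
    rw [rrc_add_single_same] at hgord
    have hquot : 0 ≤ v₀.ord (g / f₀) := by
      rw [div_eq_mul_inv, v₀.ord_mul hg0 (inv_ne_zero hf₀), v₀.ord_inv, hord]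
      omega
    obtain ⟨c, hc⟩ := alga_exists_sub_mem x v₀ (alga_mem_of_ord_nonneg v₀ hquot)
    refine ⟨c, ?_⟩
    rw [← Submodule.Quotient.mk_smul, Submodule.Quotient.eq]
    show c • f₀ - g ∈ rrc_gen T D
    apply hmemQ c
    rcases hc with hc | hc
    · left
      rw [Algebra.smul_def, ← hc]
      field_simp
    · exact Or.inr hc

end colength

section existence

variable {K F : Type*} [Field K] [Field F] [Algebra K F] [IsAlgClosed K] [CharZero K]

omit [IsAlgClosed K] [CharZero K] in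
/-- a polynomial in `x` which does not vanish at the value of `x` at `v` is a unit at `v`. -/
theorem rrc_ord_aeval_eq_zero (x : F) (v : Place K F) (a : K)
    (hv : 0 < v.ord (x - algebraMap K F a)) (p : K[X]) (hp : p.eval a ≠ 0) :
    v.ord (aeval x p) = 0 := by
  have hxa : x - algebraMap K F a ≠ 0 := ct_ne_zero_of_ord_pos v hv
  have hxmem : x ∈ v.toValuationSubring := by
    have h1 : x - algebraMap K F a ∈ v.toValuationSubring := alga_mem_of_ord_nonneg v hv.le
    have h2 : x = (x - algebraMap K F a) + algebraMap K F a := by ring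
    rw [h2]
    exact v.toValuationSubring.add_mem _ _ h1 (v.algebraMap_mem' a)
  have hdecomp : aeval x p = algebraMap K F (p.eval a)
      + (x - algebraMap K F a) * aeval x (p /ₘ (X - C a)) := by
    have h1 := modByMonic_add_div p (X - C a)
    rw [modByMonic_X_sub_C_eq_C_eval] at h1
    have h2 := congrArg (aeval x) h1
    rw [map_add, map_mul, map_sub, aeval_X, aeval_C, aeval_C] at h2
    exact h2.symm
  have hc : v.adicValuation (algebraMap K F (p.eval a)) = 1 := ct_adic_algebraMap v hp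
  have ht : v.adicValuation ((x - algebraMap K F a) * aeval x (p /ₘ (X - C a))) < 1 := by
    rw [map_mul]
    have h1 : v.adicValuation (x - algebraMap K F a) < 1 := (ct_ord_pos_iff v hxa).1 hv
    have h2 : v.adicValuation (aeval x (p /ₘ (X - C a))) ≤ 1 :=
      (ct_adic_le_one_iff_mem v _).2 (alga_aeval_mem v hxmem _)
    calc v.adicValuation (x - algebraMap K F a) * v.adicValuation (aeval x (p /ₘ (X - C a)))
        ≤ v.adicValuation (x - algebraMap K F a) * 1 := by gcongr
      _ < 1 := by rwa [mul_one]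
  have hval : v.adicValuation (aeval x p) = 1 := by
    rw [hdecomp, Valuation.map_add_eq_of_lt_left _ (by rw [hc]; exact ht), hc]
  have hne : aeval x p ≠ 0 := by
    intro h
    rw [h, map_zero] at hval
    exact zero_ne_one hval
  exact (ct_ord_eq_zero_iff v hne).2 hval

/-- a function with a prescribed order at a pole `v₀` of `x` and satisfying the conditions of
`D` at the other poles. -/
theorem rrc_exists_inf (x : F) (hx : Transcendental K x) [FiniteDimensional K⟮x⟯ F]
    (D : Divisor K F) (v₀ : Place K F) (n₀ : ℤ) :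
    ∃ f₀ : F, f₀ ≠ 0 ∧ v₀.ord f₀ = n₀ ∧
      ∀ v : Place K F, v.ord x < 0 → v ≠ v₀ → -D v ≤ v.ord f₀ := by
  classical
  obtain ⟨f₀, h0, h1, h2⟩ := rrc_exists_ord v₀ ((alg_finite_poles x hx x hx).toFinset.erase v₀)
    (Finset.notMem_erase _ _) n₀ ((∑ w ∈ D.support, (D w).natAbs : ℕ) : ℤ)
  refine ⟨f₀, h0, h1, fun v hv hvv => ?_⟩
  have h3 := h2 v (Finset.mem_erase.2 ⟨hvv, (Set.Finite.mem_toFinset _).2 hv⟩)
  have h4 := rrd_natAbs_le_sum D v
  omega

/-- a function with a prescribed order at a finite place `v₀` and satisfying the conditions of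
`D` at the other finite places. -/
theorem rrc_exists_fin (x : F) (hx : Transcendental K x) [FiniteDimensional K⟮x⟯ F]
    (D : Divisor K F) (v₀ : Place K F) (hv₀ : 0 ≤ v₀.ord x) (n₀ : ℤ) :
    ∃ f₀ : F, f₀ ≠ 0 ∧ v₀.ord f₀ = n₀ ∧
      ∀ v : Place K F, 0 ≤ v.ord x → v ≠ v₀ → -D v ≤ v.ord f₀ := by
  classical
  obtain ⟨a, ha⟩ := rrd_exists_val x x hx v₀ hv₀
  obtain ⟨f₁, h0, h1, h2⟩ := rrc_exists_ord v₀
    ((alg_finite_zeros x hx x hx a).toFinset.erase v₀)
    (Finset.notMem_erase _ _) n₀ ((∑ w ∈ D.support, (D w).natAbs : ℕ) : ℤ)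
  set Bd : Finset (Place K F) :=
    ((rrd_finite_poles x hx f₁).toFinset ∪ D.support).filter
      (fun v => ¬ 0 < v.ord (x - algebraMap K F a)) with hBd
  set m : ℕ := ∑ v ∈ Bd, ((D v).natAbs + (v.ord f₁).natAbs) with hm
  obtain ⟨p, hp0, hp1, hp2⟩ := rrd_exists_clear x x hx Bd m
  have hpa : p.eval a ≠ 0 := by
    intro h
    obtain ⟨v, hvB, hv⟩ := hp2 a h
    exact (Finset.mem_filter.1 hvB).2 hv
  have hpx : aeval x p ≠ 0 := rrd_aeval_ne_zero hx hp0
  refine ⟨aeval x p * f₁, mul_ne_zero hpx h0, ?_, fun v hv hvv => ?_⟩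
  · rw [v₀.ord_mul hpx h0, rrc_ord_aeval_eq_zero x v₀ a ha p hpa, h1, zero_add]
  · rw [v.ord_mul hpx h0]
    have h3 := rrd_ord_aeval_nonneg x v hv p
    by_cases hfib : 0 < v.ord (x - algebraMap K F a)
    · have h4 := h2 v (Finset.mem_erase.2 ⟨hvv, (Set.Finite.mem_toFinset _).2 hfib⟩)
      have h5 := rrd_natAbs_le_sum D v
      omega
    · by_cases hvB : v ∈ Bd
      · have h4 := hp1 v hvB hv
        have h5 : (D v).natAbs + (v.ord f₁).natAbs ≤ m :=
          Finset.single_le_sum (f := fun v => (D v).natAbs + (v.ord f₁).natAbs)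
            (fun _ _ => Nat.zero_le _) hvB
        omega
      · have h4 : ¬ (v.ord f₁ < 0) := fun h => hvB (Finset.mem_filter.2
          ⟨Finset.mem_union_left _ ((Set.Finite.mem_toFinset _).2 h), hfib⟩)
        have h5 : D v = 0 := by
          by_contra h
          exact hvB (Finset.mem_filter.2
            ⟨Finset.mem_union_right _ (Finsupp.mem_support_iff.2 h), hfib⟩)
        omega

end existence

section step

variable {K F : Type*} [Field K] [Field F] [Algebra K F]

/-- finiteness of the two cohomology groups of the pair `(rrLam x D, rrLamInf x D)`. -/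
def rrcFin (x : F) (D : Divisor K F) : Prop :=
  Module.Finite K ↥(rrLam x D ⊓ rrLamInf x D) ∧ Module.Finite K (F ⧸ (rrLam x D ⊔ rrLamInf x D))

/-- the Euler characteristic of the pair `(rrLam x D, rrLamInf x D)`. -/
noncomputable def rrcChi (x : F) (D : Divisor K F) : ℤ :=
  (finrank K ↥(rrLam x D ⊓ rrLamInf x D) : ℤ) - finrank K (F ⧸ (rrLam x D ⊔ rrLamInf x D))

/-- linear algebra: enlarging `Q` by colength one raises the Euler characteristic by one. -/
theorem rrc_step_lin {V : Type*} [AddCommGroup V] [Module K V] (P Q Q' : Submodule K V)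
    (hQ : Q ≤ Q') (hcol : finrank K (↥Q' ⧸ Q.submoduleOf Q') = 1) :
    ((Module.Finite K ↥(P ⊓ Q) ∧ Module.Finite K (V ⧸ (P ⊔ Q))) ↔
      (Module.Finite K ↥(P ⊓ Q') ∧ Module.Finite K (V ⧸ (P ⊔ Q')))) ∧
    ((Module.Finite K ↥(P ⊓ Q) ∧ Module.Finite K (V ⧸ (P ⊔ Q))) →
      (finrank K ↥(P ⊓ Q') : ℤ) - finrank K (V ⧸ (P ⊔ Q'))
        = (finrank K ↥(P ⊓ Q) : ℤ) - finrank K (V ⧸ (P ⊔ Q)) + 1) := by
  haveI : Module.Finite K (↥Q' ⧸ Q.submoduleOf Q') := Module.finite_of_finrank_pos (by omega)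
  refine ⟨⟨fun h => rrl_finite_up P Q Q' hQ h.1 h.2, fun h => rrl_finite_down P Q Q' hQ h.1 h.2⟩,
    fun h => ?_⟩
  have := rrl_chi P Q Q' hQ h.1 h.2
  rw [hcol] at this
  exact_mod_cast this

theorem rrc_step_lin' {V : Type*} [AddCommGroup V] [Module K V] (P Q Q' : Submodule K V)
    (hQ : Q ≤ Q') (hcol : finrank K (↥Q' ⧸ Q.submoduleOf Q') = 1) :
    ((Module.Finite K ↥(Q ⊓ P) ∧ Module.Finite K (V ⧸ (Q ⊔ P))) ↔
      (Module.Finite K ↥(Q' ⊓ P) ∧ Module.Finite K (V ⧸ (Q' ⊔ P)))) ∧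
    ((Module.Finite K ↥(Q ⊓ P) ∧ Module.Finite K (V ⧸ (Q ⊔ P))) →
      (finrank K ↥(Q' ⊓ P) : ℤ) - finrank K (V ⧸ (Q' ⊔ P))
        = (finrank K ↥(Q ⊓ P) : ℤ) - finrank K (V ⧸ (Q ⊔ P)) + 1) := by
  have := rrc_step_lin P Q Q' hQ hcol
  rwa [inf_comm P Q, sup_comm P Q, inf_comm P Q', sup_comm P Q'] at this

variable [IsAlgClosed K] [CharZero K]

/-- adding a point raises the Euler characteristic by one. -/
theorem rrc_step (x : F) (hx : Transcendental K x) [FiniteDimensional K⟮x⟯ F]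
    (D : Divisor K F) (v₀ : Place K F) :
    (rrcFin x D ↔ rrcFin x (D + Finsupp.single v₀ (1 : ℤ))) ∧
    (rrcFin x D → rrcChi x (D + Finsupp.single v₀ (1 : ℤ)) = rrcChi x D + 1) := by
  classical
  rcases le_or_gt 0 (v₀.ord x) with hv₀ | hv₀
  · -- finite place
    have hInf : rrLamInf x (D + Finsupp.single v₀ (1 : ℤ)) = rrLamInf x D := by
      rw [rrc_lamInf_eq, rrc_lamInf_eq]
      refine rrc_gen_congr fun v hv => rrc_add_single_ne D ?_
      rintro rfl
      have : v.ord x < 0 := hv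
      omega
    have hQ : rrLam x D ≤ rrLam x (D + Finsupp.single v₀ (1 : ℤ)) := by
      rw [rrc_lam_eq, rrc_lam_eq]
      refine rrc_gen_mono fun v hv => ?_
      rw [Finsupp.add_apply]
      have : (0 : ℤ) ≤ Finsupp.single v₀ (1 : ℤ) v := by
        rw [Finsupp.single_apply]
        split_ifs <;> norm_num
      omega
    obtain ⟨f₀, hf₀, hord, hoth⟩ := rrc_exists_fin x hx D v₀ hv₀ (-(D v₀ + 1))
    have hcol := rrc_colength x {v : Place K F | 0 ≤ v.ord x} v₀ hv₀ D f₀ hf₀ hord
      (fun v hv hvv => hoth v hv hvv)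
    unfold rrcFin rrcChi
    rw [hInf]
    exact rrc_step_lin' (rrLamInf x D) (rrLam x D) (rrLam x (D + Finsupp.single v₀ (1 : ℤ)))
      hQ hcol
  · -- pole of `x`
    have hLam : rrLam x (D + Finsupp.single v₀ (1 : ℤ)) = rrLam x D := by
      rw [rrc_lam_eq, rrc_lam_eq]
      refine rrc_gen_congr fun v hv => rrc_add_single_ne D ?_
      rintro rfl
      have : 0 ≤ v.ord x := hv
      omega
    have hQ : rrLamInf x D ≤ rrLamInf x (D + Finsupp.single v₀ (1 : ℤ)) := by
      rw [rrc_lamInf_eq, rrc_lamInf_eq]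
      refine rrc_gen_mono fun v hv => ?_
      rw [Finsupp.add_apply]
      have : (0 : ℤ) ≤ Finsupp.single v₀ (1 : ℤ) v := by
        rw [Finsupp.single_apply]
        split_ifs <;> norm_num
      omega
    obtain ⟨f₀, hf₀, hord, hoth⟩ := rrc_exists_inf x hx D v₀ (-(D v₀ + 1))
    have hcol := rrc_colength x {v : Place K F | v.ord x < 0} v₀ hv₀ D f₀ hf₀ hord
      (fun v hv hvv => hoth v hv hvv)
    unfold rrcFin rrcChi
    rw [hLam]
    exact rrc_step_lin (rrLam x D) (rrLamInf x D) (rrLamInf x (D + Finsupp.single v₀ (1 : ℤ)))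
      hQ hcol

/-- adding a multiple of a point. -/
theorem rrc_add_single (x : F) (hx : Transcendental K x) [FiniteDimensional K⟮x⟯ F]
    (D : Divisor K F) (v₀ : Place K F) (h : rrcFin x D) (n : ℤ) :
    rrcFin x (D + Finsupp.single v₀ n) ∧ rrcChi x (D + Finsupp.single v₀ n) = rrcChi x D + n := by
  induction n using Int.induction_on with
  | zero =>
    rw [Finsupp.single_zero, add_zero, add_zero]
    exact ⟨h, rfl⟩
  | succ n ih =>
    have e : D + Finsupp.single v₀ ((n : ℤ) + 1)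
        = (D + Finsupp.single v₀ (n : ℤ)) + Finsupp.single v₀ (1 : ℤ) := by
      rw [Finsupp.single_add, add_assoc]
    obtain ⟨h1, h2⟩ := rrc_step x hx (D + Finsupp.single v₀ (n : ℤ)) v₀
    rw [e]
    refine ⟨h1.1 ih.1, ?_⟩
    rw [h2 ih.1, ih.2]
    ring
  | pred n ih =>
    have e : D + Finsupp.single v₀ (-(n : ℤ))
        = (D + Finsupp.single v₀ (-(n : ℤ) - 1)) + Finsupp.single v₀ (1 : ℤ) := by
      rw [add_assoc, ← Finsupp.single_add, sub_add_cancel]
    obtain ⟨h1, h2⟩ := rrc_step x hx (D + Finsupp.single v₀ (-(n : ℤ) - 1)) v₀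
    rw [← e] at h1 h2
    have h3 := h1.2 ih.1
    refine ⟨h3, ?_⟩
    have h4 := h2 h3
    rw [ih.2] at h4
    linarith

/-- `χ(D) = χ(0) + deg D`, given finiteness at `D = 0`. -/
theorem rrc_main (x : F) (hx : Transcendental K x) [FiniteDimensional K⟮x⟯ F]
    (h0 : rrcFin x (0 : Divisor K F)) (D : Divisor K F) :
    rrcFin x D ∧ rrcChi x D = rrcChi x (0 : Divisor K F) + Divisor.degree D := by
  induction D using Finsupp.induction with
  | zero =>
    refine ⟨h0, ?_⟩
    rw [map_zero, add_zero]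
  | single_add v n D hv hn ih =>
    obtain ⟨h1, h2⟩ := rrc_add_single x hx D v ih.1 n
    rw [add_comm]
    refine ⟨h1, ?_⟩
    rw [h2, ih.2, map_add, Divisor.degree_single, alg_deg_eq_one x hx v]
    push_cast
    ring

/-- [RR-CHI] the Euler characteristic formula, given finiteness at `D = 0`. -/
theorem rr_chi_of_zero (x : F) (hx : Transcendental K x) [FiniteDimensional K⟮x⟯ F]
    (h0 : Module.Finite K ↥(rrLam x (0 : Divisor K F) ⊓ rrLamInf x (0 : Divisor K F)))
    (h0' : Module.Finite K (F ⧸ (rrLam x (0 : Divisor K F) ⊔ rrLamInf x (0 : Divisor K F))))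
    (D : Divisor K F) :
    Module.Finite K ↥(rrLam x D ⊓ rrLamInf x D) ∧
    Module.Finite K (F ⧸ (rrLam x D ⊔ rrLamInf x D)) ∧
    (finrank K ↥(rrLam x D ⊓ rrLamInf x D) : ℤ) - finrank K (F ⧸ (rrLam x D ⊔ rrLamInf x D))
      = (finrank K ↥(rrLam x (0 : Divisor K F) ⊓ rrLamInf x (0 : Divisor K F)) : ℤ)
        - finrank K (F ⧸ (rrLam x (0 : Divisor K F) ⊔ rrLamInf x (0 : Divisor K F)))
        + Divisor.degree D := by
  obtain ⟨⟨h1, h2⟩, h3⟩ := rrc_main x hx ⟨h0, h0'⟩ D
  exact ⟨h1, h2, h3⟩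

/-- finiteness at `D = 0`, from the lattice descriptions and the normal form. -/
theorem rrc_fin_zero (x : F) (hx : Transcendental K x) [FiniteDimensional K⟮x⟯ F] :
    rrcFin x (0 : Divisor K F) := by
  classical
  obtain ⟨B, hB⟩ := rrb_exists (K := K) x hx
  obtain ⟨b, hb⟩ := rr_lam_isLattice x hx B hB 0
  obtain ⟨c, hc⟩ := rr_lamInf_isLattice x hx B hB 0
  haveI : CharZero K⟮x⟯ := charZero_of_injective_algebraMap (algebraMap K K⟮x⟯).injective
  have hβ : (Algebra.traceForm K⟮x⟯ F).Nondegenerate := traceForm_nondegenerate K⟮x⟯ F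
  obtain ⟨h1, h2, -⟩ := B.nf_duality (Algebra.traceForm K⟮x⟯ F) hβ b c
  unfold rrcFin
  rw [hb, hc]
  exact ⟨h1, h2⟩

/-- [RR-CHI] the Euler characteristic is `χ(0) + deg D`. -/
theorem rr_chi (x : F) (hx : Transcendental K x) [FiniteDimensional K⟮x⟯ F] (D : Divisor K F) :
    Module.Finite K ↥(rrLam x D ⊓ rrLamInf x D) ∧
    Module.Finite K (F ⧸ (rrLam x D ⊔ rrLamInf x D)) ∧
    (finrank K ↥(rrLam x D ⊓ rrLamInf x D) : ℤ) - finrank K (F ⧸ (rrLam x D ⊔ rrLamInf x D))
      = (finrank K ↥(rrLam x (0 : Divisor K F) ⊓ rrLamInf x (0 : Divisor K F)) : ℤ)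
        - finrank K (F ⧸ (rrLam x (0 : Divisor K F) ⊔ rrLamInf x (0 : Divisor K F)))
        + Divisor.degree D := by
  obtain ⟨h0, h0'⟩ := rrc_fin_zero x hx
  exact rr_chi_of_zero x hx h0 h0' D

end step

end Fermat.Agent.S20
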