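import Fermat.Agent.S20.RRDict
import Fermat.Agent.S20.RRBase

/-!
# S20 / RR-DICT, part 2: the lattice at infinity

`rrLamInf x D = ⊕ 𝒪_∞ c_i` for a `K(x)`-basis `c` of `F`, where `𝒪_∞ = {r | B.v r ≤ 1}`.
Route: the chart `y = x⁻¹`, the `K[y]`-lattice `rrLam y D = ⊕ K[y] c_i` (`rrd_lam_basis`) and
localisation at `y = 0` (clearing the finitely many bad places with a polynomial `u(y)`,
`u(0) ≠ 0`).
-/

set_option autoImplicit false
set_option linter.deprecated false
set_option linter.unusedSectionVars false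
set_option linter.unusedVariables false
set_option linter.style.haveILetI false

namespace Fermat.Agent.S20

open Fermat.Agent.S24
open AlgebraicCurve IntermediateField Module Polynomial IsDedekindDomain WithZero

section inf

variable {K F : Type*} [Field K] [Field F] [Algebra K F] [IsAlgClosed K] [CharZero K]

/-- transfer of `rrd_lam_basis` to an equal intermediate field. -/
theorem rrd_lam_basis_of_eq (x : F) [FiniteDimensional K⟮x⟯ F] (z : F) (hz : Transcendental K z)
    (D : Divisor K F) (E : IntermediateField K F) (hE : K⟮z⟯ = E) :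
    ∃ c : Basis (Fin (finrank E F)) E F, ∀ f : F,
      f ∈ rrLam z D ↔ ∀ i, ((c.repr f i : E) : F) ∈ Algebra.adjoin K ({z} : Set F) := by
  subst hE
  exact rrd_lam_basis x z hz D

/-- the poles of any function are finite in number. -/
theorem rrd_finite_poles (x : F) (hx : Transcendental K x) [FiniteDimensional K⟮x⟯ F] (f : F) :
    {v : Place K F | v.ord f < 0}.Finite := by
  by_cases halg : IsAlgebraic K f
  · obtain ⟨a, rfl⟩ := alga_mem_range_of_isAlgebraic halg
    have : {v : Place K F | v.ord (algebraMap K F a) < 0} = ∅ := by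
      ext v
      simp only [Set.mem_setOf_eq, Set.mem_empty_iff_false, iff_false, not_lt]
      rw [alga_ord_algebraMap]
    rw [this]
    exact Set.finite_empty
  · exact alg_finite_poles x hx f halg

omit [IsAlgClosed K] [CharZero K] in
/-- elements of `K[x⁻¹]` are integral at infinity. -/
theorem rrd_v_le_one_of_mem (x : F) (B : NfBase K K⟮x⟯) (hB : RrBaseFor x B) (r : K⟮x⟯)
    (hr : (r : F) ∈ Algebra.adjoin K ({x⁻¹} : Set F)) : B.v r ≤ 1 := by
  rw [Algebra.adjoin_singleton_eq_range_aeval] at hr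
  obtain ⟨p, hp⟩ := hr
  have hg : B.v (AdjoinSimple.gen K x) = exp (1 : ℤ) := by
    rw [← hB.1]
    exact B.v_x
  have hginv : B.v (AdjoinSimple.gen K x)⁻¹ = exp (-1 : ℤ) := by
    rw [map_inv₀, hg, exp_neg]
  have hr' : r = aeval (AdjoinSimple.gen K x)⁻¹ p := by
    apply Subtype.ext
    have h1 := aeval_algHom_apply K⟮x⟯.val (AdjoinSimple.gen K x)⁻¹ p
    have h2 : K⟮x⟯.val (AdjoinSimple.gen K x)⁻¹ = x⁻¹ := by
      show ((AdjoinSimple.gen K x)⁻¹ : K⟮x⟯).1 = x⁻¹
      rw [IntermediateField.coe_inv, AdjoinSimple.coe_gen]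
    rw [h2] at h1
    exact hp.symm.trans h1
  rcases eq_or_ne p 0 with rfl | hp0
  · rw [hr', map_zero, map_zero]
    exact zero_le_one
  · rw [hr', ct_val_aeval B.v B.v_k (by rw [hginv]; exact exp_ne_zero)
      (by rw [hginv, ← exp_zero, exp_lt_exp]; norm_num) hp0, hginv]
    rw [← exp_nsmul, ← exp_zero, exp_le_exp]
    simp

omit [IsAlgClosed K] [CharZero K] in
/-- a polynomial in `x⁻¹` with nonzero constant term is a unit at infinity. -/
theorem rrd_v_eq_one_of_coeff (x : F) (B : NfBase K K⟮x⟯) (hB : RrBaseFor x B) (p : K[X])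
    (hp : p.coeff 0 ≠ 0) : B.v (aeval (AdjoinSimple.gen K x)⁻¹ p) = 1 := by
  have hg : B.v (AdjoinSimple.gen K x) = exp (1 : ℤ) := by
    rw [← hB.1]
    exact B.v_x
  have hginv : B.v (AdjoinSimple.gen K x)⁻¹ = exp (-1 : ℤ) := by
    rw [map_inv₀, hg, exp_neg]
  have hp0 : p ≠ 0 := by
    rintro rfl
    simp at hp
  rw [ct_val_aeval B.v B.v_k (by rw [hginv]; exact exp_ne_zero)
      (by rw [hginv, ← exp_zero, exp_lt_exp]; norm_num) hp0,
    natTrailingDegree_eq_zero.2 (Or.inr hp), pow_zero]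

omit [IsAlgClosed K] [CharZero K] in
/-- elements of `𝒪_∞` are regular at the poles of `x`. -/
theorem rrd_val_le_one_of_pole (x : F) (hx : Transcendental K x) (B : NfBase K K⟮x⟯)
    (hB : RrBaseFor x B) (v : Place K F) (hv : v.ord x < 0) (r : K⟮x⟯) (hr : B.v r ≤ 1) :
    v.adicValuation (r : F) ≤ 1 := by
  rcases eq_or_ne r 0 with rfl | hr0
  · simp
  have hrF : (r : F) ≠ 0 := by
    intro h
    exact hr0 (Subtype.ext h)
  have h1 := rrb_ord_of_pole x hx B hB v hv r hr0
  have h2 : log (B.v r) ≤ 0 := by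
    have h3 : B.v r ≠ 0 := (Valuation.ne_zero_iff _).2 hr0
    have := (log_le_log h3 (one_ne_zero)).2 hr
    simpa using this
  rw [← ct_ord_nonneg_iff v hrF, h1]
  nlinarith

/-- clearing denominators away from infinity: for `f ∈ rrLamInf x D` there is `u ∈ K[x⁻¹]` with
`u(0) ≠ 0` and `u f ∈ rrLam x⁻¹ D`. -/
theorem rrd_exists_clear_inf (x : F) (hx : Transcendental K x) [FiniteDimensional K⟮x⟯ F]
    (D : Divisor K F) (f : F) (hf : f ∈ rrLamInf x D) :
    ∃ p : K[X], p.coeff 0 ≠ 0 ∧ aeval x⁻¹ p * f ∈ rrLam x⁻¹ D := by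
  classical
  have hy : Transcendental K x⁻¹ := algaz_transcendental_inv hx
  rcases eq_or_ne f 0 with rfl | hf0
  · exact ⟨1, by simp, by simp⟩
  set S : Finset (Place K F) :=
    ((rrd_finite_poles x hx f).toFinset ∪ D.support).filter (fun v => v.ord x = 0) with hS
  set m : ℕ := ∑ v ∈ S, ((D v).natAbs + (v.ord f).natAbs) with hm
  obtain ⟨p, hp0, hp1, hp2⟩ := rrd_exists_clear x x⁻¹ hy S m
  refine ⟨p, ?_, ?_⟩
  · rw [coeff_zero_eq_eval_zero]
    intro h0
    obtain ⟨v, hvS, hv⟩ := hp2 0 h0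
    rw [map_zero, sub_zero, Place.ord_inv] at hv
    have := (Finset.mem_filter.1 hvS).2
    omega
  · rw [mem_rrLam_iff]
    intro v hv
    rw [Place.ord_inv] at hv
    right
    rw [v.ord_mul (rrd_aeval_ne_zero hy hp0) hf0]
    have h1 := rrd_ord_aeval_nonneg x⁻¹ v (by rw [Place.ord_inv]; exact hv) p
    rcases lt_or_eq_of_le hv with hlt | heq
    · have := (mem_rrLamInf_iff.1 hf v (by omega)).resolve_left hf0
      omega
    · by_cases hvS : v ∈ S
      · have h2 := hp1 v hvS (by rw [Place.ord_inv]; exact hv)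
        have h3 : (D v).natAbs + (v.ord f).natAbs ≤ m :=
          Finset.single_le_sum (f := fun v => (D v).natAbs + (v.ord f).natAbs)
            (fun _ _ => Nat.zero_le _) hvS
        omega
      · have hx0 : v.ord x = 0 := by omega
        have h4 : ¬ (v.ord f < 0) := fun h => hvS (Finset.mem_filter.2
          ⟨Finset.mem_union_left _ ((Set.Finite.mem_toFinset _).2 h), hx0⟩)
        have h5 : D v = 0 := by
          by_contra h
          exact hvS (Finset.mem_filter.2
            ⟨Finset.mem_union_right _ (Finsupp.mem_support_iff.2 h), hx0⟩)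
        omega

/-- [RR-DICT'] the infinite part is a lattice at infinity. -/
theorem rr_lamInf_isLattice (x : F) (hx : Transcendental K x) [FiniteDimensional K⟮x⟯ F]
    (B : NfBase K K⟮x⟯) (hB : RrBaseFor x B) (D : Divisor K F) :
    ∃ c : Basis (Fin (finrank K⟮x⟯ F)) K⟮x⟯ F, rrLamInf x D = B.latInf c 0 := by
  have hy : Transcendental K x⁻¹ := algaz_transcendental_inv hx
  obtain ⟨c, hc⟩ := rrd_lam_basis_of_eq x x⁻¹ hy D K⟮x⟯ (algaz_adjoin_inv x)
  refine ⟨c, ?_⟩
  ext f
  rw [NfBase.mem_latInf]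
  constructor
  · intro hf i
    obtain ⟨p, hp, hpf⟩ := rrd_exists_clear_inf x hx D f hf
    have h1 := (hc _).1 hpf i
    have h2 : aeval x⁻¹ p * f = (aeval (AdjoinSimple.gen K x)⁻¹ p : K⟮x⟯) • f := by
      have h3 := aeval_algHom_apply K⟮x⟯.val (AdjoinSimple.gen K x)⁻¹ p
      have h4 : K⟮x⟯.val (AdjoinSimple.gen K x)⁻¹ = x⁻¹ := by
        show ((AdjoinSimple.gen K x)⁻¹ : K⟮x⟯).1 = x⁻¹
        rw [IntermediateField.coe_inv, AdjoinSimple.coe_gen]
      rw [h4] at h3
      rw [h3]
      rfl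
    rw [h2, map_smul, Finsupp.smul_apply, smul_eq_mul] at h1
    have h5 := rrd_v_le_one_of_mem x B hB _ h1
    rw [map_mul, rrd_v_eq_one_of_coeff x B hB p hp, one_mul] at h5
    simpa using h5
  · intro h
    rw [mem_rrLamInf]
    intro v hv
    have hci : ∀ i, c i ∈ rrLam x⁻¹ D := fun i => by
      rw [hc]
      intro j
      rw [c.repr_self, Finsupp.single_apply]
      split_ifs
      · exact one_mem _
      · exact zero_mem _
    rw [← c.sum_repr f]
    apply Valuation.map_sum_le
    intro i _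
    rw [Algebra.smul_def, map_mul]
    have h1 := rrd_val_le_one_of_pole x hx B hB v hv (c.repr f i) (by simpa using h i)
    have h2 := hci i v (by rw [Place.ord_inv]; omega)
    exact (mul_le_of_le_one_left' h1).trans h2

end inf

end Fermat.Agent.S20
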