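import Mathlib
import Fermat.Agent.S20.RRAsm
import Fermat.Agent.S20.RRZero
import Fermat.Agent.S20.RRDictInf
import Fermat.Agent.S20.RRChi
import Fermat.Agent.S20.DiffFin
import Fermat.Agent.S20.DiffInf

/-!
# S20: Riemann–Roch for the divisor of `dx` (final statements of the RR package)

`K` algebraically closed of characteristic `0`, `F ⊇ K` a field, `x : F` transcendental over `K`
with `F` finite over `K(x)`; `W` the divisor of `dx` (`IsDivisorOfD x W`).

* `rr_dualInf`   : the twisted trace dual at infinity (from `rr_dualInf_of` and `rr_dualA`);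
* `rr_finite`    : Riemann–Roch spaces are finite dimensional;
* `rr_canonical` : `2 ℓ(W) - 2 = deg W`.
-/

set_option autoImplicit false
set_option linter.unusedSectionVars false

noncomputable section

namespace Fermat.Agent.S20

open AlgebraicCurve IntermediateField Module

variable {K F : Type*} [Field K] [Field F] [Algebra K F] [IsAlgClosed K] [CharZero K]

/-- [RR-DIFF'] the trace dual at infinity, twisted by `x⁻²` (i.e. by `dx`). -/
theorem rr_dualInf (x : F) (hx : Transcendental K x) [FiniteDimensional K⟮x⟯ F]
    (B : NfBase K K⟮x⟯) (hB : RrBaseFor x B) (W : Divisor K F) (hW : IsDivisorOfD x W) :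
    B.dualInf (Algebra.traceForm K⟮x⟯ F) (-2) (rrLamInf x (0 : Divisor K F)) = rrLamInf x W :=
  rr_dualInf_of (fun y hy _ B' hB' W' hW' => rr_dualA y hy B' hB' W' hW') x hx B hB W hW

/-- [RR-FIN] Riemann–Roch spaces are finite dimensional. -/
theorem rr_finite (x : F) (hx : Transcendental K x) [FiniteDimensional K⟮x⟯ F]
    (D : Divisor K F) : Module.Finite K (riemannRochSpace D) :=
  rr_finite_of x D (rr_chi x hx D).1

/-- [RR-CAN] `ℓ(W) = g` where `deg W = 2 g - 2`. -/
theorem rr_canonical (x : F) (hx : Transcendental K x) [FiniteDimensional K⟮x⟯ F]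
    (W : Divisor K F) (hW : IsDivisorOfD x W) :
    2 * (Module.finrank K (riemannRochSpace W) : ℤ) - 2 = Divisor.degree W := by
  obtain ⟨B, hB⟩ := rrb_exists (K := K) x hx
  exact rr_canonical_of x W B (rr_lam_isLattice x hx B hB 0) (rr_lamInf_isLattice x hx B hB 0)
    (rr_chi x hx W).2.2 (rr_finrank_zero x hx) (rr_dualA x hx B hB W hW)
    (rr_dualInf x hx B hB W hW)

end Fermat.Agent.S20

end
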