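import Mathlib
import Fermat.Agent.S24.AnaEv
import Fermat.Agent.S24.AnaMer
import Fermat.Agent.S24.SymCore

/-!
# S20, packages SYM + INV (part 1): the interpolation relation in `ana_ring N`

Every `Γ₀(N)`-invariant element `a` of `ana_ring N` satisfies
`a * B(J) = ∑ i < n, J_N ^ i * G i (J)` with polynomials `B ≠ 0`, `G i` over `ℂ`,
`n = |SL(2,ℤ) ⧸ Γ₀(N)|`.  Hence `a` lies in the subfield of `ana_M N` generated by the constants,
`J` and `J_N`.

Everything is stated without an `Algebra ℂ (ana_ring N)` instance: polynomials are evaluated with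
`symc_evJ N = Polynomial.eval₂RingHom (ana_const N) (ana_J N)`.
-/

set_option autoImplicit false

noncomputable section

namespace Fermat.Agent.S20

open UpperHalfPlane hiding I
open Filter Function Topology ModularForm Complex CongruenceSubgroup
open Fermat.Agent.S23 Fermat.Agent.S24
open scoped Manifold MatrixGroups ModularForm Real

local notation "Δ" => ModularForm.discriminant

/-- an invariant element of `ana_ring N` lies in `sym_ring N`. -/
theorem symc_mem_sym {N : ℕ} [NeZero N] (a : ana_ring N)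
    (hinv : ∀ γ ∈ Gamma0 N, ana_comp N γ a = a) : (a : ℍ → ℂ) ∈ sym_ring N := by
  refine sym_mem_ring_iff.mpr ⟨fun γ hγ τ => ?_, fun g =>
    sym_mem_mer_iff.mpr ⟨ana_mdiff_comp a.2.1 g, amer_disc_pow_bounded_comp N a.2 g⟩⟩
  have := congrArg (fun f : ana_ring N => (f : ℍ → ℂ) τ) (hinv γ hγ)
  simpa using this

/-- evaluation of polynomials at `J`, in `ana_ring N`. -/
def symc_evJ (N : ℕ) [NeZero N] : Polynomial ℂ →+* ana_ring N :=
  Polynomial.eval₂RingHom (ana_const N) (ana_J N)

theorem symc_evJ_def (N : ℕ) [NeZero N] (P : Polynomial ℂ) :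
    symc_evJ N P = P.eval₂ (ana_const N) (ana_J N) := rfl

@[simp] theorem symc_evJ_C (N : ℕ) [NeZero N] (c : ℂ) :
    symc_evJ N (Polynomial.C c) = ana_const N c := by
  simp [symc_evJ]

@[simp] theorem symc_evJ_X (N : ℕ) [NeZero N] : symc_evJ N Polynomial.X = ana_J N := by
  simp [symc_evJ]

theorem symc_evJ_apply (N : ℕ) [NeZero N] (P : Polynomial ℂ) (τ : ℍ) :
    (symc_evJ N P : ℍ → ℂ) τ = P.eval (ord_J τ) := by
  have h : ((Pi.evalRingHom (fun _ : ℍ => ℂ) τ).comp ((ana_ring N).subtype)).comp (symc_evJ N)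
      = Polynomial.evalRingHom (ord_J τ) := by
    apply Polynomial.ringHom_ext
    · intro c
      simp
    · simp
  exact congrArg (fun φ => φ P) h

theorem symc_evJ_comp (N : ℕ) [NeZero N] (g : SL(2, ℤ)) (P : Polynomial ℂ) :
    ana_comp N g (symc_evJ N P) = symc_evJ N P := by
  apply Subtype.ext
  funext τ
  rw [ana_comp_apply, symc_evJ_apply, symc_evJ_apply, ord_J_smul]

/-- `J_N` as an element of `ana_ring N`. -/
def symc_JN (N : ℕ) [NeZero N] : ana_ring N := ana_Jd N N dvd_rfl

theorem symc_JN_apply (N : ℕ) [NeZero N] (τ : ℍ) :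
    (symc_JN N : ℍ → ℂ) τ = distJN N (NeZero.pos N) τ := rfl

theorem symc_evJ_injective (N : ℕ) [NeZero N] : Function.Injective (symc_evJ N) := by
  rw [injective_iff_map_eq_zero]
  intro P hP
  by_contra hne
  -- `P` has finitely many roots but `J` is surjective
  have h1 : ∀ τ : ℍ, P.eval (ord_J τ) = 0 := by
    intro τ
    rw [← symc_evJ_apply N P τ, hP]
    rfl
  have h2 : ∀ z : ℂ, P.eval z = 0 := by
    intro z
    obtain ⟨τ, rfl⟩ := ord_J_surjective z
    exact h1 τ
  exact hne (Polynomial.funext (fun z => by rw [h2 z, Polynomial.eval_zero]))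

theorem symc_evJ_ne_zero (N : ℕ) [NeZero N] {B : Polynomial ℂ} (hB : B ≠ 0) :
    symc_evJ N B ≠ 0 := fun h => hB (symc_evJ_injective N (h.trans (map_zero _).symm))

/-- **the interpolation relation** for invariant elements of `ana_ring N`. -/
theorem symc_rel (N : ℕ) [NeZero N] (a : ana_ring N)
    (hinv : ∀ γ ∈ Gamma0 N, ana_comp N γ a = a) :
    ∃ (B : Polynomial ℂ) (G : Fin (Fintype.card (s24Q N)) → Polynomial ℂ), B ≠ 0 ∧
      a * symc_evJ N B
        = ∑ i : Fin (Fintype.card (s24Q N)), symc_JN N ^ (i : ℕ) * symc_evJ N (G i) := by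
  obtain ⟨B, G, hB, hrel⟩ := sym_core_JN (symc_mem_sym a hinv)
  refine ⟨B, G, hB, ?_⟩
  apply (ana_ring N).subtype_injective
  rw [map_mul, map_sum]
  funext τ
  simp only [Subring.subtype_apply, Pi.mul_apply, Finset.sum_apply, map_mul, map_pow,
    Pi.pow_apply, symc_evJ_apply, symc_JN_apply]
  rw [mul_comm]
  exact hrel τ

/-- the same relation in the fraction field `ana_M N`. -/
theorem symc_rel_M (N : ℕ) [NeZero N] (a : ana_ring N)
    (hinv : ∀ γ ∈ Gamma0 N, ana_comp N γ a = a) :
    ∃ (B : Polynomial ℂ) (G : Fin (Fintype.card (s24Q N)) → Polynomial ℂ), B ≠ 0 ∧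
      algebraMap (ana_ring N) (ana_M N) (symc_evJ N B) ≠ 0 ∧
      algebraMap (ana_ring N) (ana_M N) a
        = (∑ i : Fin (Fintype.card (s24Q N)), algebraMap (ana_ring N) (ana_M N) (symc_JN N) ^ (i : ℕ)
            * algebraMap (ana_ring N) (ana_M N) (symc_evJ N (G i)))
          / algebraMap (ana_ring N) (ana_M N) (symc_evJ N B) := by
  obtain ⟨B, G, hB, hrel⟩ := symc_rel N a hinv
  have hne : algebraMap (ana_ring N) (ana_M N) (symc_evJ N B) ≠ 0 := by
    intro h
    exact symc_evJ_ne_zero N hB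
      (IsFractionRing.injective (ana_ring N) (ana_M N) (h.trans (map_zero _).symm))
  refine ⟨B, G, hB, hne, ?_⟩
  rw [eq_div_iff hne, ← map_mul, hrel, map_sum]
  refine Finset.sum_congr rfl fun i _ => ?_
  rw [map_mul, map_pow]

/-- **[S20-INV]**: an invariant element of `ana_ring N` lies in every subfield of `ana_M N`
containing the constants, `J` and `J_N`. -/
theorem symc_inv (N : ℕ) [NeZero N] (T : Subfield (ana_M N))
    (hC : ∀ c : ℂ, algebraMap (ana_ring N) (ana_M N) (ana_const N c) ∈ T)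
    (hJ : algebraMap (ana_ring N) (ana_M N) (ana_J N) ∈ T)
    (hJN : algebraMap (ana_ring N) (ana_M N) (symc_JN N) ∈ T)
    (a : ana_ring N) (hinv : ∀ γ ∈ Gamma0 N, ana_comp N γ a = a) :
    algebraMap (ana_ring N) (ana_M N) a ∈ T := by
  have hev : ∀ P : Polynomial ℂ, algebraMap (ana_ring N) (ana_M N) (symc_evJ N P) ∈ T := by
    intro P
    induction P using Polynomial.induction_on' with
    | add p q hp hq =>
      rw [map_add, map_add]
      exact add_mem hp hq
    | monomial n c =>
      rw [← Polynomial.C_mul_X_pow_eq_monomial, map_mul, map_pow, symc_evJ_C, symc_evJ_X, map_mul,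
        map_pow]
      exact mul_mem (hC c) (pow_mem hJ n)
  obtain ⟨B, G, -, -, h⟩ := symc_rel_M N a hinv
  rw [h]
  exact div_mem (sum_mem fun i _ => mul_mem (pow_mem hJN _) (hev _)) (hev _)

end Fermat.Agent.S20
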