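import Mathlib
import Fermat.Agent.S24.SymGen
import Fermat.Agent.S24.DegGen
import Fermat.Agent.S20.SymC
import Fermat.Agent.S20.DictFn

/-!
# S20, packages SYM + INV (part 2): the degree bound for a function field inside `ana_M N`

Generic in the definition of the function field: `F` is any field with `Algebra ℂ F` and a ring
homomorphism `incl : F →+* ana_M N` which is the constants on `ℂ`, with elements `x, u : F` mapping
to `J`, `J_N`, generated over `ℂ` by a set `S` of elements represented by `Γ₀(N)`-invariant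
elements of `ana_ring N`.

* `symc_finite` : `F` is finite over `ℂ(x)` of degree at most `|SL(2,ℤ) ⧸ Γ₀(N)|`;
* `symc_exists_of_inv` : **[S20-INV]** every invariant element of `ana_ring N` comes from `F`;
* `symc_exists_Phi` : `s20_Phi N f` comes from `F`;
* `symc_norm_mem` : the product of the conjugates lies in `ℂ(x)`.
-/

set_option autoImplicit false

noncomputable section

namespace Fermat.Agent.S20

open UpperHalfPlane hiding I
open Filter Function Topology ModularForm Complex CongruenceSubgroup IntermediateField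
open Fermat.Agent.S23 Fermat.Agent.S24
open scoped Manifold MatrixGroups ModularForm Real

variable {N : ℕ} [NeZero N] {F : Type*} [Field F] [Algebra ℂ F]

/-- the image of `P(x)` is `P(J)`. -/
theorem symc_incl_aeval (incl : F →+* ana_M N)
    (hC : ∀ c : ℂ, incl (algebraMap ℂ F c) = algebraMap (ana_ring N) (ana_M N) (ana_const N c))
    (x : F) (hx : incl x = algebraMap (ana_ring N) (ana_M N) (ana_J N)) (P : Polynomial ℂ) :
    incl (Polynomial.aeval x P) = algebraMap (ana_ring N) (ana_M N) (symc_evJ N P) := by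
  have h : incl.comp (Polynomial.aeval x : Polynomial ℂ →ₐ[ℂ] F).toRingHom
      = (algebraMap (ana_ring N) (ana_M N)).comp (symc_evJ N) := by
    apply Polynomial.ringHom_ext
    · intro c
      simp only [RingHom.comp_apply, AlgHom.toRingHom_eq_coe, RingHom.coe_coe, Polynomial.aeval_C,
        symc_evJ_C]
      exact hC c
    · simp only [RingHom.comp_apply, AlgHom.toRingHom_eq_coe, RingHom.coe_coe, Polynomial.aeval_X,
        symc_evJ_X]
      exact hx
  exact congrArg (fun φ => φ P) h

omit [NeZero N] in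
/-- elements of the `ℂ`-algebra generated by invariant holomorphic functions are invariant
holomorphic functions. -/
theorem symc_adjoin_hol (incl : F →+* ana_M N)
    (hC : ∀ c : ℂ, incl (algebraMap ℂ F c) = algebraMap (ana_ring N) (ana_M N) (ana_const N c))
    (S : Set F)
    (hS : ∀ s ∈ S, ∃ s' : ana_ring N, (∀ γ ∈ Gamma0 N, ana_comp N γ s' = s') ∧
      incl s = algebraMap (ana_ring N) (ana_M N) s')
    (a : F) (ha : a ∈ Algebra.adjoin ℂ S) :
    ∃ a' : ana_ring N, (∀ γ ∈ Gamma0 N, ana_comp N γ a' = a') ∧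
      incl a = algebraMap (ana_ring N) (ana_M N) a' := by
  induction ha using Algebra.adjoin_induction with
  | mem s hs => exact hS s hs
  | algebraMap c =>
    exact ⟨ana_const N c, fun γ _ => ana_comp_const N γ c, hC c⟩
  | add a b _ _ ha hb =>
    obtain ⟨a', ha', hia⟩ := ha
    obtain ⟨b', hb', hib⟩ := hb
    refine ⟨a' + b', fun γ hγ => ?_, ?_⟩
    · rw [map_add, ha' γ hγ, hb' γ hγ]
    · rw [map_add, map_add, hia, hib]
  | mul a b _ _ ha hb =>
    obtain ⟨a', ha', hia⟩ := ha
    obtain ⟨b', hb', hib⟩ := hb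
    refine ⟨a' * b', fun γ hγ => ?_, ?_⟩
    · rw [map_mul, ha' γ hγ, hb' γ hγ]
    · rw [map_mul, map_mul, hia, hib]

/-- **[S20-SYM]** the degree bound. -/
theorem symc_finite (incl : F →+* ana_M N)
    (hC : ∀ c : ℂ, incl (algebraMap ℂ F c) = algebraMap (ana_ring N) (ana_M N) (ana_const N c))
    (x u : F) (hx : incl x = algebraMap (ana_ring N) (ana_M N) (ana_J N))
    (hu : incl u = algebraMap (ana_ring N) (ana_M N) (symc_JN N))
    (S : Set F) (hgen : IntermediateField.adjoin ℂ S = ⊤)
    (hS : ∀ s ∈ S, ∃ s' : ana_ring N, (∀ γ ∈ Gamma0 N, ana_comp N γ s' = s') ∧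
      incl s = algebraMap (ana_ring N) (ana_M N) s') :
    FiniteDimensional ℂ⟮x⟯ F ∧ Module.finrank ℂ⟮x⟯ F ≤ Fintype.card (s24Q N) := by
  refine deg_finite x u (Fintype.card (s24Q N)) S hgen ?_
  intro a ha
  obtain ⟨a', hinv, hia⟩ := symc_adjoin_hol incl hC S hS a ha
  obtain ⟨B, G, hB, hrel⟩ := symc_rel N a' hinv
  refine ⟨B, fun i => -G i, ?_, ?_⟩
  · intro h
    have h1 := symc_incl_aeval incl hC x hx B
    rw [h, map_zero] at h1
    exact symc_evJ_ne_zero N hB
      (IsFractionRing.injective (ana_ring N) (ana_M N) (h1.symm.trans (map_zero _).symm))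
  · apply incl.injective
    rw [map_add, map_mul, map_sum, map_zero, symc_incl_aeval incl hC x hx, hia, ← map_mul, hrel,
      map_sum, ← Finset.sum_add_distrib]
    refine Finset.sum_eq_zero fun i _ => ?_
    rw [map_mul, map_pow, map_mul, map_pow, symc_incl_aeval incl hC x hx, hu, map_neg, map_neg,
      mul_neg, add_neg_cancel]

/-- **[S20-INV]**: every `Γ₀(N)`-invariant element of `ana_ring N` comes from `F`. -/
theorem symc_exists_of_inv (incl : F →+* ana_M N)
    (hC : ∀ c : ℂ, incl (algebraMap ℂ F c) = algebraMap (ana_ring N) (ana_M N) (ana_const N c))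
    (x u : F) (hx : incl x = algebraMap (ana_ring N) (ana_M N) (ana_J N))
    (hu : incl u = algebraMap (ana_ring N) (ana_M N) (symc_JN N))
    (a : ana_ring N) (hinv : ∀ γ ∈ Gamma0 N, ana_comp N γ a = a) :
    ∃ h : F, incl h = algebraMap (ana_ring N) (ana_M N) a :=
  symc_inv N incl.fieldRange (fun c => ⟨_, hC c⟩) ⟨x, hx⟩ ⟨u, hu⟩ a hinv

/-- `Φ f = f / DJ` comes from `F`. -/
theorem symc_exists_Phi (incl : F →+* ana_M N)
    (hC : ∀ c : ℂ, incl (algebraMap ℂ F c) = algebraMap (ana_ring N) (ana_M N) (ana_const N c))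
    (x u : F) (hx : incl x = algebraMap (ana_ring N) (ana_M N) (ana_J N))
    (hu : incl u = algebraMap (ana_ring N) (ana_M N) (symc_JN N))
    (f : CuspForm (Gamma0 N) 2) :
    ∃ h : F, incl h = s20_Phi N f := by
  obtain ⟨a, ha⟩ := symc_exists_of_inv incl hC x u hx hu (s20_num N f)
    (fun γ hγ => s20_num_comp f γ hγ)
  refine ⟨-a / (x * (x - algebraMap ℂ F 1728)), ?_⟩
  rw [map_div₀, map_neg, map_mul, map_sub, ha, hx, hC]
  rfl

/-- the product of the conjugates lies in `ℂ(x)`. -/
theorem symc_norm_mem (x : F) [FiniteDimensional ℂ⟮x⟯ F]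
    (hle : Module.finrank ℂ⟮x⟯ F ≤ Fintype.card (s24Q N))
    {M : Type} [Field M] (ρ : s24Q N → (F →+* M))
    (hinj : Function.Injective ρ) (hx : ∀ q q', ρ q x = ρ q' x)
    (hK : ∀ q q' (a : ℂ), ρ q (algebraMap ℂ F a) = ρ q' (algebraMap ℂ F a)) :
    ∀ f : F, ∃ g ∈ ℂ⟮x⟯, ∀ q, ρ q g = ∏ q', ρ q' f :=
  sym_norm_mem x ρ hinj hx hK hle

end Fermat.Agent.S20
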