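import Mathlib
import Fermat.Agent.S20.Inv
import Fermat.Agent.S24.SymGen

/-!
# S20, package [S20-SYM]: the degree of `ℂ(J, J_N)` over `ℂ(J)` and norms (prefix `s20`)

* `s20_finiteDimensional`, `s20_finrank_le`, `s20_finrank_eq`, `s20_norm_mem`.
-/

set_option autoImplicit false

noncomputable section

namespace Fermat.Agent.S20

open UpperHalfPlane hiding I
open Filter Function Topology ModularForm Complex ModularCurve IntermediateField
open scoped Manifold MatrixGroups ModularForm Real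
open Fermat.Agent.S23 Fermat.Agent.S24

section generic

variable {K F : Type*} [Field K] [Field F] [Algebra K F]

/-- A field generated by `x` and `y`, with `y` a root of a nonzero polynomial `P` over `K(x)`, is
finite over `K(x)` of degree at most `deg P`. -/
theorem s20_gen_finite (x y : F) (htop : IntermediateField.adjoin K {x, y} = ⊤)
    (P : Polynomial K⟮x⟯) (hP : P ≠ 0) (hroot : Polynomial.aeval y P = 0) :
    FiniteDimensional K⟮x⟯ F ∧ Module.finrank K⟮x⟯ F ≤ P.natDegree := by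
  have hint : IsIntegral K⟮x⟯ y := isAlgebraic_iff_isIntegral.mp ⟨P, hP, hroot⟩
  have h1 : K⟮x⟯⟮y⟯ = ⊤ := by
    rw [eq_top_iff]
    intro z _
    have hz : z ∈ IntermediateField.adjoin K ({x} ∪ {y} : Set F) := by
      have : ({x} ∪ {y} : Set F) = {x, y} := Set.singleton_union
      rw [this, htop]
      exact IntermediateField.mem_top
    rw [← IntermediateField.adjoin_adjoin_left] at hz
    exact hz
  have hfin : FiniteDimensional K⟮x⟯ K⟮x⟯⟮y⟯ := IntermediateField.adjoin.finiteDimensional hint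
  have hrank : Module.finrank K⟮x⟯ K⟮x⟯⟮y⟯ = (minpoly K⟮x⟯ y).natDegree :=
    IntermediateField.adjoin.finrank hint
  have hdeg : (minpoly K⟮x⟯ y).natDegree ≤ P.natDegree :=
    Polynomial.natDegree_le_natDegree (minpoly.degree_le_of_ne_zero K⟮x⟯ y hP hroot)
  rw [h1] at hfin hrank
  have e : (⊤ : IntermediateField K⟮x⟯ F) ≃ₗ[K⟮x⟯] F :=
    (IntermediateField.topEquiv (F := K⟮x⟯) (E := F)).toLinearEquiv
  refine ⟨Module.Finite.equiv e, ?_⟩
  rw [← e.finrank_eq, hrank]
  exact hdeg

end generic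

/-- `J` and `J_N` generate `s20F N`. -/
theorem s20_adjoin_eq_top (N : ℕ) [NeZero N] :
    IntermediateField.adjoin ℂ {s20J N, s20JN N} = (⊤ : IntermediateField ℂ (s20F N)) := by
  apply IntermediateField.lift_injective (s20Field N)
  rw [IntermediateField.lift_adjoin, IntermediateField.lift_top]
  have h : ((↑) : s20F N → ana_M N) '' {s20J N, s20JN N} = {s20_Jm N, s20_JNm N} := by
    rw [Set.image_pair]
    rfl
  rw [h]
  rfl

/-- `J_N ^ n` is `Γ₀(N)`-invariant. -/
theorem s20_comp_JN_pow (N : ℕ) [NeZero N] (n : ℕ) (γ : SL(2, ℤ))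
    (hγ : γ ∈ CongruenceSubgroup.Gamma0 N) :
    ana_comp N γ (ana_Jd N N dvd_rfl ^ n) = ana_Jd N N dvd_rfl ^ n := by
  rw [map_pow, ana_comp_Jd_of_mem N N dvd_rfl γ hγ]

/-- The coercion `ℂ(J) → ana_M N` on polynomials in `J`. -/
theorem s20_coe_aeval_gen (N : ℕ) [NeZero N] (p : Polynomial ℂ) :
    (((Polynomial.aeval (AdjoinSimple.gen ℂ (s20J N)) p : ℂ⟮s20J N⟯) : s20F N) : ana_M N)
      = algebraMap (ana_ring N) (ana_M N) (Polynomial.aeval (ana_J N) p) := by
  rw [← s20_coe_aeval_J]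
  congr 1
  rw [← IntermediateField.aeval_coe]
  rfl

/-- The polynomial relation of degree `n = [SL(2,ℤ) : Γ₀(N)]` satisfied by `J_N` over `ℂ(J)`. -/
theorem s20_exists_relation (N : ℕ) [NeZero N] :
    ∃ P : Polynomial ℂ⟮s20J N⟯, P ≠ 0 ∧ P.natDegree ≤ Fintype.card (s24Q N) ∧
      Polynomial.aeval (s20JN N) P = 0 := by
  classical
  set n := Fintype.card (s24Q N) with hn
  obtain ⟨B, G, hB, h⟩ := s20_interpolation N (ana_Jd N N dvd_rfl ^ n)
    (fun γ hγ => s20_comp_JN_pow N n γ hγ)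
  set jg : ℂ⟮s20J N⟯ := AdjoinSimple.gen ℂ (s20J N) with hjg
  have hBne : Polynomial.aeval jg B ≠ 0 := by
    intro h0
    apply s20_aeval_J_ne_zero N hB
    apply IsFractionRing.injective (ana_ring N) (ana_M N)
    rw [map_zero, ← s20_coe_aeval_gen, ← hjg, h0]
    rfl
  refine ⟨Polynomial.C (Polynomial.aeval jg B) * Polynomial.X ^ n
      - ∑ i : Fin n, Polynomial.C (Polynomial.aeval jg (G i)) * Polynomial.X ^ (i : ℕ), ?_, ?_, ?_⟩
  · intro h0
    have h1 := congrArg (fun p : Polynomial ℂ⟮s20J N⟯ => p.coeff n) h0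
    simp only [Polynomial.coeff_sub, Polynomial.coeff_C_mul, Polynomial.coeff_X_pow,
      Polynomial.finsetSum_coeff, Polynomial.coeff_zero, if_true, mul_one] at h1
    have h2 : ∑ i : Fin n, Polynomial.aeval jg (G i) * (if n = (i : ℕ) then 1 else 0) = 0 := by
      refine Finset.sum_eq_zero fun i _ => ?_
      rw [if_neg (ne_of_gt i.2), mul_zero]
    rw [h2, sub_zero] at h1
    exact hBne h1
  · refine (Polynomial.natDegree_sub_le _ _).trans (max_le ?_ ?_)
    · exact Polynomial.natDegree_C_mul_X_pow_le _ _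
    · refine Polynomial.natDegree_sum_le_of_forall_le _ _ fun i _ => ?_
      exact (Polynomial.natDegree_C_mul_X_pow_le _ _).trans (le_of_lt i.2)
  · apply Subtype.ext
    have h1 := congrArg (algebraMap (ana_ring N) (ana_M N)) h
    rw [map_mul, map_sum, map_pow] at h1
    simp only [map_sub, map_mul, map_sum, Polynomial.aeval_C, map_pow, Polynomial.aeval_X]
    show ((_ - _ : s20F N) : ana_M N) = ((0 : s20F N) : ana_M N)
    push_cast
    rw [sub_eq_zero]
    have e1 : ((algebraMap ℂ⟮s20J N⟯ (s20F N) (Polynomial.aeval jg B) : s20F N) : ana_M N)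
        = algebraMap (ana_ring N) (ana_M N) (Polynomial.aeval (ana_J N) B) :=
      s20_coe_aeval_gen N B
    have e2 : ∀ i, ((algebraMap ℂ⟮s20J N⟯ (s20F N) (Polynomial.aeval jg (G i)) : s20F N) : ana_M N)
        = algebraMap (ana_ring N) (ana_M N) (Polynomial.aeval (ana_J N) (G i)) :=
      fun i => s20_coe_aeval_gen N (G i)
    have e3 : ((s20JN N : s20F N) : ana_M N)
        = algebraMap (ana_ring N) (ana_M N) (ana_Jd N N dvd_rfl) := rfl
    calc ((algebraMap ℂ⟮s20J N⟯ (s20F N) (Polynomial.aeval jg B) : s20F N) : ana_M N)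
          * ((s20JN N : s20F N) : ana_M N) ^ n
        = algebraMap (ana_ring N) (ana_M N) (Polynomial.aeval (ana_J N) B)
          * algebraMap (ana_ring N) (ana_M N) (ana_Jd N N dvd_rfl) ^ n := by rw [e1, e3]
      _ = _ := h1
      _ = _ := Finset.sum_congr rfl fun i _ => by rw [e2, e3, map_mul, map_pow, mul_comm]

/-- **[S20-SYM]** `ℂ(J, J_N)` is finite over `ℂ(J)`. -/
theorem s20_finiteDimensional (N : ℕ) [NeZero N] : FiniteDimensional ℂ⟮s20J N⟯ (s20F N) := by
  obtain ⟨P, hP, -, hroot⟩ := s20_exists_relation N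
  exact (s20_gen_finite (s20J N) (s20JN N) (s20_adjoin_eq_top N) P hP hroot).1

/-- **[S20-SYM]** the degree is at most the index. -/
theorem s20_finrank_le (N : ℕ) [NeZero N] :
    Module.finrank ℂ⟮s20J N⟯ (s20F N) ≤ Fintype.card (s24Q N) := by
  obtain ⟨P, hP, hdeg, hroot⟩ := s20_exists_relation N
  exact (s20_gen_finite (s20J N) (s20JN N) (s20_adjoin_eq_top N) P hP hroot).2.trans hdeg

/-- **[S20-SYM]** norms. -/
theorem s20_norm_mem (N : ℕ) [NeZero N] (f : s20F N) :
    ∃ g ∈ ℂ⟮s20J N⟯, ∀ q, s20_rho N q g = ∏ q', s20_rho N q' f := by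
  have := s20_finiteDimensional N
  exact sym_norm_mem (s20J N) (s20_rho N) (s20_rho_injective N) (s20_rho_x N) (s20_rho_K N)
    (s20_finrank_le N) f

/-- The degree is the index. -/
theorem s20_finrank_eq (N : ℕ) [NeZero N] :
    Module.finrank ℂ⟮s20J N⟯ (s20F N) = Fintype.card (s24Q N) := by
  have := s20_finiteDimensional N
  exact sym_finrank_eq (s20J N) (s20_rho N) (s20_rho_injective N) (s20_rho_x N) (s20_rho_K N)
    (s20_finrank_le N)

end Fermat.Agent.S20
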