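import Mathlib
import Fermat.Prelude.Def_AlgebraicCurve_Repartitions
import Fermat.Prelude.Def_ModularCurve_GenusNumerics
import Fermat.Agent.S20.RRDefs
import Fermat.Agent.S20.AnaDefs

/-!
# S20, analytic side — SPECIFICATION (statements only, all `sorry`)

Never import this file from a finished module: each package re-proves its statements under the
same names in its own file, namespace `Fermat.Agent.S20`; this file lives in namespace
`Fermat.Agent.S20.Spec`.

Setting (all REAL definitions are in `AnaDefs.lean`): `K = ℂ`, `F = s20F N = ℂ(J, J_N) ⊂ ana_M N`,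
`x = s20J N`, conjugate embeddings `s20_rho N q : s20F N →+* ana_M N`, valuations
`s20_val N τ = (hol_val τ).comap (ana_toMer N)` and `atw_valInfty N` on `ana_M N`.
-/

set_option autoImplicit false

namespace Fermat.Agent.S20.Spec

open Fermat.Agent.S20 Fermat.Agent.S24
open AlgebraicCurve IntermediateField Module UpperHalfPlane ModularCurve
open scoped MatrixGroups

/-! ## [S20-INV] (helper3): invariant functions are in `ℂ(J, J_N)` -/

theorem s20_mem_of_invariant (N : ℕ) [NeZero N] (a : ana_ring N)
    (ha : ∀ γ ∈ CongruenceSubgroup.Gamma0 N, ana_comp N γ a = a) :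
    algebraMap (ana_ring N) (ana_M N) a ∈ s20Field N := sorry

/-! ## [S20-SYM] (helper3): degree and norms -/

theorem s20_transcendental (N : ℕ) [NeZero N] : Transcendental ℂ (s20J N) := sorry

theorem s20_finiteDimensional (N : ℕ) [NeZero N] : FiniteDimensional ℂ⟮s20J N⟯ (s20F N) := sorry

theorem s20_finrank_le (N : ℕ) [NeZero N] :
    Module.finrank ℂ⟮s20J N⟯ (s20F N) ≤ Fintype.card (s24Q N) := sorry

theorem s20_norm_mem (N : ℕ) [NeZero N] (f : s20F N) :
    ∃ g ∈ ℂ⟮s20J N⟯, ∀ q, s20_rho N q g = ∏ q', s20_rho N q' f := sorry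

/-! ## [S20-HUR] (helper4, from the generic `hurw_main` applied to the package of [S20-FC]) -/

theorem s20_hurwitz (N : ℕ) [NeZero N] :
    ∃ W : Divisor ℂ (s20F N), IsDivisorOfD (s20J N) W ∧
      ∃ g : ℕ, (g : ℚ) = genusFormula N ∧ Divisor.degree W = 2 * (g : ℤ) - 2 := sorry

/-! ## [S20-DICT] : cusp forms of weight 2 = `L(W)` -/

theorem s20_dict (N : ℕ) [NeZero N] (W : Divisor ℂ (s20F N)) (hW : IsDivisorOfD (s20J N) W) :
    Module.finrank ℂ (CuspForm (CongruenceSubgroup.Gamma0 N) 2)
      = Module.finrank ℂ (riemannRochSpace W) := sorry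

/-! ## [S20-ASM] -/

theorem s20_main (N : ℕ) [NeZero N] :
    (Module.finrank ℂ (CuspForm (CongruenceSubgroup.Gamma0 N) 2) : ℚ) = genusFormula N := sorry

end Fermat.Agent.S20.Spec
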