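import Fermat.Agent.S20.Place
import Fermat.Agent.S20.HurPkg

/-!
# S20 — the dictionary `S₂(Γ₀(N)) ≃ L(W)`, algebraic half (package DICT-ALG, prefix `dalg_`)

For an analytic package `P : AdPkgG ℂ F x N` whose embedding of constants is the identity:

* `dalg_Reg P h` : `h` has order `≥ -(o_τ - 1)` at every point `τ` of `ℍ` (for every conjugate),
  `o_τ = ord_τ (J - J τ)`, and order `≥ N + 1` at `i∞` (for every conjugate);
* `dalg_mem_iff` : `h ∈ L(W) ↔ dalg_Reg P h` for the divisor `W` of `dx`;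
* `dalg_finrank` : a linear injection `Φ` of the space of cusp forms into `F` whose image is
  `{h | dalg_Reg P h}` gives `dim S₂(Γ₀(N)) = ℓ(W)`.
-/

set_option autoImplicit false

noncomputable section

namespace Fermat.Agent.S20

open AlgebraicCurve IntermediateField WithZero UpperHalfPlane CongruenceSubgroup
open Fermat.Agent.S24
open scoped MatrixGroups

/-- The order of `J - J τ` at `τ` (`1`, `2` or `3`). -/
def dalg_o (τ : ℍ) : ℕ :=
  analyticOrderNatAt (fun z : ℂ => ord_J (ofComplex z) - ord_J τ) (τ : ℂ)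

theorem dalg_o_of_zero {τ : ℍ} (h : ord_J τ = 0) : dalg_o τ = 3 := by
  have h1 := ord_analyticOrderAt_zero τ h
  rw [dalg_o, h]
  simp only [sub_zero]
  exact ad_orderNat_eq h1

theorem dalg_o_of_1728 {τ : ℍ} (h : ord_J τ = 1728) : dalg_o τ = 2 := by
  have h1 := ord_analyticOrderAt_1728 τ h
  rw [dalg_o, h]
  exact ad_orderNat_eq h1

theorem dalg_o_of_generic {τ : ℍ} (h0 : ord_J τ ≠ 0) (h1 : ord_J τ ≠ 1728) : dalg_o τ = 1 :=
  ad_orderNat_eq (ord_analyticOrderAt_generic τ h0 h1)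

theorem dalg_o_pos (τ : ℍ) : 0 < dalg_o τ := by
  by_cases h0 : ord_J τ = 0
  · rw [dalg_o_of_zero h0]; norm_num
  by_cases h1 : ord_J τ = 1728
  · rw [dalg_o_of_1728 h1]; norm_num
  rw [dalg_o_of_generic h0 h1]; norm_num

theorem dalg_o_le (τ : ℍ) : dalg_o τ ≤ 3 := by
  by_cases h0 : ord_J τ = 0
  · rw [dalg_o_of_zero h0]
  by_cases h1 : ord_J τ = 1728
  · rw [dalg_o_of_1728 h1]; norm_num
  rw [dalg_o_of_generic h0 h1]; norm_num

theorem dalg_o_smul (γ : SL(2, ℤ)) (τ : ℍ) : dalg_o (γ • τ) = dalg_o τ := by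
  by_cases h0 : ord_J τ = 0
  · rw [dalg_o_of_zero h0, dalg_o_of_zero (by rw [ord_J_smul]; exact h0)]
  by_cases h1 : ord_J τ = 1728
  · rw [dalg_o_of_1728 h1, dalg_o_of_1728 (by rw [ord_J_smul]; exact h1)]
  rw [dalg_o_of_generic h0 h1,
    dalg_o_of_generic (by rw [ord_J_smul]; exact h0) (by rw [ord_J_smul]; exact h1)]

section

variable {F : Type*} [Field F] [Algebra ℂ F] {x : F} {N : ℕ} [NeZero N]

/-- The regularity conditions of a differential `h dx`, in terms of the analytic package. -/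
def dalg_Reg (P : AdPkgG ℂ F x N) (h : F) : Prop :=
  (∀ (τ : ℍ) (q : s24Q N), P.val τ (P.ρ q h) ≤ exp ((dalg_o τ : ℤ) - 1)) ∧
    ∀ q : s24Q N, P.valInfty (P.ρ q h) ≤ exp (-((N : ℤ) + 1))

variable (P : AdPkgG ℂ F x N) (hι : ∀ c : ℂ, P.ι c = c)

include hι in
theorem dalg_val_sub (τ : ℍ) (q : s24Q N) :
    P.val τ (P.ρ q (x - algebraMap ℂ F (ord_J τ))) = exp (-(dalg_o τ : ℤ)) := by
  rw [P.val_j_sub τ q (ord_J τ), hι]
  rfl

include hι in
/-- `L(W) ⊆ Reg`. -/
theorem dalg_reg_of_mem {W : Divisor ℂ F} (hW : IsDivisorOfD x W) {h : F}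
    (hh : h ∈ riemannRochSpace W) : dalg_Reg P h := by
  refine ⟨fun τ q => ?_, fun q => ?_⟩
  · exact pl_le_of_mem_finite hW ((P.val τ).comap (P.ρ q)) (P.val_K τ q) (ord_J τ)
      (dalg_o_pos τ) (dalg_val_sub P hι τ q) hh
  · exact pl_le_of_mem_infinite hW (P.valInfty.comap (P.ρ q)) (P.valInfty_K q)
      (Nat.pos_of_ne_zero (NeZero.ne N)) (P.valInfty_j q) hh

include hι in
/-- `Reg ⊆ L(W)`; only the conditions at the base points are used. -/
theorem dalg_mem_of_reg (hx : Transcendental ℂ x) [FiniteDimensional ℂ⟮x⟯ F]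
    {W : Divisor ℂ F} (hW : IsDivisorOfD x W) {h : F} (hh : dalg_Reg P h) :
    h ∈ riemannRochSpace W := by
  refine pl_mem_of_le' hx hW (Q := s24Q N) h (fun a => ?_) ?_
  · by_cases h0 : a = 0
    · refine ⟨x, _, 3, adg_data_zero P, by rw [h0, map_zero, sub_zero], fun q => ?_⟩
      have := hh.1 ord_rho q
      rw [dalg_o_of_zero ord_J_rho] at this
      exact this
    by_cases h1 : a = 1728
    · refine ⟨_, _, 2, adg_data_1728 P, by rw [h1], fun q => ?_⟩
      have := hh.1 UpperHalfPlane.I q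
      rw [dalg_o_of_1728 ord_J_I] at this
      exact this
    · refine ⟨_, _, 1, adg_data_generic P a h0 h1, rfl, fun q => ?_⟩
      have hτ₀ : ord_J (ord_J_surjective (P.ι a)).choose = P.ι a :=
        (ord_J_surjective (P.ι a)).choose_spec
      have := hh.1 (ord_J_surjective (P.ι a)).choose q
      rw [dalg_o_of_generic (by rw [hτ₀, hι]; exact h0) (by rw [hτ₀, hι]; exact h1)] at this
      exact this
  · exact ⟨_, N, adg_data_infty P, fun q => hh.2 q⟩

include hι in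
/-- **[DICT-ALG]** `h ∈ L(W) ↔ Reg h`. -/
theorem dalg_mem_iff (hx : Transcendental ℂ x) [FiniteDimensional ℂ⟮x⟯ F]
    {W : Divisor ℂ F} (hW : IsDivisorOfD x W) (h : F) :
    h ∈ riemannRochSpace W ↔ dalg_Reg P h :=
  ⟨dalg_reg_of_mem P hι hW, dalg_mem_of_reg P hι hx hW⟩

include hι in
/-- **[DICT-ALG]** the dimension count. -/
theorem dalg_finrank (hx : Transcendental ℂ x) [FiniteDimensional ℂ⟮x⟯ F]
    {W : Divisor ℂ F} (hW : IsDivisorOfD x W)
    (Φ : CuspForm (Gamma0 N) 2 →ₗ[ℂ] F) (hinj : Function.Injective Φ)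
    (hfwd : ∀ f, dalg_Reg P (Φ f)) (hbwd : ∀ h : F, dalg_Reg P h → ∃ f, Φ f = h) :
    Module.finrank ℂ (CuspForm (Gamma0 N) 2) = Module.finrank ℂ (riemannRochSpace W) := by
  have hmem : ∀ f, Φ f ∈ riemannRochSpace W := fun f =>
    (dalg_mem_iff P hι hx hW (Φ f)).mpr (hfwd f)
  let Ψ : CuspForm (Gamma0 N) 2 →ₗ[ℂ] riemannRochSpace W := Φ.codRestrict _ hmem
  have hΨinj : Function.Injective Ψ := fun f g hfg =>
    hinj (congrArg Subtype.val hfg)
  have hΨsurj : Function.Surjective Ψ := by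
    rintro ⟨h, hh⟩
    obtain ⟨f, hf⟩ := hbwd h ((dalg_mem_iff P hι hx hW h).mp hh)
    exact ⟨f, Subtype.ext hf⟩
  exact (LinearEquiv.ofBijective Ψ ⟨hΨinj, hΨsurj⟩).finrank_eq

end

end Fermat.Agent.S20

end
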