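import Fermat.Agent.S20.DictAlg
import Fermat.Agent.S20.DictFn

/-!
# S20 — the dictionary `dim S₂(Γ₀(N)) = ℓ(W)` (package DICT-MAIN, prefix `dmain_`)

`dmain_dict` : for a function field `F` over `ℂ` embedded in the field `ana_M N` of meromorphic
modular functions of level `N` (`incl`), pointwise fixed by `Γ₀(N)`, containing all `Φ f = f / DJ`
(`f` a cusp form of weight `2`), and an analytic package `P` on `F` whose valuations are the
order functions at the points of `ℍ` and at `i∞` of the conjugates: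
`dim S₂(Γ₀(N)) = dim L(W)` for the divisor `W` of `dx`.

The two analytic inputs on the side of `ℍ` (the order of `DJ`, and the construction of a cusp
form from a regular differential) are taken as hypotheses `hL2`, `hL4`.
-/

set_option autoImplicit false

noncomputable section

namespace Fermat.Agent.S20

open AlgebraicCurve IntermediateField WithZero UpperHalfPlane CongruenceSubgroup ModularForm
open Fermat.Agent.S24
open scoped MatrixGroups

local notation "Δ" => ModularForm.discriminant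

/-- `a * exp (-k) ≤ 1 ↔ a ≤ exp k`. -/
theorem dmain_mul_exp_le_one_iff (a : WithZero (Multiplicative ℤ)) (k : ℤ) :
    a * exp (-k) ≤ 1 ↔ a ≤ exp k := by
  rw [exp_neg, ← div_eq_mul_inv, div_le_iff₀ exp_pos, one_mul]

section

variable {N : ℕ} [NeZero N] {F : Type*} [Field F] [Algebra ℂ F] {x : F}
  (incl : F →+* ana_M N)

/-- The element of `F` with image `Φ f`. -/
def dmain_PhiFun (i5 : ∀ f : CuspForm (Gamma0 N) 2, ∃ h : F, incl h = s20_Phi N f)
    (f : CuspForm (Gamma0 N) 2) : F := (i5 f).choose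

omit [Algebra ℂ F] in
theorem dmain_incl_PhiFun (i5 : ∀ f : CuspForm (Gamma0 N) 2, ∃ h : F, incl h = s20_Phi N f)
    (f : CuspForm (Gamma0 N) 2) : incl (dmain_PhiFun incl i5 f) = s20_Phi N f :=
  (i5 f).choose_spec

/-- `Φ` as a linear map into `F`. -/
def dmain_Phi
    (i1 : ∀ c : ℂ, incl (algebraMap ℂ F c) = algebraMap (ana_ring N) (ana_M N) (ana_const N c))
    (i5 : ∀ f : CuspForm (Gamma0 N) 2, ∃ h : F, incl h = s20_Phi N f) :
    CuspForm (Gamma0 N) 2 →ₗ[ℂ] F where
  toFun := dmain_PhiFun incl i5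
  map_add' f g := by
    apply incl.injective
    rw [map_add, dmain_incl_PhiFun, dmain_incl_PhiFun, dmain_incl_PhiFun, s20_Phi_add]
  map_smul' c f := by
    apply incl.injective
    rw [RingHom.id_apply, Algebra.smul_def, map_mul, dmain_incl_PhiFun, dmain_incl_PhiFun, i1,
      s20_Phi_smul]

theorem dmain_incl_Phi
    (i1 : ∀ c : ℂ, incl (algebraMap ℂ F c) = algebraMap (ana_ring N) (ana_M N) (ana_const N c))
    (i5 : ∀ f : CuspForm (Gamma0 N) 2, ∃ h : F, incl h = s20_Phi N f)
    (f : CuspForm (Gamma0 N) 2) : incl (dmain_Phi incl i1 i5 f) = s20_Phi N f :=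
  dmain_incl_PhiFun incl i5 f

theorem dmain_Phi_injective
    (i1 : ∀ c : ℂ, incl (algebraMap ℂ F c) = algebraMap (ana_ring N) (ana_M N) (ana_const N c))
    (i5 : ∀ f : CuspForm (Gamma0 N) 2, ∃ h : F, incl h = s20_Phi N f) :
    Function.Injective (dmain_Phi incl i1 i5) := by
  intro f g h
  apply s20_Phi_injective (N := N)
  rw [← dmain_incl_Phi incl i1 i5 f, ← dmain_incl_Phi incl i1 i5 g, h]

omit [NeZero N] in
/-- The order of an element of `ana_M N` at `τ`, after translation. -/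
theorem dmain_val_act (τ : ℍ) (g : SL(2, ℤ)) (m : ana_M N) :
    hol_val τ (ana_toMer N (ana_act N g m)) = hol_val (g⁻¹ • τ) (ana_toMer N m) := by
  rw [ana_toMer_act, hol_val_act]

/-- **[S20-DICT]** -/
theorem dmain_dict (P : AdPkgG ℂ F x N) (hι : ∀ c : ℂ, P.ι c = c) (hx : Transcendental ℂ x)
    [FiniteDimensional ℂ⟮x⟯ F]
    (i1 : ∀ c : ℂ, incl (algebraMap ℂ F c) = algebraMap (ana_ring N) (ana_M N) (ana_const N c))
    (i2 : ∀ γ ∈ Gamma0 N, ∀ h : F, ana_act N γ (incl h) = incl h)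
    (i3 : ∀ (τ : ℍ) (g : SL(2, ℤ)) (h : F),
      P.val τ (P.ρ (g : s24Q N) h) = hol_val τ (ana_toMer N (ana_act N g (incl h))))
    (i4 : ∀ (g : SL(2, ℤ)) (h : F),
      P.valInfty (P.ρ (g : s24Q N) h) = atw_valInfty N (ana_act N g (incl h)))
    (i5 : ∀ f : CuspForm (Gamma0 N) 2, ∃ h : F, incl h = s20_Phi N f)
    (DJ : hol_ring) (hDJ : ∀ τ : ℍ, (DJ : ℍ → ℂ) τ = -(E₄ τ ^ 2 * E₆ τ) / Δ τ)
    (hL2 : ∀ τ : ℍ, hol_val τ (algebraMap hol_ring hol_Mer DJ)
      = exp (-((analyticOrderNatAt (fun z : ℂ => ord_J (ofComplex z) - ord_J τ) (τ : ℂ) : ℤ)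
          - 1)))
    (hL4 : ∀ y : ana_M N, (∀ γ ∈ Gamma0 N, ana_act N γ y = y) →
      (∀ τ : ℍ, hol_val τ (ana_toMer N y * algebraMap hol_ring hol_Mer DJ) ≤ 1) →
      (∀ g : SL(2, ℤ), atw_valInfty N (ana_act N g y) ≤ exp (-((N : ℤ) + 1))) →
      ∃ f : CuspForm (Gamma0 N) 2,
        algebraMap hol_ring hol_Mer ⟨⇑f, CuspFormClass.holo f⟩
          = ana_toMer N y * algebraMap hol_ring hol_Mer DJ)
    (W : Divisor ℂ F) (hW : IsDivisorOfD x W) :
    Module.finrank ℂ (CuspForm (Gamma0 N) 2) = Module.finrank ℂ (riemannRochSpace W) := by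
  have hL2' : ∀ τ : ℍ, hol_val τ (algebraMap hol_ring hol_Mer DJ)
      = exp (-((dalg_o τ : ℤ) - 1)) := hL2
  -- the bound at `τ` in terms of `DJ`
  have hkey : ∀ (τ : ℍ) (m : ana_M N),
      hol_val τ (ana_toMer N m * algebraMap hol_ring hol_Mer DJ) ≤ 1
        ↔ hol_val τ (ana_toMer N m) ≤ exp ((dalg_o τ : ℤ) - 1) := by
    intro τ m
    rw [map_mul, hL2', dmain_mul_exp_le_one_iff]
  refine dalg_finrank P hι hx hW (dmain_Phi incl i1 i5) (dmain_Phi_injective incl i1 i5) ?_ ?_
  · -- forward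
    intro f
    refine ⟨fun τ q => ?_, fun q => ?_⟩
    · induction q using QuotientGroup.induction_on with
      | _ g =>
        rw [i3, dmain_incl_Phi, dmain_val_act, ← dalg_o_smul g⁻¹ τ, ← hkey]
        exact s20_Phi_fin f DJ hDJ _
    · induction q using QuotientGroup.induction_on with
      | _ g =>
        rw [i4, dmain_incl_Phi]
        exact s20_Phi_cusp f g
  · -- backward
    intro h hh
    obtain ⟨f, hf⟩ := hL4 (incl h) (fun γ hγ => i2 γ hγ h)
      (fun τ => by
        rw [hkey]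
        have := hh.1 τ ((1 : SL(2, ℤ)) : s24Q N)
        rw [i3, ana_act_one] at this
        exact this)
      (fun g => by
        have := hh.2 ((g : SL(2, ℤ)) : s24Q N)
        rw [i4] at this
        exact this)
    refine ⟨f, ?_⟩
    apply incl.injective
    rw [dmain_incl_Phi]
    exact (s20_Phi_eq_of_spec f (incl h) DJ hDJ hf).symm

end

end Fermat.Agent.S20

end
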