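import Fermat.Agent.S24.Hurwitz
import Fermat.Agent.S20.RRDefs

/-!
# S20 — [S20-HUR]: the divisor of `dx` described by ramification (prefix `hurw_`)

Generic algebra: `W` with `IsDivisorOfD x W` exists as soon as `x` is unramified outside a finite
set `A` of values, and
`deg W = ∑ a ∈ A, (n - #{v | x(v) = a}) - n - #{poles of x}`.
(The proofs are those of `hur_div_dx_apply`, `hur_degree_dx` with `W` in place of the divisor of
the Kähler differential `dx`.)
-/

set_option autoImplicit false

noncomputable section

namespace Fermat.Agent.S20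

open AlgebraicCurve Fermat.Agent.S24

variable {K F : Type*} [Field K] [Field F] [Algebra K F] {x : F} {n : ℕ}

/-- The candidate value of the divisor of `dx` at a place. -/
def hurw_val (x : F) (A : Finset K) (v : Place K F) : ℤ :=
  open scoped Classical in
  (if v.ord x < 0 then v.ord x - 1 else 0) +
    ∑ a ∈ A, (if 0 < v.ord (x - algebraMap K F a)
      then v.ord (x - algebraMap K F a) - 1 else 0)

/-- The candidate value at a pole. -/
theorem hurw_val_pole (h : HurData K F x n) (A : Finset K) (v : Place K F)
    (hp : v.ord x < 0) : hurw_val x A v = v.ord x - 1 := by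
  classical
  rw [hurw_val, if_pos hp]
  have : ∑ a ∈ A, (if 0 < v.ord (x - algebraMap K F a)
        then v.ord (x - algebraMap K F a) - 1 else 0) = 0 := by
    apply Finset.sum_eq_zero
    intro a _
    rw [if_neg]
    intro ha
    exact hur_not_pole_of_zero h v ha hp
  rw [this, add_zero]

/-- The candidate value at a zero of `x - a`. -/
theorem hurw_val_zero (h : HurData K F x n) (A : Finset K)
    (hA : ∀ a : K, a ∉ A → ∀ v : Place K F, 0 < v.ord (x - algebraMap K F a) →
      v.ord (x - algebraMap K F a) = 1) (v : Place K F) (a : K)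
    (ha : 0 < v.ord (x - algebraMap K F a)) :
    hurw_val x A v = v.ord (x - algebraMap K F a) - 1 := by
  classical
  have hp : ¬ v.ord x < 0 := fun hp => hur_not_pole_of_zero h v ha hp
  rw [hurw_val, if_neg hp, zero_add]
  by_cases haA : a ∈ A
  · rw [Finset.sum_eq_single_of_mem a haA, if_pos ha]
    intro b _ hba
    rw [if_neg]
    intro hb
    exact hba (hur_value_unique h v hb ha)
  · rw [hA a haA v ha, sub_self]
    apply Finset.sum_eq_zero
    intro b hb
    rw [if_neg]
    intro hb'
    exact haA (hur_value_unique h v ha hb' ▸ hb)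

/-- A divisor of `dx` has the candidate values. -/
theorem hurw_apply (h : HurData K F x n) (A : Finset K)
    (hA : ∀ a : K, a ∉ A → ∀ v : Place K F, 0 < v.ord (x - algebraMap K F a) →
      v.ord (x - algebraMap K F a) = 1)
    (W : Divisor K F) (hW : IsDivisorOfD x W) (v : Place K F) :
    W v = hurw_val x A v := by
  by_cases hp : v.ord x < 0
  · rw [hW.2 v hp, hurw_val_pole h A v hp]
  · obtain ⟨a, ha⟩ := h.exists_value v (not_lt.mp hp)
    rw [hW.1 v a ha, hurw_val_zero h A hA v a ha]

/-- **Existence** of the divisor of `dx`. -/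
theorem hurw_exists (h : HurData K F x n) (A : Finset K)
    (hA : ∀ a : K, a ∉ A → ∀ v : Place K F, 0 < v.ord (x - algebraMap K F a) →
      v.ord (x - algebraMap K F a) = 1) :
    ∃ W : Divisor K F, IsDivisorOfD x W := by
  classical
  let U : Finset (Place K F) :=
    h.finite_poles.toFinset ∪ A.biUnion (fun a => (h.finite_zeros a).toFinset)
  have hU : ∀ v, hurw_val x A v ≠ 0 → v ∈ U := by
    intro v hv
    by_contra hvU
    apply hv
    rw [hurw_val]
    have h1 : ¬ v.ord x < 0 := fun hp =>
      hvU (Finset.mem_union_left _ ((Set.Finite.mem_toFinset _).mpr hp))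
    rw [if_neg h1, zero_add]
    apply Finset.sum_eq_zero
    intro a ha
    rw [if_neg]
    intro hpos
    exact hvU (Finset.mem_union_right _
      (Finset.mem_biUnion.mpr ⟨a, ha, (Set.Finite.mem_toFinset _).mpr hpos⟩))
  refine ⟨Finsupp.onFinset U (hurw_val x A) hU, ?_, ?_⟩
  · intro v a ha
    rw [Finsupp.onFinset_apply, hurw_val_zero h A hA v a ha]
  · intro v hp
    rw [Finsupp.onFinset_apply, hurw_val_pole h A v hp]

/-- **Hurwitz** for the divisor of `dx` described by ramification. -/
theorem hurw_degree (h : HurData K F x n) (A : Finset K)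
    (hA : ∀ a : K, a ∉ A → ∀ v : Place K F, 0 < v.ord (x - algebraMap K F a) →
      v.ord (x - algebraMap K F a) = 1)
    (W : Divisor K F) (hW : IsDivisorOfD x W) :
    Divisor.degree W
      = ∑ a ∈ A, ((n : ℤ)
            - (Nat.card {v : Place K F // 0 < v.ord (x - algebraMap K F a)} : ℤ))
        - (n : ℤ)
        - (Nat.card {v : Place K F // v.ord x < 0} : ℤ) := by
  classical
  set P : Finset (Place K F) := h.finite_poles.toFinset with hP
  set T : K → Finset (Place K F) := fun a => (h.finite_zeros a).toFinset with hT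
  set U : Finset (Place K F) := P ∪ A.biUnion T with hU
  have hmemP : ∀ v, v ∈ P ↔ v.ord x < 0 := fun v => by
    rw [hP, Set.Finite.mem_toFinset]; rfl
  have hmemT : ∀ a v, v ∈ T a ↔ 0 < v.ord (x - algebraMap K F a) := fun a v => by
    rw [hT]
    simp only [Set.Finite.mem_toFinset]
    rfl
  have hWv : ∀ v, W v = (if v.ord x < 0 then v.ord x - 1 else 0) +
      ∑ a ∈ A, (if 0 < v.ord (x - algebraMap K F a)
        then v.ord (x - algebraMap K F a) - 1 else 0) := by
    intro v
    rw [hurw_apply h A hA W hW v, hurw_val]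
  -- support
  have hsupp : W.support ⊆ U := by
    intro v hv
    rw [Finsupp.mem_support_iff] at hv
    by_contra hvU
    apply hv
    rw [hWv v]
    have h1 : ¬ v.ord x < 0 := fun hp => hvU (Finset.mem_union_left _ ((hmemP v).mpr hp))
    rw [if_neg h1, zero_add]
    apply Finset.sum_eq_zero
    intro a ha
    rw [if_neg]
    intro hpos
    exact hvU (Finset.mem_union_right _ (Finset.mem_biUnion.mpr ⟨a, ha, (hmemT a v).mpr hpos⟩))
  -- degree as a sum over `U`
  have hdeg : Divisor.degree W = ∑ v ∈ U, W v := by
    have h1 : Divisor.degree W = W.sum fun v m => m * (v.deg : ℤ) := by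
      simp [Divisor.degree, Finsupp.liftAddHom_apply]
    rw [h1, Finsupp.sum_of_support_subset W hsupp _ (fun v _ => by simp)]
    refine Finset.sum_congr rfl fun v _ => ?_
    rw [h.deg_one v]
    simp
  rw [hdeg]
  -- expand
  have hexp : ∀ v, W v = (if v ∈ P then v.ord x - 1 else 0) +
      ∑ a ∈ A, (if v ∈ T a then v.ord (x - algebraMap K F a) - 1 else 0) := by
    intro v
    rw [hWv v]
    congr 1
    · by_cases hp : v.ord x < 0
      · rw [if_pos hp, if_pos ((hmemP v).mpr hp)]
      · rw [if_neg hp, if_neg (fun hh => hp ((hmemP v).mp hh))]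
    · refine Finset.sum_congr rfl fun a _ => ?_
      by_cases hp : 0 < v.ord (x - algebraMap K F a)
      · rw [if_pos hp, if_pos ((hmemT a v).mpr hp)]
      · rw [if_neg hp, if_neg (fun hh => hp ((hmemT a v).mp hh))]
  rw [Finset.sum_congr rfl fun v _ => hexp v, Finset.sum_add_distrib, Finset.sum_comm]
  -- the pole part
  have hpole : ∑ v ∈ U, (if v ∈ P then v.ord x - 1 else 0)
      = - (n : ℤ) - (Nat.card {v : Place K F // v.ord x < 0} : ℤ) := by
    rw [← Finset.sum_filter]
    have hfil : U.filter (fun v => v ∈ P) = P := by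
      ext v
      simp only [Finset.mem_filter, hU, Finset.mem_union]
      tauto
    rw [hfil, Finset.sum_sub_distrib]
    have hsp := h.sum_poles
    rw [finsum_mem_eq_finite_toFinset_sum _ h.finite_poles, Finset.sum_neg_distrib] at hsp
    have hcard := hur_card_eq {v : Place K F | v.ord x < 0} h.finite_poles
    simp only [Set.mem_ofPred_eq] at hcard
    rw [hcard]
    simp only [Finset.sum_const, nsmul_eq_mul, mul_one]
    rw [← hP]
    rw [← hP] at hsp
    linarith
  have hzero : ∀ a ∈ A, ∑ v ∈ U, (if v ∈ T a then v.ord (x - algebraMap K F a) - 1 else 0)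
      = (n : ℤ) - (Nat.card {v : Place K F // 0 < v.ord (x - algebraMap K F a)} : ℤ) := by
    intro a ha
    rw [← Finset.sum_filter]
    have hfil : U.filter (fun v => v ∈ T a) = T a := by
      ext v
      simp only [Finset.mem_filter, hU, Finset.mem_union, Finset.mem_biUnion]
      constructor
      · exact fun hh => hh.2
      · exact fun hh => ⟨Or.inr ⟨a, ha, hh⟩, hh⟩
    rw [hfil, Finset.sum_sub_distrib]
    have hsz := h.sum_zeros a
    rw [finsum_mem_eq_finite_toFinset_sum _ (h.finite_zeros a)] at hsz
    have hcard := hur_card_eq {v : Place K F | 0 < v.ord (x - algebraMap K F a)}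
      (h.finite_zeros a)
    simp only [Set.mem_ofPred_eq] at hcard
    rw [hcard]
    simp only [Finset.sum_const, nsmul_eq_mul, mul_one]
    have : T a = (h.finite_zeros a).toFinset := rfl
    rw [← this] at hsz ⊢
    rw [hsz]
  rw [hpole, Finset.sum_congr rfl hzero]
  ring

end Fermat.Agent.S20

end
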