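import Fermat.Agent.S24.Counting
import Fermat.Agent.S24.AlgABasic
import Fermat.Agent.S20.RRDefs

/-!
# S20 — places versus valuations (package PLACE, prefix `pl_`)

The valuation-theoretic half of the dictionary between cusp forms and the Riemann–Roch space of
the divisor `W` of `dx`:

* `pl_exists_place` (P2): a nontrivial `ℤ`-valued valuation of `F`, trivial on `K`, is
  `exp (- m ord_v)` for a place `v` and an integer `m ≥ 1`;
* `pl_exists_of_data` (P1): every place over `y = 0` comes from one of the valuations `w ∘ ρ q`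
  of a `CountingData`, with scale `m`, `m * ord_v y = o`;
* `pl_le_of_mem_finite`, `pl_le_of_mem_infinite` (C1): bounds for the elements of `L(W)` at any
  valuation;
* `pl_mem_of_le` (C2): membership in `L(W)` from bounds at the valuations of counting data.
-/

set_option autoImplicit false

namespace Fermat.Agent.S20

open AlgebraicCurve IntermediateField WithZero Fermat.Agent.S24

section P2

variable {K F : Type*} [Field K] [Field F] [Algebra K F]

/-- (P2) A nontrivial `ℤ`-valued valuation of `F` which is trivial on `K` is a positive multiple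
of the order function of a place. -/
theorem pl_exists_place (u : Valuation F (WithZero (Multiplicative ℤ)))
    (hK : ∀ a : K, a ≠ 0 → u (algebraMap K F a) = 1) (hnt : ∃ f : F, f ≠ 0 ∧ u f ≠ 1) :
    ∃ (v : Place K F) (m : ℤ), 0 < m ∧ ∀ f : F, f ≠ 0 → u f = exp (-(m * v.ord f)) := by
  obtain ⟨m, hm, hu⟩ := ct_exists_scale (ct_placeOf u hK hnt) u (ct_placeOf_isEquiv u hK hnt)
  exact ⟨ct_placeOf u hK hnt, m, hm, hu⟩

/-- (P1) Every place over `y = 0` is the place of one of the valuations `w ∘ ρ q` of a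
`CountingData`; the scale `m` satisfies `m * ord_v y = o`. -/
theorem pl_exists_of_data [Infinite K] {x y : F} {Q : Type} [Fintype Q] [Nonempty Q]
    {r : Setoid Q} {o : ℕ}
    (hy : (∃ a : K, y = x - algebraMap K F a) ∨ y = x⁻¹)
    (d : CountingData K F x y Q r o) (v : Place K F) (hv : 0 < v.ord y) :
    ∃ (q : Q) (m : ℤ), 0 < m ∧ m * v.ord y = o ∧
      ∀ f : F, f ≠ 0 → d.w (d.ρ q f) = exp (-(m * v.ord f)) := by
  obtain ⟨q, rfl⟩ := ct_exists_vq_eq d hy v hv
  obtain ⟨m, hm, hu⟩ := ct_exists_scale (ct_vq d q) (ct_u d q) (ct_vq_isEquiv d q)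
  refine ⟨q, m, hm, ?_, fun f hf => hu f hf⟩
  have h1 := hu y (ct_y_ne_zero d)
  rw [ct_u_y, exp_inj] at h1
  omega

end P2

section C

variable {K F : Type*} [Field K] [Field F] [Algebra K F]

/-- (C1) An element of `L(W)` has order at least `-(o - 1)` for any valuation `u`, trivial on
`K`, with `u (x - a) = exp (-o)`. -/
theorem pl_le_of_mem_finite {x : F} {W : Divisor K F} (hW : IsDivisorOfD x W)
    (u : Valuation F (WithZero (Multiplicative ℤ)))
    (hK : ∀ a : K, a ≠ 0 → u (algebraMap K F a) = 1)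
    (a : K) {o : ℕ} (ho : 0 < o) (hu : u (x - algebraMap K F a) = exp (-(o : ℤ)))
    {h : F} (hh : h ∈ riemannRochSpace W) : u h ≤ exp ((o : ℤ) - 1) := by
  rcases eq_or_ne h 0 with rfl | hh0
  · simp
  have hxa : x - algebraMap K F a ≠ 0 := by
    intro h0
    rw [h0, map_zero] at hu
    exact exp_ne_zero hu.symm
  have hnt : ∃ f : F, f ≠ 0 ∧ u f ≠ 1 := by
    refine ⟨_, hxa, ?_⟩
    rw [hu, ← exp_zero, Ne, exp_inj]
    omega
  obtain ⟨v, m, hm, hv⟩ := pl_exists_place u hK hnt
  have h1 := hv _ hxa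
  rw [hu, exp_inj] at h1
  have he : 0 < v.ord (x - algebraMap K F a) := by
    by_contra hcon
    have : m * v.ord (x - algebraMap K F a) ≤ 0 :=
      mul_nonpos_of_nonneg_of_nonpos hm.le (not_lt.mp hcon)
    omega
  have hWv := hW.1 v a he
  have h2 := (mem_riemannRochSpace_iff.mp hh v).resolve_left hh0
  rw [hv h hh0, exp_le_exp]
  have h3 : m * (v.ord h + (v.ord (x - algebraMap K F a) - 1)) ≥ 0 :=
    mul_nonneg hm.le (by omega)
  have h4 : m * (v.ord h + (v.ord (x - algebraMap K F a) - 1))
      = m * v.ord h + m * v.ord (x - algebraMap K F a) - m := by ring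
  omega

/-- (C1') An element of `L(W)` has order at least `o + 1` for any valuation `u`, trivial on
`K`, with `u x = exp o`, `o ≥ 1`. -/
theorem pl_le_of_mem_infinite {x : F} {W : Divisor K F} (hW : IsDivisorOfD x W)
    (u : Valuation F (WithZero (Multiplicative ℤ)))
    (hK : ∀ a : K, a ≠ 0 → u (algebraMap K F a) = 1)
    {o : ℕ} (ho : 0 < o) (hu : u x = exp (o : ℤ))
    {h : F} (hh : h ∈ riemannRochSpace W) : u h ≤ exp (-((o : ℤ) + 1)) := by
  rcases eq_or_ne h 0 with rfl | hh0
  · simp
  have hx0 : x ≠ 0 := by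
    intro h0
    rw [h0, map_zero] at hu
    exact exp_ne_zero hu.symm
  have hnt : ∃ f : F, f ≠ 0 ∧ u f ≠ 1 := by
    refine ⟨_, hx0, ?_⟩
    rw [hu, ← exp_zero, Ne, exp_inj]
    omega
  obtain ⟨v, m, hm, hv⟩ := pl_exists_place u hK hnt
  have h1 := hv _ hx0
  rw [hu, exp_inj] at h1
  have he : v.ord x < 0 := by
    by_contra hcon
    have : 0 ≤ m * v.ord x := mul_nonneg hm.le (not_lt.mp hcon)
    omega
  have hWv := hW.2 v he
  have h2 := (mem_riemannRochSpace_iff.mp hh v).resolve_left hh0
  rw [hv h hh0, exp_le_exp]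
  have h3 : m * (v.ord h + (v.ord x - 1)) ≥ 0 := mul_nonneg hm.le (by omega)
  have h4 : m * (v.ord h + (v.ord x - 1)) = m * v.ord h + m * v.ord x - m := by ring
  omega

variable [IsAlgClosed K] [CharZero K]

/-- (C2) Membership in `L(W)` from bounds at the valuations of counting data over every point
of the `x`-line (the local parameter `y` of the data over `a` is any element equal to
`x - a`). -/
theorem pl_mem_of_le' {x : F} (hx : Transcendental K x) [FiniteDimensional K⟮x⟯ F]
    {W : Divisor K F} (hW : IsDivisorOfD x W) {Q : Type} [Fintype Q] [Nonempty Q] (h : F)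
    (hfin : ∀ a : K, ∃ (y : F) (r : Setoid Q) (o : ℕ) (d : CountingData K F x y Q r o),
        y = x - algebraMap K F a ∧ ∀ q, d.w (d.ρ q h) ≤ exp ((o : ℤ) - 1))
    (hinf : ∃ (r : Setoid Q) (o : ℕ) (d : CountingData K F x x⁻¹ Q r o),
        ∀ q, d.w (d.ρ q h) ≤ exp (-((o : ℤ) + 1))) :
    h ∈ riemannRochSpace W := by
  have : Infinite K := IsAlgClosed.instInfinite
  rw [mem_riemannRochSpace_iff]
  intro v
  rcases eq_or_ne h 0 with hh0 | hh0
  · exact Or.inl hh0
  right
  rcases lt_or_ge (v.ord x) 0 with hv | hv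
  · -- a pole of `x`
    obtain ⟨r, o, d, hd⟩ := hinf
    have hv' : 0 < v.ord x⁻¹ := by rw [Place.ord_inv]; omega
    obtain ⟨q, m, hm, hmo, hu⟩ := pl_exists_of_data (Or.inr rfl) d v hv'
    have h1 := hd q
    rw [hu h hh0, exp_le_exp, Place.ord_inv] at *
    rw [hW.2 v hv]
    have h3 : m * (v.ord h + v.ord x) ≥ 1 := by
      have : m * (v.ord h + v.ord x) = m * v.ord h - m * (-v.ord x) := by ring
      omega
    have h4 : 0 < v.ord h + v.ord x := by
      by_contra hcon
      have : m * (v.ord h + v.ord x) ≤ 0 :=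
        mul_nonpos_of_nonneg_of_nonpos hm.le (not_lt.mp hcon)
      omega
    omega
  · -- a zero of `x - a`
    obtain ⟨a, ha, -⟩ := alg_exists_value x hx v x hv
    have hv' : 0 < v.ord (x - algebraMap K F a) := by
      rcases ha with ha | ha
      · exact absurd (ha ▸ isAlgebraic_algebraMap (R := K) (A := F) a) hx
      · exact ha
    obtain ⟨y, r, o, d, rfl, hd⟩ := hfin a
    obtain ⟨q, m, hm, hmo, hu⟩ := pl_exists_of_data (Or.inl ⟨a, rfl⟩) d v hv'
    have h1 := hd q
    rw [hu h hh0, exp_le_exp] at h1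
    rw [hW.1 v a hv']
    have h3 : m * (v.ord h + v.ord (x - algebraMap K F a)) ≥ 1 := by
      have : m * (v.ord h + v.ord (x - algebraMap K F a))
          = m * v.ord h + m * v.ord (x - algebraMap K F a) := by ring
      omega
    have h4 : 0 < v.ord h + v.ord (x - algebraMap K F a) := by
      by_contra hcon
      have : m * (v.ord h + v.ord (x - algebraMap K F a)) ≤ 0 :=
        mul_nonpos_of_nonneg_of_nonpos hm.le (not_lt.mp hcon)
      omega
    omega

/-- (C2) Membership in `L(W)` from bounds at the valuations of counting data over every point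
of the `x`-line. -/
theorem pl_mem_of_le {x : F} (hx : Transcendental K x) [FiniteDimensional K⟮x⟯ F]
    {W : Divisor K F} (hW : IsDivisorOfD x W) {Q : Type} [Fintype Q] [Nonempty Q] (h : F)
    (hfin : ∀ a : K, ∃ (r : Setoid Q) (o : ℕ)
      (d : CountingData K F x (x - algebraMap K F a) Q r o),
        ∀ q, d.w (d.ρ q h) ≤ exp ((o : ℤ) - 1))
    (hinf : ∃ (r : Setoid Q) (o : ℕ) (d : CountingData K F x x⁻¹ Q r o),
        ∀ q, d.w (d.ρ q h) ≤ exp (-((o : ℤ) + 1))) :
    h ∈ riemannRochSpace W :=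
  pl_mem_of_le' hx hW h
    (fun a => by
      obtain ⟨r, o, d, hd⟩ := hfin a
      exact ⟨_, r, o, d, rfl, hd⟩) hinf

end C

end Fermat.Agent.S20
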