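import Mathlib
import Fermat.Agent.S20.RRDefs
import Fermat.Agent.S20.RRLin

/-!
# S20, package RR-CHI: the induction over the divisor

`rr_chi_of` : the Euler characteristic formula `χ(D) = χ(0) + deg D` from

* finiteness of `ℓ(0)` and `h¹(0)`,
* `deg v = 1` for every place,
* the one-place steps: `rrLam x (D + v) / rrLam x D` has dimension one for a place `v` with
  `0 ≤ ord_v x`, and `rrLamInf x (D + v) / rrLamInf x D` has dimension one for a pole `v` of `x`.
-/

set_option autoImplicit false
set_option linter.unusedSectionVars false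
set_option linter.style.haveILetI false

noncomputable section

namespace Fermat.Agent.S20

open AlgebraicCurve IntermediateField Module WithZero

variable {K F : Type*} [Field K] [Field F] [Algebra K F]

/-- the Euler characteristic statement at `D`. -/
def RrChiAt (x : F) (D : Divisor K F) : Prop :=
  Module.Finite K ↥(rrLam x D ⊓ rrLamInf x D) ∧
  Module.Finite K (F ⧸ (rrLam x D ⊔ rrLamInf x D)) ∧
  (finrank K ↥(rrLam x D ⊓ rrLamInf x D) : ℤ) - finrank K (F ⧸ (rrLam x D ⊔ rrLamInf x D))
    = (finrank K ↥(rrLam x (0 : Divisor K F) ⊓ rrLamInf x (0 : Divisor K F)) : ℤ)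
      - finrank K (F ⧸ (rrLam x (0 : Divisor K F) ⊔ rrLamInf x (0 : Divisor K F)))
      + Divisor.degree D

theorem rrLam_mono (x : F) {D D' : Divisor K F} (h : D ≤ D') : rrLam x D ≤ rrLam x D' := by
  intro f hf v hv
  exact (hf v hv).trans (exp_le_exp.mpr (h v))

theorem rrLamInf_mono (x : F) {D D' : Divisor K F} (h : D ≤ D') :
    rrLamInf x D ≤ rrLamInf x D' := by
  intro f hf v hv
  exact (hf v hv).trans (exp_le_exp.mpr (h v))

theorem rrci_le_add_single (D : Divisor K F) (v : Place K F) :
    D ≤ D + Finsupp.single v 1 := by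
  intro w
  rw [Finsupp.add_apply]
  have : (0 : ℤ) ≤ Finsupp.single v (1 : ℤ) w := by
    classical
    rw [Finsupp.single_apply]
    split_ifs <;> simp
  linarith

/-- adding a finite place does not change the infinite part. -/
theorem rrLamInf_add_single (x : F) (D : Divisor K F) (v : Place K F) (hv : 0 ≤ v.ord x) :
    rrLamInf x (D + Finsupp.single v 1) = rrLamInf x D := by
  ext f
  refine forall_congr' fun w => imp_congr_right fun hw => ?_
  have hne : v ≠ w := by
    rintro rfl
    omega
  rw [Finsupp.add_apply, Finsupp.single_eq_of_ne' hne, add_zero]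

/-- adding a pole of `x` does not change the finite part. -/
theorem rrLam_add_single (x : F) (D : Divisor K F) (v : Place K F) (hv : v.ord x < 0) :
    rrLam x (D + Finsupp.single v 1) = rrLam x D := by
  ext f
  refine forall_congr' fun w => imp_congr_right fun hw => ?_
  have hne : v ≠ w := by
    rintro rfl
    omega
  rw [Finsupp.add_apply, Finsupp.single_eq_of_ne' hne, add_zero]

theorem rrci_finite_of_finrank_one {M : Type*} [AddCommGroup M] [Module K M]
    (h : finrank K M = 1) : Module.Finite K M :=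
  Module.finite_of_finrank_pos (by omega)

section step

variable (x : F)
  (hdeg : ∀ v : Place K F, v.deg = 1)
  (hA : ∀ (D : Divisor K F) (v : Place K F), 0 ≤ v.ord x →
    finrank K (↥(rrLam x (D + Finsupp.single v 1))
      ⧸ (rrLam x D).submoduleOf (rrLam x (D + Finsupp.single v 1))) = 1)
  (hI : ∀ (D : Divisor K F) (v : Place K F), v.ord x < 0 →
    finrank K (↥(rrLamInf x (D + Finsupp.single v 1))
      ⧸ (rrLamInf x D).submoduleOf (rrLamInf x (D + Finsupp.single v 1))) = 1)

include hdeg hA hI

/-- the Euler characteristic of a pair, as a function of the two subspaces. -/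
theorem rrci_step (D : Divisor K F) (v : Place K F) :
    (Module.Finite K ↥(rrLam x D ⊓ rrLamInf x D) ∧
      Module.Finite K (F ⧸ (rrLam x D ⊔ rrLamInf x D)) ↔
     Module.Finite K ↥(rrLam x (D + Finsupp.single v 1) ⊓ rrLamInf x (D + Finsupp.single v 1)) ∧
      Module.Finite K (F ⧸ (rrLam x (D + Finsupp.single v 1)
        ⊔ rrLamInf x (D + Finsupp.single v 1)))) ∧
    (Module.Finite K ↥(rrLam x D ⊓ rrLamInf x D) →
      Module.Finite K (F ⧸ (rrLam x D ⊔ rrLamInf x D)) →
      (finrank K ↥(rrLam x (D + Finsupp.single v 1) ⊓ rrLamInf x (D + Finsupp.single v 1)) : ℤ)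
        - finrank K (F ⧸ (rrLam x (D + Finsupp.single v 1)
          ⊔ rrLamInf x (D + Finsupp.single v 1)))
      = (finrank K ↥(rrLam x D ⊓ rrLamInf x D) : ℤ)
        - finrank K (F ⧸ (rrLam x D ⊔ rrLamInf x D)) + 1) := by
  rcases le_or_gt 0 (v.ord x) with hv | hv
  · -- a finite place: the first subspace grows
    rw [rrLamInf_add_single x D v hv]
    have hle : rrLam x D ≤ rrLam x (D + Finsupp.single v 1) :=
      rrLam_mono x (rrci_le_add_single D v)
    haveI : Module.Finite K (↥(rrLam x (D + Finsupp.single v 1))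
        ⧸ (rrLam x D).submoduleOf (rrLam x (D + Finsupp.single v 1))) :=
      rrci_finite_of_finrank_one (hA D v hv)
    rw [inf_comm (rrLam x D), sup_comm (rrLam x D), inf_comm (rrLam x (D + Finsupp.single v 1)),
      sup_comm (rrLam x (D + Finsupp.single v 1))]
    refine ⟨⟨fun h => rrl_finite_up _ _ _ hle h.1 h.2,
      fun h => rrl_finite_down _ _ _ hle h.1 h.2⟩, fun h1 h2 => ?_⟩
    rw [rrl_chi _ _ _ hle h1 h2, hA D v hv]
    rfl
  · rw [rrLam_add_single x D v hv]
    have hle : rrLamInf x D ≤ rrLamInf x (D + Finsupp.single v 1) :=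
      rrLamInf_mono x (rrci_le_add_single D v)
    haveI : Module.Finite K (↥(rrLamInf x (D + Finsupp.single v 1))
        ⧸ (rrLamInf x D).submoduleOf (rrLamInf x (D + Finsupp.single v 1))) :=
      rrci_finite_of_finrank_one (hI D v hv)
    refine ⟨⟨fun h => rrl_finite_up _ _ _ hle h.1 h.2,
      fun h => rrl_finite_down _ _ _ hle h.1 h.2⟩, fun h1 h2 => ?_⟩
    rw [rrl_chi _ _ _ hle h1 h2, hI D v hv]
    rfl

theorem rrci_iff (D : Divisor K F) (v : Place K F) :
    RrChiAt x D ↔ RrChiAt x (D + Finsupp.single v 1) := by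
  obtain ⟨hfin, hchi⟩ := rrci_step x hdeg hA hI D v
  have hd : Divisor.degree (D + Finsupp.single v 1) = Divisor.degree D + 1 := by
    rw [map_add, Divisor.degree_single, hdeg v]
    norm_num
  constructor
  · rintro ⟨h1, h2, h3⟩
    obtain ⟨h4, h5⟩ := hfin.mp ⟨h1, h2⟩
    refine ⟨h4, h5, ?_⟩
    rw [hchi h1 h2, h3, hd]
    ring
  · rintro ⟨h4, h5, h6⟩
    obtain ⟨h1, h2⟩ := hfin.mpr ⟨h4, h5⟩
    refine ⟨h1, h2, ?_⟩
    have := hchi h1 h2
    rw [hd] at h6
    linarith

theorem rrci_iff_zsmul (D : Divisor K F) (v : Place K F) (n : ℤ) :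
    RrChiAt x D ↔ RrChiAt x (D + Finsupp.single v n) := by
  induction n using Int.induction_on with
  | zero => rw [Finsupp.single_zero, add_zero]
  | succ n ih =>
    rw [ih, rrci_iff x hdeg hA hI (D + Finsupp.single v (n : ℤ)) v, add_assoc,
      ← Finsupp.single_add]
  | pred n ih =>
    rw [ih, rrci_iff x hdeg hA hI (D + Finsupp.single v (-(n : ℤ) - 1)) v, add_assoc,
      ← Finsupp.single_add]
    have h : (-(n : ℤ) - 1 + 1) = -(n : ℤ) := by ring
    rw [h]

/-- **RR-CHI**, from the one-place steps. -/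
theorem rr_chi_of
    (h0 : Module.Finite K ↥(rrLam x (0 : Divisor K F) ⊓ rrLamInf x (0 : Divisor K F)))
    (h0' : Module.Finite K (F ⧸ (rrLam x (0 : Divisor K F) ⊔ rrLamInf x (0 : Divisor K F))))
    (D : Divisor K F) : RrChiAt x D := by
  classical
  induction D using Finsupp.induction with
  | zero =>
    refine ⟨h0, h0', ?_⟩
    rw [map_zero, add_zero]
  | single_add v n D _ _ ih =>
    rw [add_comm]
    exact (rrci_iff_zsmul x hdeg hA hI D v n).mp ih

end step

end Fermat.Agent.S20

end
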