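import Fermat.Agent.S24.AlgA
import Fermat.Agent.S24.CountingVal
import Fermat.Agent.S20.RRDefs

/-!
# S20 / RR-DICT: the Riemann–Roch conditions define lattices

`K` algebraically closed of characteristic `0`, `F ⊇ K` a field finite over `K(x)`.

* `rrd_lattice_basis`   : a lattice over a PID has a basis which is a basis of the vector space;
* `rrd_aklb_basis`      : a submodule sandwiched between `d B` and `d⁻¹ B` has such a basis;
* `rrd_integral_iff`    : the integral closure of `K[z]` is `rrLam z 0`;
* `rrd_lam_basis`       : `rrLam z D = ⊕ K[z] c_i` for a basis `c` of `F` over `K(z)`.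
-/

set_option autoImplicit false
set_option linter.deprecated false
set_option linter.unusedSectionVars false
set_option linter.unusedVariables false
set_option linter.style.haveILetI false

namespace Fermat.Agent.S20

open Fermat.Agent.S24
open AlgebraicCurve IntermediateField Module Polynomial IsDedekindDomain WithZero
open scoped IntermediateField.algebraAdjoinAdjoin

section lattice

/-- a lattice over a PID has a basis, which is also a basis of the ambient vector space. -/
theorem rrd_lattice_basis {A L V : Type*} [CommRing A] [IsDomain A] [IsPrincipalIdealRing A]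
    [Field L] [Algebra A L] [IsFractionRing A L] [AddCommGroup V] [Module A V] [Module L V]
    [IsScalarTower A L V] [FiniteDimensional L V] (M : Submodule A V)
    [Submodule.IsLattice L M] :
    ∃ b : Basis (Fin (finrank L V)) L V,
      ∀ f : V, f ∈ M ↔ ∀ i, b.repr f i ∈ (algebraMap A L).range := by
  haveI : Module.Free A M := Submodule.IsLattice.free (K := L) M
  have hrank : Module.rank A M = Module.rank L V := Submodule.IsLattice.rank' L M
  have hfin : finrank A M = finrank L V := by
    unfold Module.finrank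
    rw [hrank]
  let b₀ : Basis (Fin (finrank L V)) A M := Module.finBasisOfFinrankEq A M hfin
  refine ⟨b₀.extendOfIsLattice L, fun f => ⟨fun hf i => ?_, fun h => ?_⟩⟩
  · have h1 : ∑ i, (algebraMap A L (b₀.repr ⟨f, hf⟩ i)) • (b₀.extendOfIsLattice L) i = f := by
      have h2 := b₀.sum_repr ⟨f, hf⟩
      have h3 := congrArg Subtype.val h2
      simp only [Submodule.coe_sum, Submodule.coe_smul] at h3
      refine (Finset.sum_congr rfl fun i _ => ?_).trans h3
      rw [Basis.extendOfIsLattice_apply, algebraMap_smul]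
    refine ⟨b₀.repr ⟨f, hf⟩ i, ?_⟩
    have h4 := congrArg (fun g => (b₀.extendOfIsLattice L).repr g i) h1
    simp only [map_sum, map_smul, Basis.repr_self, Finsupp.smul_single, smul_eq_mul,
      mul_one] at h4
    rw [← h4, Finset.sum_apply']
    simp [Finsupp.single_apply]
  · choose a ha using h
    have h1 : f = ∑ i, (b₀.extendOfIsLattice L).repr f i • (b₀.extendOfIsLattice L) i :=
      ((b₀.extendOfIsLattice L).sum_repr f).symm
    rw [h1]
    refine Submodule.sum_mem _ fun i _ => ?_
    rw [← ha i, Basis.extendOfIsLattice_apply, algebraMap_smul]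
    exact M.smul_mem _ (b₀ i).2

/-- a spanning submodule which is mapped into a finitely generated one by a homothety is a
lattice. -/
theorem rrd_isLattice_of_sandwich {A L V : Type*} [CommRing A] [IsDomain A]
    [IsNoetherianRing A]
    [Field L] [Algebra A L] [IsFractionRing A L] [AddCommGroup V] [Module A V] [Module L V]
    [IsScalarTower A L V] (M N : Submodule A V) (hN : N.FG) (d : A) (hd : d ≠ 0)
    (h1 : ∀ f ∈ M, d • f ∈ N) (hspan : Submodule.span L (M : Set V) = ⊤) :
    Submodule.IsLattice L M := by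
  refine ⟨?_, hspan⟩
  have hinj : Function.Injective (LinearMap.lsmul A V d) := by
    intro f g hfg
    have h : d • f = d • g := hfg
    rw [← algebraMap_smul L d f, ← algebraMap_smul L d g] at h
    have hd' : algebraMap A L d ≠ 0 := by
      rw [ne_eq, map_eq_zero_iff _ (IsFractionRing.injective A L)]
      exact hd
    exact smul_right_injective V hd' h
  apply Submodule.fg_of_fg_map_injective (LinearMap.lsmul A V d) hinj
  refine Submodule.FG.of_le hN ?_
  rintro _ ⟨f, hf, rfl⟩
  exact h1 f hf

/-- `AKLB` with `A` a PID and `B` finite over `A`: an `A`-submodule `M` of `F` with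
`d M ⊆ B` and `d B ⊆ M` is free on an `L`-basis of `F`. -/
theorem rrd_aklb_basis {F : Type*} [Field F]
    {A : Type*} (L B : Type*) [CommRing A] [IsDomain A] [IsPrincipalIdealRing A]
    [Field L] [Algebra A L] [IsFractionRing A L] [Algebra L F] [Algebra A F]
    [IsScalarTower A L F] [CommRing B] [Algebra A B] [Algebra B F] [IsScalarTower A B F]
    [Module.Finite A B] [IsIntegralClosure B A F] [FiniteDimensional L F]
    (M : Submodule A F) (d : A) (hd : d ≠ 0)
    (h1 : ∀ f ∈ M, ∃ b : B, algebraMap B F b = d • f)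
    (h2 : ∀ b : B, d • algebraMap B F b ∈ M) :
    ∃ c : Basis (Fin (finrank L F)) L F,
      ∀ f : F, f ∈ M ↔ ∀ i, c.repr f i ∈ (algebraMap A L).range := by
  classical
  have hN : (LinearMap.range (IsScalarTower.toAlgHom A B F).toLinearMap).FG := by
    rw [LinearMap.range_eq_map]
    exact Submodule.FG.map _ Module.Finite.fg_top
  have hsandwich : ∀ f ∈ M, d • f ∈ LinearMap.range (IsScalarTower.toAlgHom A B F).toLinearMap :=
      fun f hf => by
    obtain ⟨b, hb⟩ := h1 f hf
    exact ⟨b, hb⟩
  have halg : Algebra.IsAlgebraic A F := by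
    haveI : Algebra.IsAlgebraic A L := IsLocalization.isAlgebraic _ (nonZeroDivisors A)
    haveI : Algebra.IsAlgebraic L F := Algebra.IsAlgebraic.of_finite L F
    exact Algebra.IsAlgebraic.trans A L F
  have hspan : Submodule.span L (M : Set F) = ⊤ := by
    rw [eq_top_iff]
    intro g _
    obtain ⟨a, ha, hint⟩ := (Algebra.IsAlgebraic.isAlgebraic (R := A) g).exists_integral_multiple
    obtain ⟨b, hb⟩ := (IsIntegralClosure.isIntegral_iff (A := B)).mp hint
    have hmem : (d * a) • g ∈ M := by
      rw [mul_smul, ← hb]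
      exact h2 b
    have hda : algebraMap A L (d * a) ≠ 0 := by
      rw [ne_eq, map_eq_zero_iff _ (IsFractionRing.injective A L)]
      exact mul_ne_zero hd ha
    have hg : g = (algebraMap A L (d * a))⁻¹ • ((d * a) • g) := by
      rw [← algebraMap_smul L (d * a) g, smul_smul, inv_mul_cancel₀ hda, one_smul]
    rw [hg]
    exact Submodule.smul_mem _ _ (Submodule.subset_span hmem)
  haveI := rrd_isLattice_of_sandwich M _ hN d hd hsandwich hspan
  exact rrd_lattice_basis M

end lattice

section places

variable {K F : Type*} [Field K] [Field F] [Algebra K F]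

theorem rrd_adjoin_mem (z : F) (v : Place K F) (hv : 0 ≤ v.ord z) {a : F}
    (ha : a ∈ Algebra.adjoin K ({z} : Set F)) : a ∈ v.toValuationSubring := by
  have h : Algebra.adjoin K ({z} : Set F) ≤ alga_subalgebra v :=
    Algebra.adjoin_le (by
      intro t ht
      rw [Set.mem_singleton_iff] at ht
      rw [ht]
      exact alga_mem_of_ord_nonneg v hv)
  exact h ha

theorem rrd_adjoin_val_le (z : F) (v : Place K F) (hv : 0 ≤ v.ord z) {a : F}
    (ha : a ∈ Algebra.adjoin K ({z} : Set F)) : v.adicValuation a ≤ 1 :=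
  (ct_adic_le_one_iff_mem v a).2 (rrd_adjoin_mem z v hv ha)

theorem rrd_adjoin_ord_nonneg (z : F) (v : Place K F) (hv : 0 ≤ v.ord z) {a : F}
    (ha : a ∈ Algebra.adjoin K ({z} : Set F)) : 0 ≤ v.ord a :=
  alga_ord_nonneg_of_mem v (rrd_adjoin_mem z v hv ha)

/-- `rrLam z D` as a module over `K[z]`. -/
def rrd_lamA (z : F) (D : Divisor K F) : Submodule (Algebra.adjoin K ({z} : Set F)) F where
  carrier := {f | ∀ v : Place K F, 0 ≤ v.ord z → v.adicValuation f ≤ exp (D v)}
  zero_mem' := by
    intro v _
    simp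
  add_mem' := by
    intro f g hf hg v hv
    exact (Valuation.map_add _ _ _).trans (max_le (hf v hv) (hg v hv))
  smul_mem' := by
    intro c f hf v hv
    show v.adicValuation (c • f) ≤ exp (D v)
    rw [Algebra.smul_def, map_mul]
    exact (mul_le_of_le_one_left' (rrd_adjoin_val_le z v hv c.2)).trans (hf v hv)

theorem rrd_mem_lamA {z : F} {D : Divisor K F} {f : F} :
    f ∈ rrd_lamA z D ↔ f ∈ rrLam z D := Iff.rfl

/-- an element of `F` which lies in the valuation ring of every height one prime of a Dedekind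
domain `B` with fraction field `F` lies in `B`. -/
theorem rrd_mem_range_of_forall {B : Type*} [CommRing B] [IsDedekindDomain B] [Algebra B F]
    [IsFractionRing B F] [Algebra K B] [IsScalarTower K B F] (f : F)
    (h : ∀ w : HeightOneSpectrum B,
      f ∈ (Place.ofHeightOneSpectrum (K := K) (F := F) w).toValuationSubring) :
    f ∈ (algebraMap B F).range :=
  HeightOneSpectrum.mem_integers_of_valuation_le_one F f
    (fun w => (algad_mem_iff (K := K) w f).1 (h w))

theorem rrd_range_mem {B : Type*} [CommRing B] [IsDedekindDomain B] [Algebra B F]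
    [IsFractionRing B F] [Algebra K B] [IsScalarTower K B F] (w : HeightOneSpectrum B) (b : B) :
    algebraMap B F b ∈ (Place.ofHeightOneSpectrum (K := K) (F := F) w).toValuationSubring := by
  rw [algad_mem_iff]
  exact w.valuation_le_one b

end places

section dict

variable {K F : Type*} [Field K] [Field F] [Algebra K F] [IsAlgClosed K] [CharZero K]

/-- [C1] the integral closure of `K[z]` in `F` is `rrLam z 0`. -/
theorem rrd_integral_iff (x : F) [FiniteDimensional K⟮x⟯ F] (z : F) (hz : Transcendental K z)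
    (f : F) :
    IsIntegral (Algebra.adjoin K ({z} : Set F)) f ↔ f ∈ rrLam z (0 : Divisor K F) := by
  classical
  have hDed : IsDedekindDomain (Algebra.adjoin K ({z} : Set F)) := algaz_isDedekindDomain z hz
  have hfin : FiniteDimensional K⟮z⟯ F := alga_finiteDimensional_of_transcendental x z hz
  have hchar : CharZero K⟮z⟯ := charZero_of_injective_algebraMap (algebraMap K K⟮z⟯).injective
  have hsep : Algebra.IsSeparable K⟮z⟯ F := inferInstance
  have hDedB : IsDedekindDomain (integralClosure (Algebra.adjoin K ({z} : Set F)) F) :=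
    integralClosure.isDedekindDomain (Algebra.adjoin K ({z} : Set F)) K⟮z⟯ F
  have hFracB : IsFractionRing (integralClosure (Algebra.adjoin K ({z} : Set F)) F) F :=
    integralClosure.isFractionRing_of_finite_extension K⟮z⟯ F
  have hFinB : Module.Finite (Algebra.adjoin K ({z} : Set F))
      (integralClosure (Algebra.adjoin K ({z} : Set F)) F) :=
    IsIntegralClosure.finite (Algebra.adjoin K ({z} : Set F)) K⟮z⟯ F
      (integralClosure (Algebra.adjoin K ({z} : Set F)) F)
  constructor
  · intro hf v hv
    have h1 := algad_integral_mem (K := K) (F := F) (A := Algebra.adjoin K ({z} : Set F))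
      (B := integralClosure (Algebra.adjoin K ({z} : Set F)) F) v
      (fun a => rrd_adjoin_mem z v hv a.2) ⟨f, hf⟩
    have h2 : f ∈ v.toValuationSubring := h1
    have h3 := (ct_adic_le_one_iff_mem v f).2 h2
    simpa using h3
  · intro hf
    have h1 := rrd_mem_range_of_forall (K := K) (F := F)
      (B := integralClosure (Algebra.adjoin K ({z} : Set F)) F) f (fun w => ?_)
    · obtain ⟨b, hb⟩ := h1
      rw [← hb]
      exact b.2
    · have hzint : IsIntegral (Algebra.adjoin K ({z} : Set F)) z :=
        isIntegral_algebraMap (x := algaz_gen (K := K) z)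
      have hzmem := rrd_range_mem (K := K) (F := F) w
        (⟨z, hzint⟩ : integralClosure (Algebra.adjoin K ({z} : Set F)) F)
      have hz0 : 0 ≤ (Place.ofHeightOneSpectrum (K := K) (F := F) w).ord z :=
        alga_ord_nonneg_of_mem _ hzmem
      have h2 := hf _ hz0
      rw [← ct_adic_le_one_iff_mem]
      simpa using h2

/-- the value of `z` at a place where it is regular. -/
theorem rrd_exists_val (x : F) [FiniteDimensional K⟮x⟯ F] (z : F) (hz : Transcendental K z)
    (v : Place K F) (hv : 0 ≤ v.ord z) : ∃ a : K, 0 < v.ord (z - algebraMap K F a) := by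
  obtain ⟨a, ha⟩ := alga_exists_sub_mem x v (alga_mem_of_ord_nonneg v hv)
  rcases ha with ha | ha
  · exact absurd (ha ▸ isAlgebraic_algebraMap a) hz
  · exact ⟨a, ha⟩

omit [IsAlgClosed K] [CharZero K] in
theorem rrd_aeval_ne_zero {z : F} (hz : Transcendental K z) {p : K[X]} (hp : p ≠ 0) :
    aeval z p ≠ 0 := fun h => hz ⟨p, hp, h⟩

omit [IsAlgClosed K] [CharZero K] in
theorem rrd_ord_aeval_nonneg (z : F) (v : Place K F) (hv : 0 ≤ v.ord z) (p : K[X]) :
    0 ≤ v.ord (aeval z p) :=
  rrd_adjoin_ord_nonneg z v hv (aeval_mem_adjoin_singleton K z)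

/-- a polynomial in `z` vanishing to order `≥ m` at the places of `S` where `z` is regular, with
zeros only at (the values of `z` at) places of `S`. -/
theorem rrd_exists_clear (x : F) [FiniteDimensional K⟮x⟯ F] (z : F) (hz : Transcendental K z)
    (S : Finset (Place K F)) (m : ℕ) :
    ∃ p : K[X], p ≠ 0 ∧ (∀ v ∈ S, 0 ≤ v.ord z → (m : ℤ) ≤ v.ord (aeval z p)) ∧
      ∀ a : K, p.IsRoot a → ∃ v ∈ S, 0 < v.ord (z - algebraMap K F a) := by
  classical
  induction S using Finset.induction_on with
  | empty =>
    refine ⟨1, one_ne_zero, fun v hv => absurd hv (Finset.notMem_empty v), fun a ha => ?_⟩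
    simp at ha
  | insert v S hvS ih =>
    obtain ⟨p, hp0, hp1, hp2⟩ := ih
    by_cases hv : 0 ≤ v.ord z
    · obtain ⟨a, ha⟩ := rrd_exists_val x z hz v hv
      have hq0 : (X - C a : K[X]) ^ m ≠ 0 := pow_ne_zero _ (X_sub_C_ne_zero a)
      refine ⟨(X - C a) ^ m * p, mul_ne_zero hq0 hp0, fun w hw hwz => ?_, fun b hb => ?_⟩
      · rw [map_mul, w.ord_mul (rrd_aeval_ne_zero hz hq0) (rrd_aeval_ne_zero hz hp0)]
        have h1 := rrd_ord_aeval_nonneg z w hwz ((X - C a) ^ m)
        have h2 := rrd_ord_aeval_nonneg z w hwz p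
        rcases Finset.mem_insert.1 hw with rfl | hw'
        · have h3 : w.ord (aeval z ((X - C a : K[X]) ^ m)) = m * w.ord (z - algebraMap K F a) := by
            rw [map_pow, map_sub, aeval_X, aeval_C, ← zpow_natCast, w.ord_zpow]
          rw [h3]
          nlinarith
        · have := hp1 w hw' hwz
          omega
      · rw [IsRoot.def, eval_mul, mul_eq_zero] at hb
        rcases hb with hb | hb
        · have hba : b = a := by
            rw [eval_pow] at hb
            have h4 := eq_zero_of_pow_eq_zero hb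
            rw [eval_sub, eval_X, eval_C, sub_eq_zero] at h4
            exact h4
          exact ⟨v, Finset.mem_insert_self v S, hba ▸ ha⟩
        · obtain ⟨w, hw, hwb⟩ := hp2 b hb
          exact ⟨w, Finset.mem_insert_of_mem hw, hwb⟩
    · refine ⟨p, hp0, fun w hw hwz => ?_, fun b hb => ?_⟩
      · rcases Finset.mem_insert.1 hw with rfl | hw'
        · exact absurd hwz hv
        · exact hp1 w hw' hwz
      · obtain ⟨w, hw, hwb⟩ := hp2 b hb
        exact ⟨w, Finset.mem_insert_of_mem hw, hwb⟩

omit [IsAlgClosed K] [CharZero K] in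
/-- pointwise: multiplication by `d` shifts the Riemann–Roch condition. -/
theorem rrd_ord_mul_le (v : Place K F) {d f : F} {n n' : ℤ} (hd : d = 0 ∨ n' - n ≤ v.ord d)
    (hf : f = 0 ∨ -n' ≤ v.ord f) : d * f = 0 ∨ -n ≤ v.ord (d * f) := by
  rcases eq_or_ne d 0 with rfl | hd0
  · left; exact zero_mul _
  rcases eq_or_ne f 0 with rfl | hf0
  · left; exact mul_zero _
  right
  rw [v.ord_mul hd0 hf0]
  have h1 := hd.resolve_left hd0
  have h2 := hf.resolve_left hf0
  omega

omit [IsAlgClosed K] [CharZero K] in
theorem rrd_natAbs_le_sum (D : Divisor K F) (v : Place K F) :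
    ((D v).natAbs : ℤ) ≤ ((∑ w ∈ D.support, (D w).natAbs : ℕ) : ℤ) := by
  classical
  by_cases hv : v ∈ D.support
  · exact_mod_cast Finset.single_le_sum (f := fun w => (D w).natAbs) (fun _ _ => Nat.zero_le _) hv
  · rw [Finsupp.notMem_support_iff] at hv
    rw [hv, Int.natAbs_zero, Nat.cast_zero]
    exact Int.natCast_nonneg _

/-- the common denominator of `rrLam z D`. -/
theorem rrd_exists_denominator (x : F) [FiniteDimensional K⟮x⟯ F] (z : F)
    (hz : Transcendental K z) (D : Divisor K F) :
    ∃ p : K[X], p ≠ 0 ∧ ∀ v : Place K F, 0 ≤ v.ord z → ((D v).natAbs : ℤ) ≤ v.ord (aeval z p) := by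
  classical
  obtain ⟨p, hp0, hp1, -⟩ := rrd_exists_clear x z hz D.support (∑ w ∈ D.support, (D w).natAbs)
  refine ⟨p, hp0, fun v hv => ?_⟩
  by_cases hvD : v ∈ D.support
  · exact (rrd_natAbs_le_sum D v).trans (hp1 v hvD hv)
  · rw [Finsupp.notMem_support_iff] at hvD
    rw [hvD]
    simpa using rrd_ord_aeval_nonneg z v hv p

/-- [RR-DICT, generic chart] `rrLam z D = ⊕ K[z] c_i` for a `K(z)`-basis `c` of `F`. -/
theorem rrd_lam_basis (x : F) [FiniteDimensional K⟮x⟯ F] (z : F) (hz : Transcendental K z)
    (D : Divisor K F) :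
    ∃ c : Basis (Fin (finrank K⟮z⟯ F)) K⟮z⟯ F, ∀ f : F,
      f ∈ rrLam z D ↔ ∀ i, ((c.repr f i : K⟮z⟯) : F) ∈ Algebra.adjoin K ({z} : Set F) := by
  classical
  have hPID : IsPrincipalIdealRing (Algebra.adjoin K ({z} : Set F)) :=
    algaz_isPrincipalIdealRing z hz
  have hDed : IsDedekindDomain (Algebra.adjoin K ({z} : Set F)) := algaz_isDedekindDomain z hz
  have hfin : FiniteDimensional K⟮z⟯ F := alga_finiteDimensional_of_transcendental x z hz
  have hchar : CharZero K⟮z⟯ := charZero_of_injective_algebraMap (algebraMap K K⟮z⟯).injective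
  have hsep : Algebra.IsSeparable K⟮z⟯ F := inferInstance
  have hFinB : Module.Finite (Algebra.adjoin K ({z} : Set F))
      (integralClosure (Algebra.adjoin K ({z} : Set F)) F) :=
    IsIntegralClosure.finite (Algebra.adjoin K ({z} : Set F)) K⟮z⟯ F
      (integralClosure (Algebra.adjoin K ({z} : Set F)) F)
  obtain ⟨p, hp0, hp⟩ := rrd_exists_denominator x z hz D
  have hd0 : aeval z p ≠ 0 := rrd_aeval_ne_zero hz hp0
  have hdmem : aeval z p ∈ Algebra.adjoin K ({z} : Set F) := aeval_mem_adjoin_singleton K z
  have hd : (⟨aeval z p, hdmem⟩ : Algebra.adjoin K ({z} : Set F)) ≠ 0 := by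
    intro h
    exact hd0 (congrArg Subtype.val h)
  have h1 : ∀ f ∈ rrd_lamA z D, ∃ b : integralClosure (Algebra.adjoin K ({z} : Set F)) F,
      algebraMap (integralClosure (Algebra.adjoin K ({z} : Set F)) F) F b
        = (⟨aeval z p, hdmem⟩ : Algebra.adjoin K ({z} : Set F)) • f := by
    intro f hf
    have hf' : f ∈ rrLam z D := hf
    have h3 : aeval z p * f ∈ rrLam z (0 : Divisor K F) := by
      rw [mem_rrLam_iff] at hf' ⊢
      intro v hv
      refine rrd_ord_mul_le v (n' := D v) (Or.inr ?_) (hf' v hv)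
      have := hp v hv
      simp only [Finsupp.coe_zero, Pi.zero_apply]
      omega
    exact ⟨⟨aeval z p * f, (rrd_integral_iff x z hz _).2 h3⟩, rfl⟩
  have h2 : ∀ b : integralClosure (Algebra.adjoin K ({z} : Set F)) F,
      (⟨aeval z p, hdmem⟩ : Algebra.adjoin K ({z} : Set F)) •
        algebraMap (integralClosure (Algebra.adjoin K ({z} : Set F)) F) F b ∈ rrd_lamA z D := by
    intro b
    have hb : (b : F) ∈ rrLam z (0 : Divisor K F) := (rrd_integral_iff x z hz _).1 b.2
    show aeval z p * (b : F) ∈ rrLam z D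
    rw [mem_rrLam_iff] at hb ⊢
    intro v hv
    refine rrd_ord_mul_le v (n' := (0 : Divisor K F) v) (Or.inr ?_) (hb v hv)
    have := hp v hv
    simp only [Finsupp.coe_zero, Pi.zero_apply]
    omega
  obtain ⟨c, hc⟩ := rrd_aklb_basis (F := F) K⟮z⟯
    (integralClosure (Algebra.adjoin K ({z} : Set F)) F) (rrd_lamA z D) _ hd h1 h2
  refine ⟨c, fun f => ?_⟩
  rw [← rrd_mem_lamA, hc f]
  refine forall_congr' fun i => ⟨?_, fun h => ⟨⟨_, h⟩, Subtype.ext rfl⟩⟩
  rintro ⟨a, ha⟩
  rw [← ha]
  exact a.2

omit [IsAlgClosed K] [CharZero K] in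
theorem rrd_mem_adjoin_gen_iff (x : F) (r : K⟮x⟯) :
    r ∈ Algebra.adjoin K ({AdjoinSimple.gen K x} : Set K⟮x⟯)
      ↔ (r : F) ∈ Algebra.adjoin K ({x} : Set F) := by
  have h1 : (Algebra.adjoin K ({AdjoinSimple.gen K x} : Set K⟮x⟯)).map K⟮x⟯.val
      = Algebra.adjoin K ({x} : Set F) := by
    rw [AlgHom.map_adjoin, Set.image_singleton]
    rfl
  rw [← h1, Subalgebra.mem_map]
  constructor
  · intro h
    exact ⟨r, h, rfl⟩
  · rintro ⟨r', hr', h⟩
    have : r' = r := Subtype.ext h
    rw [← this]
    exact hr'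

/-- [RR-DICT] the finite part is an `A`-lattice. -/
theorem rr_lam_isLattice (x : F) (hx : Transcendental K x) [FiniteDimensional K⟮x⟯ F]
    (B : NfBase K K⟮x⟯) (hB : RrBaseFor x B) (D : Divisor K F) :
    ∃ b : Basis (Fin (finrank K⟮x⟯ F)) K⟮x⟯ F, rrLam x D = B.latA b := by
  obtain ⟨c, hc⟩ := rrd_lam_basis x x hx D
  refine ⟨c, ?_⟩
  ext f
  rw [hc f, NfBase.mem_latA, hB.2]
  exact forall_congr' fun i => (rrd_mem_adjoin_gen_iff x _).symm

end dict

end Fermat.Agent.S20
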