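import Mathlib
import Fermat.Agent.S20.RRAsm
import Fermat.Agent.S20.RRDictInf
import Fermat.Agent.S20.RRChiInd

/-!
# S20, Riemann–Roch: finiteness at `D = 0`, and RR-CHI from the colength-one steps

* `rr_finite_zero` : `ℓ(0)` and `h¹(0)` are finite (from `nf_duality` and RR-DICT at `D = 0`);
* `rr_chi_of_colength` : the Spec statement `rr_chi` from the two colength-one statements.
-/

set_option autoImplicit false
set_option linter.unusedSectionVars false
set_option linter.style.haveILetI false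

noncomputable section

namespace Fermat.Agent.S20

open AlgebraicCurve IntermediateField Module

variable {K F : Type*} [Field K] [Field F] [Algebra K F] [IsAlgClosed K] [CharZero K]

/-- finiteness at `D = 0` from `nf_duality`. -/
theorem rr_finite_zero (x : F) (hx : Transcendental K x) [FiniteDimensional K⟮x⟯ F] :
    Module.Finite K ↥(rrLam x (0 : Divisor K F) ⊓ rrLamInf x (0 : Divisor K F)) ∧
    Module.Finite K (F ⧸ (rrLam x (0 : Divisor K F) ⊔ rrLamInf x (0 : Divisor K F))) := by
  obtain ⟨B, hB⟩ := rrb_exists (K := K) x hx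
  obtain ⟨b, hb⟩ := rr_lam_isLattice x hx B hB (0 : Divisor K F)
  obtain ⟨c, hc⟩ := rr_lamInf_isLattice x hx B hB (0 : Divisor K F)
  haveI : CharZero K⟮x⟯ := charZero_of_injective_algebraMap (algebraMap K K⟮x⟯).injective
  have hβ : (Algebra.traceForm K⟮x⟯ F).Nondegenerate := traceForm_nondegenerate K⟮x⟯ F
  obtain ⟨h1, h2, -⟩ := B.nf_duality (Algebra.traceForm K⟮x⟯ F) hβ b c
  rw [← hb, ← hc] at h1 h2
  exact ⟨h1, h2⟩

/-- [RR-CHI] from the colength-one steps. -/
theorem rr_chi_of_colength (x : F) (hx : Transcendental K x) [FiniteDimensional K⟮x⟯ F]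
    (hA : ∀ (D : Divisor K F) (v : Place K F), 0 ≤ v.ord x →
      finrank K (↥(rrLam x (D + Finsupp.single v 1))
        ⧸ (rrLam x D).submoduleOf (rrLam x (D + Finsupp.single v 1))) = 1)
    (hI : ∀ (D : Divisor K F) (v : Place K F), v.ord x < 0 →
      finrank K (↥(rrLamInf x (D + Finsupp.single v 1))
        ⧸ (rrLamInf x D).submoduleOf (rrLamInf x (D + Finsupp.single v 1))) = 1)
    (D : Divisor K F) :
    Module.Finite K ↥(rrLam x D ⊓ rrLamInf x D) ∧
    Module.Finite K (F ⧸ (rrLam x D ⊔ rrLamInf x D)) ∧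
    (finrank K ↥(rrLam x D ⊓ rrLamInf x D) : ℤ) - finrank K (F ⧸ (rrLam x D ⊔ rrLamInf x D))
      = (finrank K ↥(rrLam x (0 : Divisor K F) ⊓ rrLamInf x (0 : Divisor K F)) : ℤ)
        - finrank K (F ⧸ (rrLam x (0 : Divisor K F) ⊔ rrLamInf x (0 : Divisor K F)))
        + Divisor.degree D :=
  rr_chi_of x (fun v => Fermat.Agent.S24.alg_deg_eq_one x hx v) hA hI
    (rr_finite_zero x hx).1 (rr_finite_zero x hx).2 D

end Fermat.Agent.S20

end
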