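import Mathlib
import Fermat.Prelude.Def_AlgebraicCurve_Repartitions
import Fermat.Prelude.Def_ModularCurve_GenusNumerics
import Fermat.Agent.S24.Defs
import Fermat.Agent.S20.RRDefs

/-!
# S20 — SPECIFICATION of the generic packages (statements only, all `sorry`)

Never import this file from a finished module: each package re-proves its statements under the
same names in its own file (`Fermat/Agent/S20/<Package>.lean`, namespace `Fermat.Agent.S20`);
this file lives in namespace `Fermat.Agent.S20.Spec` so that there is no name clash.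

`K` algebraically closed of characteristic 0, `F ⊇ K` a field, `x : F` transcendental over `K`
with `F` finite over `K(x)`.  `W` is the divisor of `dx`, described by ramification only
(no Kähler differentials): `W v = e_v - 1` at the zeros of `x - a`, `W v = - e_v - 1` at the
poles of `x` (`IsDivisorOfD x W`, in `RRDefs.lean`).

Sorry-free shared files: `RRLin.lean` (Euler characteristic of pairs of subspaces),
`NfBase.lean` (`NfBase k L`: abstract projective line), `NfMatrix.lean` (Dedekind–Weber normal
form), `NfLattice.lean` (`latA`, `latInf`, `dualA`, `dualInf`), `RRDefs.lean`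
(`rrLam`, `rrLamInf`, `rr_inf_eq`, `IsDivisorOfD`, `RrBaseFor`).
-/

set_option autoImplicit false

namespace Fermat.Agent.S20.Spec

open Fermat.Agent.S20
open AlgebraicCurve IntermediateField Module

section generic

variable {K F : Type*} [Field K] [Field F] [Algebra K F] [IsAlgClosed K] [CharZero K]

/-! ## RR-BASE (lead) -/

/-- [RR-BASE] the standard `NfBase` on `K(x)`. -/
theorem rrb_exists (x : F) (hx : Transcendental K x) : ∃ B : NfBase K K⟮x⟯, RrBaseFor x B := sorry

/-- [RR-BASE'] a place of `F` at which `x` has a pole restricts to the degree valuation. -/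
theorem rrb_ord_of_pole (x : F) (hx : Transcendental K x) (B : NfBase K K⟮x⟯)
    (hB : RrBaseFor x B) (v : Place K F) (hv : v.ord x < 0) (r : K⟮x⟯) (hr : r ≠ 0) :
    v.ord (r : F) = v.ord x * WithZero.log (B.v r) := sorry

/-! ## RR-NF (lead): abstract duality for lattice pairs -/

/-- [RR-NF] Serre duality for a pair of lattices over the projective line. -/
theorem nf_duality {k L : Type*} [Field k] [Field L] [Algebra k L] (B : NfBase k L)
    {V : Type*} [AddCommGroup V] [Module L V] [Module k V] [IsScalarTower k L V]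
    [FiniteDimensional L V] {ι : Type*} [Fintype ι] [DecidableEq ι]
    (β : LinearMap.BilinForm L V) (hβ : β.Nondegenerate) (hsymm : β.IsSymm)
    (b c : Basis ι L V) :
    Module.Finite k ↥(B.latA b ⊓ B.latInf c 0) ∧
    Module.Finite k (V ⧸ (B.latA b ⊔ B.latInf c 0)) ∧
    Module.Finite k ↥(B.dualA β (B.latA b) ⊓ B.dualInf β (-2) (B.latInf c 0)) ∧
    Module.Finite k (V ⧸ (B.dualA β (B.latA b) ⊔ B.dualInf β (-2) (B.latInf c 0))) ∧
    finrank k ↥(B.dualA β (B.latA b) ⊓ B.dualInf β (-2) (B.latInf c 0))
      = finrank k (V ⧸ (B.latA b ⊔ B.latInf c 0)) ∧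
    finrank k (V ⧸ (B.dualA β (B.latA b) ⊔ B.dualInf β (-2) (B.latInf c 0)))
      = finrank k ↥(B.latA b ⊓ B.latInf c 0) := sorry

/-! ## RR-DICT: the Riemann–Roch conditions define lattices -/

/-- [RR-DICT] the finite part is an `A`-lattice. -/
theorem rr_lam_isLattice (x : F) (hx : Transcendental K x) [FiniteDimensional K⟮x⟯ F]
    (B : NfBase K K⟮x⟯) (hB : RrBaseFor x B) (D : Divisor K F) :
    ∃ b : Basis (Fin (finrank K⟮x⟯ F)) K⟮x⟯ F, rrLam x D = B.latA b := sorry

/-- [RR-DICT'] the infinite part is a lattice at infinity. -/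
theorem rr_lamInf_isLattice (x : F) (hx : Transcendental K x) [FiniteDimensional K⟮x⟯ F]
    (B : NfBase K K⟮x⟯) (hB : RrBaseFor x B) (D : Divisor K F) :
    ∃ c : Basis (Fin (finrank K⟮x⟯ F)) K⟮x⟯ F, rrLamInf x D = B.latInf c 0 := sorry

/-! ## RR-CHI: the Euler characteristic is `deg D + const` -/

/-- [RR-CHI] (uses `rrl_chi` of `RRLin.lean` place by place). -/
theorem rr_chi (x : F) (hx : Transcendental K x) [FiniteDimensional K⟮x⟯ F] (D : Divisor K F) :
    Module.Finite K ↥(rrLam x D ⊓ rrLamInf x D) ∧
    Module.Finite K (F ⧸ (rrLam x D ⊔ rrLamInf x D)) ∧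
    (finrank K ↥(rrLam x D ⊓ rrLamInf x D) : ℤ) - finrank K (F ⧸ (rrLam x D ⊔ rrLamInf x D))
      = (finrank K ↥(rrLam x (0 : Divisor K F) ⊓ rrLamInf x (0 : Divisor K F)) : ℤ)
        - finrank K (F ⧸ (rrLam x (0 : Divisor K F) ⊔ rrLamInf x (0 : Divisor K F)))
        + Divisor.degree D := sorry

/-- [RR-ZERO] functions without poles are constant. -/
theorem rr_finrank_zero (x : F) (hx : Transcendental K x) [FiniteDimensional K⟮x⟯ F] :
    finrank K ↥(riemannRochSpace (0 : Divisor K F)) = 1 := sorry

/-! ## RR-DIFF: the tame different -/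

/-- [RR-DIFF] the trace dual of the integral closure of `K[x]`. -/
theorem rr_dualA (x : F) (hx : Transcendental K x) [FiniteDimensional K⟮x⟯ F]
    (B : NfBase K K⟮x⟯) (hB : RrBaseFor x B) (W : Divisor K F) (hW : IsDivisorOfD x W) :
    B.dualA (Algebra.traceForm K⟮x⟯ F) (rrLam x (0 : Divisor K F)) = rrLam x W := sorry

/-- [RR-DIFF'] the trace dual at infinity, twisted by `x⁻²` (i.e. by `dx`). -/
theorem rr_dualInf (x : F) (hx : Transcendental K x) [FiniteDimensional K⟮x⟯ F]
    (B : NfBase K K⟮x⟯) (hB : RrBaseFor x B) (W : Divisor K F) (hW : IsDivisorOfD x W) :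
    B.dualInf (Algebra.traceForm K⟮x⟯ F) (-2) (rrLamInf x (0 : Divisor K F)) = rrLamInf x W :=
  sorry

/-! ## RR-ASM -/

/-- [RR-FIN] Riemann–Roch spaces are finite dimensional. -/
theorem rr_finite (x : F) (hx : Transcendental K x) [FiniteDimensional K⟮x⟯ F]
    (D : Divisor K F) : Module.Finite K (riemannRochSpace D) := sorry

/-- [RR-CAN] `ℓ(W) = g` where `deg W = 2 g - 2` (the only consequence of Riemann–Roch that
S20 needs). -/
theorem rr_canonical (x : F) (hx : Transcendental K x) [FiniteDimensional K⟮x⟯ F]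
    (W : Divisor K F) (hW : IsDivisorOfD x W) :
    2 * (Module.finrank K (riemannRochSpace W) : ℤ) - 2 = Divisor.degree W := sorry

end generic

end Fermat.Agent.S20.Spec
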